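import Fermat.Agent.CFT.Triv.ClassAt

/-!
# P3 / CFT, [TOPBRIDGE] (ii)+(iii): transfer of the class-formation data along a sublattice

Pure algebra over a group `Q` (no number fields).  `C'` is the "true" class module of a finite
level (the `S`-idele class group `C_S(K)`), `C` the module `(CS S)^{G_K}` of the Top layer, and
`ι : C →+ C'` is an injective equivariant map whose cokernel is killed by an integer `m` prime
to `p`.  Then every arithmetic hypothesis of `Formation.FinDuality` transfers from `C'` to `C`: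

* `IsPClassModule.transfer` : a `p`-class cocycle `σ'` of `C'` gives the `p`-class cocycle
  `σ = ι⁻¹ (m • σ')` of `C`;
* `NormDiv.transfer`        : **[EX]** `N_U C' ⊆ p • C'^U` gives `N_U C ⊆ p • C^U`;
* `LocData.transfer`        : the local data (coinduced structure of `J`, local class modules,
  local-to-global maps, **[LG]**) transfer, with the local cocycles multiplied by `m`.

`NormDiv` and `LocData` are the corresponding clauses of `Top.Plan.FinLevelData` /
`Formation.FinDuality`, verbatim, for an abstract group.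
-/

set_option autoImplicit false

open CategoryTheory groupCohomology

namespace Fermat.Agent.CFT.Glob.TopBridge

open Fermat.Agent.CFT.Triv

/-! ## The clauses -/

section Defs

variable {Q : Type} [Group Q]

/-- **[EX]** for the subgroup `U`: every norm `N_U c` is `p` times a `U`-invariant element. -/
def NormDiv (p : ℕ) (C : Rep.{0} ℤ Q) (U : Subgroup Q) : Prop :=
  ∀ c : C, ∃ c' : C, (∀ u ∈ U, C.ρ u c' = c') ∧ ∑ᶠ u : U, C.ρ (u : Q) c = p • c'

/-- The local data of `Formation.FinDuality` / `Top.Plan.FinLevelData` for `(C, σ)`, the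
module `J` with `πJ : J →+ C` and the family of subgroups `Gw`: local `p`-class modules
`(Cw i, σw i)`, `J = ∏ᵢ coind (Cw i)` through `pr`, local-to-global maps `j`, and **[LG]**. -/
def LocData (p : ℕ) (C J : Rep.{0} ℤ Q) (πJ : J →+ C) (σ : cocycles₂ C) {ι : Type}
    (Gw : ι → Subgroup Q) : Prop :=
  ∃ (Cw : ∀ i, Rep.{0} ℤ ↥(Gw i)) (σw : ∀ i, cocycles₂ (Cw i))
    (pr : ∀ i, J →+ Cw i) (j : ∀ i, Cw i →+ C),
    (∀ i, IsPClassModule p (Cw i) (σw i)) ∧
    (∀ i (g : ↥(Gw i)) (x : J), pr i (J.ρ (g : Q) x) = (Cw i).ρ g (pr i x)) ∧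
    (∀ x : J, (∀ i g, pr i (J.ρ g x) = 0) → x = 0) ∧
    (∀ f : ∀ i, Q → Cw i,
      (∀ i (h : ↥(Gw i)) (g : Q), f i ((h : Q) * g) = (Cw i).ρ h (f i g)) →
      ∃ x : J, ∀ i g, pr i (J.ρ g x) = f i g) ∧
    (∀ i (g : ↥(Gw i)) (c : Cw i), j i ((Cw i).ρ g c) = C.ρ (g : Q) (j i c)) ∧
    (∀ i (x : J), (∀ i' g, (i' ≠ i ∨ g ∉ Gw i) → pr i' (J.ρ g x) = 0) →
      πJ x = j i (pr i x)) ∧
    (∀ i (H : Subgroup ↥(Gw i)), IsPGroup p H → ∃ b : H → C, ∀ g h : H,
      j i (σw i ((g : ↥(Gw i)), (h : ↥(Gw i)))) =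
        σ (((g : ↥(Gw i)) : Q), ((h : ↥(Gw i)) : Q)) +
          (C.ρ ((g : ↥(Gw i)) : Q) (b h) - b (g * h) + b g))

end Defs

/-! ## Pointwise form of the class-module axioms -/

section Pointwise

variable {Q : Type} [Group Q] {C : Rep.{0} ℤ Q} {σ : cocycles₂ C} {H : Type} [Group H]
  {f : H →* Q}

/-- The class-module axioms at `f`, in pointwise form. -/
theorem isClassAt_iff :
    IsClassAt C σ f ↔
      (∀ c : H → C, (∀ g h, c (g * h) = C.ρ (f g) (c h) + c g) →
        ∃ a : C, ∀ g, c g = C.ρ (f g) a - a) ∧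
      (∀ τ : H × H → C,
        (∀ g h k, τ (g * h, k) + τ (g, h) = C.ρ (f g) (τ (h, k)) + τ (g, h * k)) →
        ∃ (k : ℤ) (b : H → C), ∀ g h,
          τ (g, h) = k • σ (f g, f h) + (C.ρ (f g) (b h) - b (g * h) + b g)) ∧
      (∀ k : ℤ, (∃ b : H → C, ∀ g h,
          k • σ (f g, f h) = C.ρ (f g) (b h) - b (g * h) + b g) →
        (Nat.card H : ℤ) ∣ k) := by
  constructor
  · intro h
    refine ⟨fun c hc => ?_, fun τ hτ => ?_, fun k hk => ?_⟩
    · obtain ⟨a, ha⟩ := h.h1 ⟨c, (mem_cocycles₁_iff (A := Rep.res f C) c).2 hc⟩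
      exact ⟨a, fun g => (congrFun ha g).symm⟩
    · obtain ⟨k, b, hkb⟩ := h.gen ⟨τ, (mem_cocycles₂_iff (A := Rep.res f C) τ).2 hτ⟩
      exact ⟨k, b, fun g h => congrFun hkb (g, h)⟩
    · obtain ⟨b, hb⟩ := hk
      exact h.ord k ⟨b, funext fun x => hb x.1 x.2⟩
  · rintro ⟨h1, h2, h3⟩
    refine ⟨fun c => ?_, fun τ => ?_, fun k hk => ?_⟩
    · obtain ⟨a, ha⟩ := h1 c ((mem_cocycles₁_iff (A := Rep.res f C) c).1 c.2)
      exact ⟨a, funext fun g => (ha g).symm⟩
    · obtain ⟨k, b, hkb⟩ := h2 τ ((mem_cocycles₂_iff (A := Rep.res f C) τ).1 τ.2)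
      exact ⟨k, b, funext fun x => hkb x.1 x.2⟩
    · obtain ⟨b, hb⟩ := hk
      exact h3 k ⟨b, fun g h => congrFun hb (g, h)⟩

end Pointwise

/-! ## `H¹` and `H²` of a finite group are killed by its order (cochain form) -/

section Card

variable {Q : Type} [Group Q] (C : Rep.{0} ℤ Q) {H : Type} [Group H] [Finite H] (f : H →* Q)

theorem card_smul_cocycle_one (c : H → C) (hc : ∀ g h, c (g * h) = C.ρ (f g) (c h) + c g) :
    ∃ a : C, ∀ g, (Nat.card H : ℤ) • c g = C.ρ (f g) a - a := by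
  classical
  let _ : Fintype H := Fintype.ofFinite H
  refine ⟨-∑ h : H, c h, fun g => ?_⟩
  have h1 : ∑ h : H, c (g * h) = ∑ h : H, c h :=
    Equiv.sum_comp (Equiv.mulLeft g) c
  have h2 : ∑ h : H, c (g * h) = C.ρ (f g) (∑ h : H, c h) + (Nat.card H : ℤ) • c g := by
    simp only [hc, Finset.sum_add_distrib, map_sum, Finset.sum_const, Finset.card_univ,
      Nat.card_eq_fintype_card, natCast_zsmul]
  rw [h1] at h2
  have h3 : (Nat.card H : ℤ) • c g = ∑ h : H, c h - C.ρ (f g) (∑ h : H, c h) := by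
    rw [eq_sub_iff_add_eq']
    exact h2.symm
  rw [h3, map_neg]
  abel

theorem card_smul_cocycle_two (τ : H × H → C)
    (hτ : ∀ g h k, τ (g * h, k) + τ (g, h) = C.ρ (f g) (τ (h, k)) + τ (g, h * k)) :
    ∃ b : H → C, ∀ g h,
      (Nat.card H : ℤ) • τ (g, h) = C.ρ (f g) (b h) - b (g * h) + b g := by
  classical
  let _ : Fintype H := Fintype.ofFinite H
  refine ⟨fun g => ∑ k : H, τ (g, k), fun g h => ?_⟩
  have h1 : ∑ k : H, τ (g, h * k) = ∑ k : H, τ (g, k) :=
    Equiv.sum_comp (Equiv.mulLeft h) (fun k => τ (g, k))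
  have h2 : ∑ k : H, (τ (g * h, k) + τ (g, h)) =
      ∑ k : H, (C.ρ (f g) (τ (h, k)) + τ (g, h * k)) :=
    Finset.sum_congr rfl fun k _ => hτ g h k
  simp only [Finset.sum_add_distrib, Finset.sum_const, Finset.card_univ, h1, ← map_sum] at h2
  have h3 : (Nat.card H : ℤ) • τ (g, h) =
      C.ρ (f g) (∑ k : H, τ (h, k)) + ∑ k : H, τ (g, k) - ∑ k : H, τ (g * h, k) := by
    rw [Nat.card_eq_fintype_card, natCast_zsmul, eq_sub_iff_add_eq']
    exact h2
  rw [h3]
  abel

end Card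

/-! ## Lifting additive maps through an injection -/

theorem exists_addMonoidHom_lift {A C C' : Type*} [AddCommGroup A] [AddCommGroup C]
    [AddCommGroup C'] (ι : C →+ C') (hinj : Function.Injective ι) (φ : A →+ C')
    (h : ∀ a, ∃ c, ι c = φ a) : ∃ ψ : A →+ C, ∀ a, ι (ψ a) = φ a := by
  choose ψ hψ using h
  refine ⟨{ toFun := ψ, map_zero' := ?_, map_add' := ?_ }, hψ⟩
  · apply hinj
    rw [hψ, map_zero, map_zero]
  · intro a b
    apply hinj
    rw [hψ, map_add, map_add, hψ, hψ]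

/-! ## Transfer of the class-module axioms -/

section Transfer

variable {Q : Type} [Group Q] {C C' : Rep.{0} ℤ Q} (ι : C →+ C')
  (hι : ∀ g c, ι (C.ρ g c) = C'.ρ g (ι c)) (hinj : Function.Injective ι)
  (m : ℤ) (hcok : ∀ c' : C', ∃ c : C, ι c = m • c')

include hinj in
/-- The cocycle `ι⁻¹ (m • σ')` of `C`. -/
theorem exists_cocycle_smul (hι : ∀ g c, ι (C.ρ g c) = C'.ρ g (ι c))
    (hcok : ∀ c' : C', ∃ c : C, ι c = m • c') (σ' : cocycles₂ C') :
    ∃ σ : cocycles₂ C, ∀ g h, ι (σ (g, h)) = m • σ' (g, h) := by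
  choose s hs using fun x : Q × Q => hcok (σ' x)
  refine ⟨⟨s, (mem_cocycles₂_iff s).2 fun g h k => ?_⟩, fun g h => hs (g, h)⟩
  apply hinj
  have h' := (mem_cocycles₂_iff (A := C') σ').1 σ'.2 g h k
  rw [map_add, map_add, hι, hs, hs, hs, hs, ← smul_add, h', smul_add, map_zsmul]

include hι hinj hcok in
/-- Transfer of the class-module axioms at `f : H →* Q` (`H` finite of order prime to `m`). -/
theorem IsClassAt.transfer {σ' : cocycles₂ C'} {σ : cocycles₂ C}
    (hσ : ∀ g h, ι (σ (g, h)) = m • σ' (g, h)) {H : Type} [Group H] [Finite H] {f : H →* Q}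
    (hm : IsCoprime m (Nat.card H : ℤ)) (h : IsClassAt C' σ' f) : IsClassAt C σ f := by
  obtain ⟨u, v, huv⟩ := hm
  rw [isClassAt_iff] at h ⊢
  obtain ⟨h1, h2, h3⟩ := h
  refine ⟨fun c hc => ?_, fun τ hτ => ?_, fun k hk => ?_⟩
  · -- `H¹`
    obtain ⟨a', ha'⟩ := h1 (fun g => ι (c g)) (fun g h => by rw [hc, map_add, hι])
    obtain ⟨a₁, ha₁⟩ := hcok a'
    obtain ⟨a₂, ha₂⟩ := card_smul_cocycle_one C f c hc
    have e1 : ∀ g, m • c g = C.ρ (f g) a₁ - a₁ := by
      intro g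
      apply hinj
      rw [map_zsmul, ha', map_sub, hι, ha₁, map_zsmul, smul_sub]
    refine ⟨u • a₁ + v • a₂, fun g => ?_⟩
    have e2 : c g = u • (m • c g) + v • ((Nat.card H : ℤ) • c g) := by
      rw [smul_smul, smul_smul, ← add_smul, huv, one_smul]
    rw [e2, e1, ha₂, map_add, map_zsmul, map_zsmul]
    simp only [smul_sub]
    abel
  · -- generation of `H²`
    obtain ⟨k, b', hb'⟩ := h2 (fun x => ι (τ x))
      (fun g h k => by rw [← map_add, hτ, map_add, hι])
    choose b₁ hb₁ using fun h : H => hcok (b' h)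
    obtain ⟨b₂, hb₂⟩ := card_smul_cocycle_two C f τ hτ
    have e1 : ∀ g h, m • τ (g, h) =
        k • σ (f g, f h) + (C.ρ (f g) (b₁ h) - b₁ (g * h) + b₁ g) := by
      intro g h
      apply hinj
      rw [map_zsmul, hb', map_add, map_zsmul, hσ, map_add, map_sub, hι, hb₁, hb₁, hb₁,
        smul_add, smul_comm m k, map_zsmul, smul_add, smul_sub]
    refine ⟨u * k, fun h => u • b₁ h + v • b₂ h, fun g h => ?_⟩
    have e2 : τ (g, h) = u • (m • τ (g, h)) + v • ((Nat.card H : ℤ) • τ (g, h)) := by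
      rw [smul_smul, smul_smul, ← add_smul, huv, one_smul]
    rw [e2, e1, hb₂, map_add, map_zsmul, map_zsmul, mul_smul]
    simp only [smul_sub, smul_add]
    abel
  · -- the order
    obtain ⟨b, hb⟩ := hk
    have h4 := h3 (k * m) ⟨fun h => ι (b h), fun g h => by
      rw [mul_smul, ← hσ, ← map_zsmul, hb, map_add, map_sub, hι]⟩
    exact (IsCoprime.symm ⟨u, v, huv⟩).dvd_of_dvd_mul_right h4

include hι hinj hcok in
/-- **Transfer of the `p`-class module**: if `(C', σ')` is a `p`-class module, `ι : C →+ C'` is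
injective and equivariant with cokernel killed by `m` prime to `p`, and `ι ∘ σ = m • σ'`, then
`(C, σ)` is a `p`-class module. -/
theorem IsPClassModule.transfer {p : ℕ} [Fact p.Prime] (hm : IsCoprime m (p : ℤ))
    {σ' : cocycles₂ C'}
    {σ : cocycles₂ C} (hσ : ∀ g h, ι (σ (g, h)) = m • σ' (g, h))
    (h : IsPClassModule p C' σ') : IsPClassModule p C σ := by
  intro H _ _ f hf hH
  obtain ⟨n, hn⟩ := IsPGroup.iff_card.1 hH
  refine IsClassAt.transfer ι hι hinj m hcok hσ ?_ (h H f hf hH)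
  rw [hn, Nat.cast_pow]
  exact hm.pow_right

/-- Multiplying a `p`-class cocycle by an integer prime to `p` gives a `p`-class cocycle. -/
theorem IsPClassModule.zsmul {p : ℕ} [Fact p.Prime] {m : ℤ} (hm : IsCoprime m (p : ℤ))
    {C : Rep.{0} ℤ Q} {σ : cocycles₂ C} (h : IsPClassModule p C σ) :
    IsPClassModule p C (m • σ) :=
  IsPClassModule.transfer (AddMonoidHom.id C) (fun _ _ => rfl) Function.injective_id m
    (fun c' => ⟨m • c', rfl⟩) hm (fun _ _ => rfl) h

include hι hinj hcok in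
/-- **Transfer of [EX]**. -/
theorem NormDiv.transfer [Finite Q] {p : ℕ} (hm : IsCoprime m (p : ℤ)) {U : Subgroup Q}
    (h : NormDiv p C' U) : NormDiv p C U := by
  classical
  intro c
  obtain ⟨u, v, huv⟩ := hm
  obtain ⟨d', hd', hsum⟩ := h (ι c)
  obtain ⟨e, he⟩ := hcok d'
  have hefix : ∀ g ∈ U, C.ρ g e = e := by
    intro g hg
    apply hinj
    rw [hι, he, map_zsmul, hd' g hg]
  have hmap : ι (∑ᶠ g : U, C.ρ (g : Q) c) = ∑ᶠ g : U, C'.ρ (g : Q) (ι c) := by
    rw [AddMonoidHom.map_finsum _ (Set.toFinite _)]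
    exact finsum_congr fun g => hι _ _
  have hNfix : ∀ g ∈ U, C.ρ g (∑ᶠ g : U, C.ρ (g : Q) c) = ∑ᶠ g : U, C.ρ (g : Q) c := by
    intro g hg
    have h1 : (C.ρ g).toAddMonoidHom (∑ᶠ x : U, C.ρ (x : Q) c) =
        ∑ᶠ x : U, (C.ρ g).toAddMonoidHom (C.ρ (x : Q) c) :=
      AddMonoidHom.map_finsum _ (Set.toFinite _)
    have h2 : ∑ᶠ x : U, C.ρ (x : Q) c = ∑ᶠ x : U, C.ρ (((⟨g, hg⟩ : U) * x : U) : Q) c :=
      (finsum_comp_equiv (Equiv.mulLeft (⟨g, hg⟩ : U)) (f := fun x : U => C.ρ (x : Q) c)).symm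
    change (C.ρ g).toAddMonoidHom _ = _
    rw [h1, h2]
    refine finsum_congr fun x => ?_
    change C.ρ g (C.ρ (x : Q) c) = C.ρ (g * (x : Q)) c
    rw [map_mul]
    rfl
  have e1 : m • ∑ᶠ g : U, C.ρ (g : Q) c = (p : ℤ) • e := by
    apply hinj
    rw [map_zsmul, map_zsmul, hmap, hsum, he, natCast_zsmul, smul_comm]
  refine ⟨u • e + v • ∑ᶠ g : U, C.ρ (g : Q) c, fun g hg => ?_, ?_⟩
  · rw [map_add, map_zsmul, map_zsmul, hefix g hg, hNfix g hg]
  · have e2 : ∑ᶠ g : U, C.ρ (g : Q) c =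
        u • (m • ∑ᶠ g : U, C.ρ (g : Q) c) + v • ((p : ℤ) • ∑ᶠ g : U, C.ρ (g : Q) c) := by
      rw [smul_smul, smul_smul, ← add_smul, huv, one_smul]
    conv_lhs => rw [e2, e1]
    rw [← natCast_zsmul, smul_add, smul_comm u, smul_comm v]

include hι hinj hcok in
/-- **Transfer of the local data** (including [LG]); the local cocycles are multiplied by
`m`. -/
theorem LocData.transfer {p : ℕ} [Fact p.Prime] (hm : IsCoprime m (p : ℤ))
    {J : Rep.{0} ℤ Q} {πJ' : J →+ C'} {πJ : J →+ C} (hπ : ∀ x, ι (πJ x) = πJ' x)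
    {σ' : cocycles₂ C'} {σ : cocycles₂ C} (hσ : ∀ g h, ι (σ (g, h)) = m • σ' (g, h))
    {ι' : Type} {Gw : ι' → Subgroup Q} (h : LocData p C' J πJ' σ' Gw) :
    LocData p C J πJ σ Gw := by
  classical
  obtain ⟨Cw, σw, pr, j', hσw, hpr, hprinj, hprsurj, hj', hjπ', hLG'⟩ := h
  -- the local-to-global maps land in `C`
  have hex : ∀ i (c : Cw i), ∃ c₀ : C, ι c₀ = j' i c := by
    intro i c
    obtain ⟨x, hx⟩ := hprsurj
      (fun i' g => if h : i = i' then
        h ▸ (if hg : g ∈ Gw i then (Cw i).ρ ⟨g, hg⟩ c else 0) else 0)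
      (by
        intro i' h g
        by_cases hi : i = i'
        · subst hi
          rw [dif_pos rfl, dif_pos rfl]
          by_cases hg : g ∈ Gw i
          · have hg' : (h : Q) * g ∈ Gw i := (Gw i).mul_mem h.2 hg
            rw [dif_pos hg, dif_pos hg']
            change _ = ((Cw i).ρ h * (Cw i).ρ ⟨g, hg⟩) c
            rw [← map_mul]
            rfl
          · have hg' : (h : Q) * g ∉ Gw i := fun h' => hg (by
              have := (Gw i).mul_mem ((Gw i).inv_mem h.2) h'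
              simpa using this)
            rw [dif_neg hg, dif_neg hg']
            exact (map_zero _).symm
        · rw [dif_neg hi, dif_neg hi]
          exact (map_zero _).symm)
    refine ⟨πJ x, ?_⟩
    have h1 : pr i x = c := by
      have h2 := hx i 1
      rw [map_one, dif_pos rfl, dif_pos (Gw i).one_mem] at h2
      have h3 : (⟨1, (Gw i).one_mem⟩ : ↥(Gw i)) = 1 := rfl
      rw [h3, map_one] at h2
      exact h2
    rw [hπ, hjπ' i x, h1]
    rintro i' g (hi | hg)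
    · rw [hx, dif_neg (Ne.symm hi)]
    · rw [hx]
      by_cases hi : i = i'
      · subst hi
        rw [dif_pos rfl, dif_neg hg]
      · rw [dif_neg hi]
  have hjex : ∀ i, ∃ j : Cw i →+ C, ∀ c, ι (j c) = j' i c := fun i =>
    exists_addMonoidHom_lift ι hinj (j' i) (hex i)
  choose j hj using hjex
  refine ⟨Cw, fun i => m • σw i, pr, j, fun i => IsPClassModule.zsmul hm (hσw i), hpr, hprinj, hprsurj,
    fun i g c => ?_, fun i x hx => ?_, fun i H hH => ?_⟩
  · apply hinj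
    rw [hj, hj', hι, hj]
  · apply hinj
    rw [hπ, hj, hjπ' i x hx]
  · obtain ⟨b', hb'⟩ := hLG' i H hH
    choose b hb using fun h : H => hcok (b' h)
    refine ⟨b, fun g h => ?_⟩
    apply hinj
    have e1 : (m • σw i) ((g : ↥(Gw i)), (h : ↥(Gw i))) =
        m • σw i ((g : ↥(Gw i)), (h : ↥(Gw i))) := rfl
    rw [e1, map_zsmul, map_zsmul, hj, hb', map_add, map_add, map_sub, hι, hσ, hb, hb, hb,
      map_zsmul, smul_add, smul_add, smul_sub]

end Transfer

end Fermat.Agent.CFT.Glob.TopBridge
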