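import Fermat.Agent.CFT.Level.Defs
import Fermat.Agent.CFT.Glob.TopBridge.Transfer

/-!
# P3 / CFT, [TOPBRIDGE] (ii): the comparison `(C_t)^{N} ↪ C'` (abstract form)

`G` is a group with a level system `L` (in the application `GQ` with the normal `S`-levels),
`ψ : J_t → C_t` a map of `G`-modules (`JS S → CS S`), and `i` a level with finite quotient
`π : G →* Q`.  `C'` is the "true" class module of the level (a `Q`-module, `C_S(K)`), with
`cl : J → C'` from a finite-level model `J` of `J_t`.  The comparison is made inside an ambient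
`G`-module `C_true` (in the application: the `S`-idele class module of `ℚ̄`), into which both
`C_t` (by `Θ`) and `C'` (by `τ`) embed:

* `hdesc` (Galois descent): every `N_i`-invariant element of `C_t` lies in `τ(C')`;
* `hcap` (capitulation): `m • C' ⊆ Θ(C_t)` inside `C_true`.

Then `C := {c' ∈ C' | τ c' ∈ Θ(C_t)}` with `ιC := Θ⁻¹ ∘ τ` is a finite-level model of `C_t` at
the level `i`, the inclusion `C ⊆ C'` has cokernel killed by `m`, and `cl` factors through `C`.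
-/

set_option autoImplicit false

open CategoryTheory

namespace Fermat.Agent.CFT.Glob.TopBridge

open Fermat.Agent.CFT

section Core

variable {G : Type} [Group G] (L : Level.LevelSys G) (i : L.ι)
  {Jt Ct Ctrue : Rep.{0} ℤ G} (ψ : Jt →+ Ct) (Θ : Ct →+ Ctrue)
  {Q : Type} [Group Q] (π : G →* Q) {J C' : Rep.{0} ℤ Q}
  (ιJ : J →+ Jt) (cl : J →+ C') (τ : C' →+ Ctrue)

section Sub

-- for a `Rep ℤ Q` the module structure of the carrier is `Rep.hV2` (not `AddCommGroup.toIntModule`)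
attribute [local instance 10000] Rep.hV2

/-- `τ⁻¹(Θ(C_t)) ⊆ C'` as a submodule. -/
def preSub : Submodule ℤ C' where
  carrier := {c' | ∃ c, Θ c = τ c'}
  add_mem' := by
    rintro a b ⟨c, hc⟩ ⟨d, hd⟩
    exact ⟨c + d, by rw [map_add, map_add, hc, hd]⟩
  zero_mem' := ⟨0, by rw [map_zero, map_zero]⟩
  smul_mem' := by
    intro n a ha
    have e := int_smul_eq_zsmul C'.hV2 n a
    change @SMul.smul ℤ C'.V C'.hV2.toSMul n a ∈ _
    rw [e]
    exact (Θ.range.comap τ).zsmul_mem ha n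

lemma preSub_le_comap (hΘ : ∀ g c, Θ (Ct.ρ g c) = Ctrue.ρ g (Θ c))
    (hτ : ∀ g c', τ (C'.ρ (π g) c') = Ctrue.ρ g (τ c')) (hπ : Function.Surjective π) (q : Q) :
    preSub Θ τ ≤ (preSub Θ τ).comap (C'.ρ q) := by
  intro c' hc'
  obtain ⟨g, rfl⟩ := hπ q
  obtain ⟨c, hc⟩ := hc'
  exact ⟨Ct.ρ g c, by rw [hΘ, hc, hτ]⟩

/-- `τ⁻¹(Θ(C_t))` as a `Q`-module. -/
def preRep (hΘ : ∀ g c, Θ (Ct.ρ g c) = Ctrue.ρ g (Θ c))
    (hτ : ∀ g c', τ (C'.ρ (π g) c') = Ctrue.ρ g (τ c')) (hπ : Function.Surjective π) :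
    Rep.{0} ℤ Q :=
  @Rep.of ℤ Q _ _ ↥(preSub Θ τ) _ (Submodule.module _)
    (C'.ρ.subrepresentation (preSub Θ τ) (preSub_le_comap Θ π τ hΘ hτ hπ))

variable (hΘ : ∀ g c, Θ (Ct.ρ g c) = Ctrue.ρ g (Θ c))
  (hτ : ∀ g c', τ (C'.ρ (π g) c') = Ctrue.ρ g (τ c')) (hπ : Function.Surjective π)

/-- The inclusion `τ⁻¹(Θ(C_t)) → C'`. -/
def preIncl : preRep Θ π τ hΘ hτ hπ →+ C' := (preSub Θ τ).subtype.toAddMonoidHom

lemma preIncl_injective : Function.Injective (preIncl Θ π τ hΘ hτ hπ) := Subtype.val_injective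

lemma preIncl_rho (q : Q) (a : preRep Θ π τ hΘ hτ hπ) :
    preIncl Θ π τ hΘ hτ hπ ((preRep Θ π τ hΘ hτ hπ).ρ q a) =
      C'.ρ q (preIncl Θ π τ hΘ hτ hπ a) := rfl

lemma preIncl_mem (a : preRep Θ π τ hΘ hτ hπ) : ∃ c, Θ c = τ (preIncl Θ π τ hΘ hτ hπ a) := a.2

lemma exists_preIncl_eq (c' : C') (h : ∃ c, Θ c = τ c') :
    ∃ a : preRep Θ π τ hΘ hτ hπ, preIncl Θ π τ hΘ hτ hπ a = c' := ⟨⟨c', h⟩, rfl⟩

end Sub

/-- The abstract comparison: construction of the finite-level model of `C_t` inside `C'`. -/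
theorem exists_model_of_ambient
    (hΘ : ∀ g c, Θ (Ct.ρ g c) = Ctrue.ρ g (Θ c)) (hΘinj : Function.Injective Θ)
    (hτ : ∀ g c', τ (C'.ρ (π g) c') = Ctrue.ρ g (τ c')) (hτinj : Function.Injective τ)
    (hP : L.P i) (hπ : Function.Surjective π) (hker : π.ker = L.N i)
    (hcomp : ∀ x, τ (cl x) = Θ (ψ (ιJ x)))
    (hdesc : ∀ c : Ct, (∀ n ∈ L.N i, Ct.ρ n c = c) → ∃ c', τ c' = Θ c)
    (m : ℤ) (hcap : ∀ c', ∃ c, Θ c = τ (m • c')) :
    ∃ (C : Rep.{0} ℤ Q) (ιC : C →+ Ct) (ι : C →+ C') (πJ : J →+ C),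
      Level.IsFiniteLevel L Ct i π C ιC ∧ (∀ x, ιC (πJ x) = ψ (ιJ x)) ∧
      (∀ g c, ι (C.ρ g c) = C'.ρ g (ι c)) ∧ Function.Injective ι ∧ (∀ x, ι (πJ x) = cl x) ∧
      (∀ c', ∃ c, ι c = m • c') := by
  have hinc := preIncl_injective Θ π τ hΘ hτ hπ
  obtain ⟨ιC, hιC⟩ := exists_addMonoidHom_lift Θ hΘinj
    (τ.comp (preIncl Θ π τ hΘ hτ hπ)) (preIncl_mem Θ π τ hΘ hτ hπ)
  have hιC' : ∀ a, Θ (ιC a) = τ (preIncl Θ π τ hΘ hτ hπ a) := hιC
  obtain ⟨πJ, hπJ⟩ := exists_addMonoidHom_lift (preIncl Θ π τ hΘ hτ hπ) hinc cl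
    (fun x => exists_preIncl_eq Θ π τ hΘ hτ hπ (cl x) ⟨_, (hcomp x).symm⟩)
  refine ⟨preRep Θ π τ hΘ hτ hπ, ιC, preIncl Θ π τ hΘ hτ hπ, πJ,
    ⟨hP, hπ, hker, ?_, ?_, ?_⟩, ?_, preIncl_rho Θ π τ hΘ hτ hπ, hinc, hπJ, ?_⟩
  · intro g a
    apply hΘinj
    rw [hΘ, hιC', hιC', preIncl_rho, hτ]
  · intro a b hab
    apply hinc
    apply hτinj
    have := congrArg Θ hab
    rwa [hιC', hιC'] at this
  · intro a ha
    obtain ⟨c', hc'⟩ := hdesc a ha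
    obtain ⟨b, hb⟩ := exists_preIncl_eq Θ π τ hΘ hτ hπ c' ⟨a, hc'.symm⟩
    refine ⟨b, ?_⟩
    apply hΘinj
    rw [hιC', hb]
    exact hc'
  · intro x
    apply hΘinj
    rw [hιC', hπJ]
    exact hcomp x
  · intro c'
    exact exists_preIncl_eq Θ π τ hΘ hτ hπ (m • c') (hcap c')

end Core

end Fermat.Agent.CFT.Glob.TopBridge
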