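import Fermat.Agent.CFT.Top.DualPlan
import Fermat.Agent.CFT.Global.ClassDescent
import Fermat.Agent.CFT.Glob.TopBridge.Core

/-!
# P3 / CFT, [TOPBRIDGE] (ii): the ambient class module `C_S(ℚ̄)`

The comparison between the Top layer's `CS S = JS S / ES S` and the `S`-idele class groups
`C_S(K)` of the finite levels (Global layer, `Global.classRepS`) is made inside ONE ambient
`GQ`-module: `Global.classRepS GQ Qb S`, the Global definitions applied to the field `ℚ̄` itself.

* `mkS L S x hx : ClassGroupSOf L S` : the class of a finite idele, with its API;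
* `extS S` : extension of an element of `∏_{q ∈ S} (ℚ̄ ⊗ ℚ_q)ˣ` by `1` outside `S`;
* `jsToIdele S : JS S →+ IdeleGroupOf Qb` and its equivariance `jsToIdele_rho`;
* `exists_theta` : from the `S`-unit dictionary `Top.sUnits S = Global.sUnits Qb S`, the injective
  equivariant map `Θ : CS S →+ C_S(ℚ̄)` with `Θ (jsProj j) = mkS (jsToIdele j)`.
-/

set_option autoImplicit false

open CategoryTheory
open scoped TensorProduct

noncomputable section

namespace Fermat.Agent.CFT.Glob.TopBridge

open Fermat.Agent.CFT

/-! ## Classes of finite ideles in `C_S(L)` -/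

section MkS

variable (L : Type) [Field L] [CharZero L] (S : Finset Nat.Primes)

/-- The class in `C_S(L)` of a finite idele. -/
def mkS (x : Global.IdeleProd L) (hx : x ∈ Global.finIdele L) : Global.ClassGroupSOf L S :=
  Submodule.Quotient.mk ⟨Additive.ofMul x, hx⟩

variable {L S}

theorem exists_mkS (c : Global.ClassGroupSOf L S) :
    ∃ (x : Global.IdeleProd L) (hx : x ∈ Global.finIdele L), mkS L S x hx = c := by
  induction c using Submodule.Quotient.induction_on with
  | _ y => exact ⟨Additive.toMul y.1, y.2, rfl⟩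

theorem mkS_eq_zero_iff {x : Global.IdeleProd L} (hx : x ∈ Global.finIdele L) :
    mkS L S x hx = 0 ↔ x ∈ (Global.principal L).range ⊔ Global.unitsOutside L S := by
  unfold mkS
  rw [Submodule.Quotient.mk_eq_zero]
  rfl

theorem mkS_mul {x y : Global.IdeleProd L} (hx : x ∈ Global.finIdele L)
    (hy : y ∈ Global.finIdele L) :
    mkS L S (x * y) (mul_mem hx hy) = mkS L S x hx + mkS L S y hy := rfl

theorem mkS_eq_mkS_iff {x y : Global.IdeleProd L} (hx : x ∈ Global.finIdele L)
    (hy : y ∈ Global.finIdele L) :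
    mkS L S x hx = mkS L S y hy ↔
      x / y ∈ (Global.principal L).range ⊔ Global.unitsOutside L S := by
  unfold mkS
  rw [Submodule.Quotient.eq]
  rfl

open scoped Fermat.Agent.CFT.Global in
theorem rho_mkS (G : Type) [Group G] [MulSemiringAction G L] (g : G) (x : Global.IdeleProd L)
    (hx : x ∈ Global.finIdele L) :
    (Global.classRepS G L S).ρ g (mkS L S x hx) =
      mkS L S (g • x) (Global.smul_mem_finIdele G L g hx) := rfl

theorem classMapS_mkS {L' : Type} [Field L'] [CharZero L'] (f : L →+* L')
    (x : Global.IdeleProd L) (hx : x ∈ Global.finIdele L) :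
    Global.classMapS f S (mkS L S x hx) =
      mkS L' S (Global.ideleProdMap f x) (Global.ideleProdMap_mem_finIdele f hx) := rfl

end MkS

/-! ## The two actions of `GQ` on `ℚ̄ ⊗ ℚ_q` agree -/

section Actions

-- in this file `•` always means the Global layer's action; the Top layer's action only occurs
-- through `Top.tqHom` and the representations `(Top.JS S).ρ`, `(Top.CS S).ρ`
attribute [-instance] Top.tqAction Top.tqUnitsAction Top.jFullAction Top.jFullSMul

open scoped Fermat.Agent.CFT.Global

/-- The Top layer's action on `ℚ̄ ⊗ ℚ_q` (`Top.tqHom`) is the Global layer's action. -/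
theorem tqHom_eq_smul (q : Nat.Primes) (g : Top.GQ) (t : Top.Tq q) :
    Top.tqHom q g t = g • (t : Global.SemiLocal Top.Qb q) := by
  induction t using TensorProduct.induction_on with
  | zero => rw [map_zero, smul_zero]
  | tmul x y => rfl
  | add a b ha hb => rw [map_add, ha, hb, smul_add]

/-- The class of a finite idele of `L` in `J_L`. -/
def mkJ (L : Type) [Field L] [CharZero L] (x : Global.IdeleProd L) (hx : x ∈ Global.finIdele L) :
    Global.IdeleGroupOf L := ⟨Additive.ofMul x, hx⟩

theorem ideleRep_rho_mkJ (G L : Type) [Group G] [Field L] [CharZero L] [MulSemiringAction G L]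
    (g : G) (x : Global.IdeleProd L) (hx : x ∈ Global.finIdele L) :
    (Global.ideleRep G L).ρ g (mkJ L x hx) = mkJ L (g • x) (Global.smul_mem_finIdele G L g hx) :=
  rfl

theorem classMkS_mkJ (G L : Type) [Group G] [Field L] [CharZero L] [MulSemiringAction G L]
    (S : Finset Nat.Primes) (x : Global.IdeleProd L) (hx : x ∈ Global.finIdele L) :
    (Global.classMkS G L S).hom (mkJ L x hx) = mkS L S x hx := rfl

/-! ## From the `S`-ideles of `ℚ_S` to the finite ideles of `ℚ̄` -/

variable (S : Finset Nat.Primes)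

/-- Extension of a family indexed by `S` by `1` outside `S`. -/
def extS : (∀ q : ↥S, (Top.Tq q.1)ˣ) →* Global.IdeleProd Top.Qb where
  toFun u := fun q => if h : q ∈ S then u ⟨q, h⟩ else 1
  map_one' := by
    funext q
    by_cases h : q ∈ S <;> simp [h]
  map_mul' u v := by
    funext q
    by_cases h : q ∈ S <;> simp [h]

variable {S}

theorem extS_apply_of_mem (u : ∀ q : ↥S, (Top.Tq q.1)ˣ) {q : Nat.Primes} (h : q ∈ S) :
    extS S u q = u ⟨q, h⟩ := dif_pos h

theorem extS_apply_of_notMem (u : ∀ q : ↥S, (Top.Tq q.1)ˣ) {q : Nat.Primes} (h : q ∉ S) :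
    extS S u q = 1 := dif_neg h

theorem extS_mem_supportedOn (u : ∀ q : ↥S, (Top.Tq q.1)ˣ) :
    extS S u ∈ Global.supportedOn Top.Qb S := fun _ hq => extS_apply_of_notMem u hq

theorem extS_mem_finIdele (u : ∀ q : ↥S, (Top.Tq q.1)ˣ) :
    extS S u ∈ Global.finIdele Top.Qb :=
  Global.supportedOn_le_finIdele _ _ (extS_mem_supportedOn u)

variable (S)

/-- The underlying family of an element of `JS S`. -/
def jsVal (j : Top.JS S) : ∀ q : ↥S, (Top.Tq q.1)ˣ :=
  Additive.toMul (show Additive (∀ q : ↥S, (Top.Tq q.1)ˣ) from j.1)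

theorem jsVal_add (a b : Top.JS S) : jsVal S (a + b) = jsVal S a * jsVal S b := rfl

theorem jsVal_zero : jsVal S 0 = 1 := rfl

theorem jsVal_injective : Function.Injective (jsVal S) := fun _ _ h =>
  Subtype.ext (Additive.toMul.injective h)

/-- The Top action on `JS S`, componentwise. -/
theorem jsVal_rho (g : Top.GQ) (j : Top.JS S) (q : ↥S) :
    ((jsVal S ((Top.JS S).ρ g j) q : (Top.Tq q.1)ˣ) : Top.Tq q.1) =
      Top.tqHom q.1 g ((jsVal S j q : (Top.Tq q.1)ˣ) : Top.Tq q.1) := rfl

/-- `JS S → J_{ℚ̄}` (finite ideles of `ℚ̄`), extending by `1` outside `S`. -/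
def jsToIdele : (Top.JS S) →+ Global.IdeleGroupOf Top.Qb where
  toFun j := mkJ Top.Qb (extS S (jsVal S j)) (extS_mem_finIdele _)
  map_zero' := Subtype.ext (by
    show Additive.ofMul (extS S (jsVal S 0)) = 0
    rw [jsVal_zero, map_one]
    rfl)
  map_add' a b := Subtype.ext (by
    show Additive.ofMul (extS S (jsVal S (a + b))) = _
    rw [jsVal_add, map_mul]
    rfl)

theorem jsToIdele_apply (j : Top.JS S) :
    jsToIdele S j = mkJ Top.Qb (extS S (jsVal S j)) (extS_mem_finIdele _) := rfl

/-- `jsToIdele` is `GQ`-equivariant. -/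
theorem jsToIdele_rho (g : Top.GQ) (j : Top.JS S) :
    jsToIdele S ((Top.JS S).ρ g j) = (Global.ideleRep Top.GQ Top.Qb).ρ g (jsToIdele S j) := by
  rw [jsToIdele_apply, jsToIdele_apply, ideleRep_rho_mkJ]
  refine Subtype.ext (congrArg Additive.ofMul ?_)
  funext q
  apply Units.ext
  by_cases h : q ∈ S
  · refine (congrArg Units.val (extS_apply_of_mem _ h)).trans ?_
    refine (jsVal_rho S g j ⟨q, h⟩).trans ?_
    rw [tqHom_eq_smul]
    exact congrArg (fun u : (Global.SemiLocal Top.Qb q)ˣ =>
      g • (u : Global.SemiLocal Top.Qb q)) (extS_apply_of_mem (jsVal S j) h).symm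
  · refine (congrArg Units.val (extS_apply_of_notMem _ h)).trans ?_
    refine Eq.trans ?_ (congrArg (fun u : (Global.SemiLocal Top.Qb q)ˣ =>
      g • (u : Global.SemiLocal Top.Qb q)) (extS_apply_of_notMem (jsVal S j) h).symm)
    exact (smul_one g).symm

/-! ## The map `Θ : CS S → C_S(ℚ̄)` -/

/-- `JS S → C_S(ℚ̄)`: the class of the idele extended by `1` outside `S`. -/
def thetaPre : (Top.JS S) →+ Global.ClassGroupSOf Top.Qb S where
  toFun j := mkS Top.Qb S (extS S (jsVal S j)) (extS_mem_finIdele _)
  map_zero' := by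
    rw [mkS_eq_zero_iff]
    have : extS S (jsVal S 0) = 1 := by rw [jsVal_zero, map_one]
    rw [this]
    exact one_mem _
  map_add' a b := by
    rw [← mkS_mul]
    congr 1
    rw [jsVal_add, map_mul]

theorem thetaPre_apply (j : Top.JS S) :
    thetaPre S j = mkS Top.Qb S (extS S (jsVal S j)) (extS_mem_finIdele _) := rfl

theorem thetaPre_eq (j : Top.JS S) :
    thetaPre S j = (Global.classMkS Top.GQ Top.Qb S).hom (jsToIdele S j) := rfl

/-- `extS` of the diagonal image is the `S`-part of the principal idele. -/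
theorem extS_diag (x : Top.Qbˣ) : extS S (Top.diag S x) = Global.sDiag Top.Qb S x := by
  funext q
  by_cases h : q ∈ S
  · rw [extS_apply_of_mem _ h]
    refine Eq.trans ?_ (if_pos h).symm
    exact Units.ext rfl
  · rw [extS_apply_of_notMem _ h]
    exact (if_neg h).symm

end Actions

section SDiag

variable (L : Type) [Field L] [CharZero L] (S : Finset Nat.Primes)

theorem sDiag_apply_of_mem (u : Lˣ) {q : Nat.Primes} (h : q ∈ S) :
    Global.sDiag L S u q = Global.principal L u q := if_pos h

theorem sDiag_apply_of_notMem (u : Lˣ) {q : Nat.Primes} (h : q ∉ S) :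
    Global.sDiag L S u q = 1 := if_neg h

/-- The `S`-part of an `S`-unit is trivial in `C_S(L)`. -/
theorem sDiag_mem_of_mem_sUnits {u : Lˣ} (hu : u ∈ Global.sUnits L S) :
    Global.sDiag L S u ∈ (Global.principal L).range ⊔ Global.unitsOutside L S := by
  have h1 : Global.sDiag L S u / Global.principal L u ∈ Global.unitsOutside L S := by
    refine ⟨fun q => ?_, fun q hq => ?_⟩
    · by_cases h : q ∈ S
      · have : (Global.sDiag L S u / Global.principal L u) q = 1 := by
          rw [Pi.div_apply, sDiag_apply_of_mem L S u h, div_self']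
        rw [this]
        exact one_mem _
      · have : (Global.sDiag L S u / Global.principal L u) q = (Global.principal L u q)⁻¹ := by
          rw [Pi.div_apply, sDiag_apply_of_notMem L S u h, one_div]
        rw [this]
        exact inv_mem (hu q h)
    · rw [Pi.div_apply, sDiag_apply_of_mem L S u hq, div_self']
  have h2 : Global.sDiag L S u =
      Global.principal L u * (Global.sDiag L S u / Global.principal L u) := by
    rw [mul_div_cancel]
  rw [h2]
  exact mul_mem (Subgroup.mem_sup_left ⟨u, rfl⟩) (Subgroup.mem_sup_right h1)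

/-- An idele supported on `S` which is trivial in `C_S(L)` is the `S`-part of an `S`-unit. -/
theorem exists_sDiag_eq_of_mem {x : Global.IdeleProd L} (hx : x ∈ Global.supportedOn L S)
    (h : x ∈ (Global.principal L).range ⊔ Global.unitsOutside L S) :
    ∃ u ∈ Global.sUnits L S, Global.sDiag L S u = x := by
  obtain ⟨y, ⟨u, rfl⟩, w, hw, rfl⟩ := Subgroup.mem_sup.1 h
  refine ⟨u, fun q hq => ?_, ?_⟩
  · have h1 : Global.principal L u q * w q = 1 := hx q hq
    have h2 : Global.principal L u q = (w q)⁻¹ := eq_inv_of_mul_eq_one_left h1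
    rw [h2]
    exact inv_mem (hw.1 q)
  · funext q
    by_cases hq : q ∈ S
    · rw [sDiag_apply_of_mem L S u hq, Pi.mul_apply, hw.2 q hq, mul_one]
    · rw [sDiag_apply_of_notMem L S u hq]
      exact (hx q hq).symm

end SDiag

section Theta

attribute [-instance] Top.tqAction Top.tqUnitsAction Top.jFullAction Top.jFullSMul

open scoped Fermat.Agent.CFT.Global

variable (S : Finset Nat.Primes)

/-- `esSub S` is killed by `thetaPre` (given the `S`-unit dictionary). -/
theorem thetaPre_eq_zero_of_mem (hSUD : Top.sUnits S = Global.sUnits Top.Qb S) {j : Top.JS S}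
    (hj : j ∈ Top.esSub S) : thetaPre S j = 0 := by
  obtain ⟨x, hx, hxj⟩ := hj
  rw [thetaPre_apply, mkS_eq_zero_iff]
  have e : jsVal S j = Top.diag S x := congrArg Additive.toMul hxj.symm
  rw [e, extS_diag]
  exact sDiag_mem_of_mem_sUnits Top.Qb S (hSUD ▸ hx)

/-- The kernel of `thetaPre` is `esSub S`. -/
theorem mem_esSub_of_thetaPre_eq_zero (hSUD : Top.sUnits S = Global.sUnits Top.Qb S)
    {j : Top.JS S} (hj : thetaPre S j = 0) : j ∈ Top.esSub S := by
  rw [thetaPre_apply, mkS_eq_zero_iff] at hj
  obtain ⟨u, hu, hux⟩ := exists_sDiag_eq_of_mem Top.Qb S (extS_mem_supportedOn _) hj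
  refine ⟨u, hSUD ▸ hu, ?_⟩
  have e : Top.diag S u = jsVal S j := by
    funext q
    have h1 := congrFun hux q.1
    rw [← extS_diag, extS_apply_of_mem _ q.2, extS_apply_of_mem _ q.2] at h1
    exact h1
  exact congrArg Additive.ofMul e

/-- **The comparison map `Θ : CS S →+ C_S(ℚ̄)`** (class of the idele extended by `1` outside
`S`); it is defined through `Submodule.liftQ`-free choice: the unique additive map with
`Θ (jsProj j) = thetaPre j`. -/
theorem exists_theta (hSUD : Top.sUnits S = Global.sUnits Top.Qb S) :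
    ∃ Θ : Top.CS S →+ Global.ClassGroupSOf Top.Qb S,
      (∀ j : Top.JS S, Θ ((Top.jsProj S).hom j) = thetaPre S j) ∧
      Function.Injective Θ ∧
      ∀ (g : Top.GQ) (c : Top.CS S),
        Θ ((Top.CS S).ρ g c) = (Global.classRepS Top.GQ Top.Qb S).ρ g (Θ c) := by
  have hsurj : Function.Surjective ((Top.jsProj S).hom : Top.JS S → Top.CS S) :=
    Submodule.mkQ_surjective _
  have hker : ∀ j : Top.JS S, (Top.jsProj S).hom j = 0 ↔ j ∈ Top.esSub S := fun j =>
    Submodule.Quotient.mk_eq_zero _
  have hwd : ∀ j j' : Top.JS S, (Top.jsProj S).hom j = (Top.jsProj S).hom j' →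
      thetaPre S j = thetaPre S j' := by
    intro j j' h
    have h1 : (Top.jsProj S).hom (j - j') = 0 := by rw [map_sub, h, sub_self]
    have h2 := thetaPre_eq_zero_of_mem S hSUD ((hker _).1 h1)
    rwa [map_sub, sub_eq_zero] at h2
  choose s hs using hsurj
  have hΘ : ∀ j : Top.JS S, thetaPre S (s ((Top.jsProj S).hom j)) = thetaPre S j :=
    fun j => hwd _ _ (hs _)
  refine ⟨{ toFun := fun c => thetaPre S (s c), map_zero' := ?_, map_add' := ?_ }, hΘ, ?_, ?_⟩
  · have := hΘ 0
    rw [map_zero] at this
    rw [this, map_zero]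
  · intro a b
    have h1 : (Top.jsProj S).hom (s a + s b) = a + b := by rw [map_add, hs, hs]
    have h2 := hΘ (s a + s b)
    rw [h1] at h2
    rw [h2, map_add]
  · intro a b hab
    change thetaPre S (s a) = thetaPre S (s b) at hab
    have h1 : thetaPre S (s a - s b) = 0 := by rw [map_sub, hab, sub_self]
    have h2 := (hker _).2 (mem_esSub_of_thetaPre_eq_zero S hSUD h1)
    rw [map_sub, hs, hs, sub_eq_zero] at h2
    exact h2
  · intro g c
    change thetaPre S (s ((Top.CS S).ρ g c)) = _
    have h1 : (Top.CS S).ρ g c = (Top.jsProj S).hom ((Top.JS S).ρ g (s c)) := by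
      rw [Rep.hom_comm_apply, hs]
    rw [h1, hΘ, thetaPre_eq, jsToIdele_rho]
    exact Rep.hom_comm_apply (Global.classMkS Top.GQ Top.Qb S) g (jsToIdele S (s c))

end Theta


end Fermat.Agent.CFT.Glob.TopBridge
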