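import Fermat.Agent.CFT.Top.Defs
import Fermat.Agent.CFT.Global.Defs

/-!
# P3 / CFT, [TOPBRIDGE]: the `S`-unit dictionary `Top ↔ Global` on `ℚ̄`

`Top.IsSInt S x` (`N^k * x` is an algebraic integer for some `k`, `N = ∏_{q ∈ S} q`) is the same
as `Global.IsInt` (integrality of `x ⊗ 1` over `ℤ_q` in `ℚ̄ ⊗ ℚ_q`) at every prime `q ∉ S`.

* `isSInt_iff S x : Top.IsSInt S x ↔ ∀ q ∉ S, Global.IsInt Top.Qb q (x ⊗ₜ 1)`;
* `sUnits_eq S : Top.sUnits S = Global.sUnits Top.Qb S` (both subgroups of `ℚ̄ˣ`).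

Auxiliary statements live in the namespace `…TopBridge.SUnitDict`.
-/

set_option autoImplicit false
set_option linter.style.haveILetI false

open scoped TensorProduct
open Polynomial

noncomputable section

namespace Fermat.Agent.CFT.Glob.TopBridge

open Fermat.Agent.CFT

namespace SUnitDict

/-- The coefficients of a product of monic linear factors with integral roots are integral. -/
theorem isIntegral_coeff_prod_X_sub_C {R B : Type*} [CommRing R] [CommRing B] [Algebra R B]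
    (s : Multiset B) (hs : ∀ b ∈ s, IsIntegral R b) (n : ℕ) :
    IsIntegral R ((s.map (fun b => X - C b)).prod.coeff n) := by
  have hmem : (s.map (fun b => X - C b)).prod ∈
      Polynomial.lifts (algebraMap (integralClosure R B) B) := by
    refine Subsemiring.multiset_prod_mem _ _ ?_
    intro p hp
    obtain ⟨b, hb, rfl⟩ := Multiset.mem_map.1 hp
    rw [Polynomial.mem_lifts]
    exact ⟨X - C ⟨b, hs b hb⟩, by simp⟩
  obtain ⟨y, hy⟩ := (Polynomial.lifts_iff_coeff_lifts _).1 hmem n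
  rw [← hy]
  exact y.2

/-- If `1 ⊗ c` is integral over `ℤ_q` in `L ⊗ ℚ_q` then `c ∈ ℤ_q`. -/
theorem norm_le_one_of_isInt_one_tmul (L : Type) [Field L] [CharZero L] (q : ℕ) [Fact q.Prime]
    (c : ℚ_[q]) (h : Global.IsInt L q ((1 : L) ⊗ₜ[ℚ] c)) : ‖c‖ ≤ 1 := by
  letI : Algebra ℤ_[q] (Global.SemiLocal L q) := (Global.intHom L q).toAlgebra
  let f : ℚ_[q] →ₐ[ℤ_[q]] Global.SemiLocal L q :=
    { (Algebra.TensorProduct.includeRight (R := ℚ) (A := L) (B := ℚ_[q])).toRingHom with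
      commutes' := fun z => rfl }
  have hf : Function.Injective f :=
    Algebra.TensorProduct.includeRight_injective (algebraMap ℚ L).injective
  have h1 : IsIntegral ℤ_[q] (f c) := h
  have h2 : IsIntegral ℤ_[q] c := (isIntegral_algHom_iff f hf).1 h1
  obtain ⟨z, rfl⟩ := IsIntegrallyClosed.isIntegral_iff.1 h2
  exact z.2

theorem isAlgebraic_rat_Qb : Algebra.IsAlgebraic ℚ Top.Qb := AlgebraicClosure.isAlgebraic ℚ

attribute [local instance] isAlgebraic_rat_Qb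

theorem normal_rat_Qb : Normal ℚ Top.Qb :=
  haveI : IsAlgClosure ℚ Top.Qb := ⟨inferInstance, inferInstance⟩
  IsAlgClosure.normal ℚ Top.Qb

attribute [local instance] normal_rat_Qb

/-- If `x ⊗ 1` is integral over `ℤ_q` in `ℚ̄ ⊗ ℚ_q`, then so is `1 ⊗ c` for every coefficient `c`
of the minimal polynomial of `x` over `ℚ`. -/
theorem isInt_one_tmul_coeff_minpoly (q : ℕ) [Fact q.Prime] (x : Top.Qb)
    (hx : Global.IsInt Top.Qb q (x ⊗ₜ[ℚ] (1 : ℚ_[q]))) (n : ℕ) :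
    Global.IsInt Top.Qb q ((1 : Top.Qb) ⊗ₜ[ℚ] (((minpoly ℚ x).coeff n : ℚ) : ℚ_[q])) := by
  letI : Algebra ℤ_[q] (Global.SemiLocal Top.Qb q) := (Global.intHom Top.Qb q).toAlgebra
  have hxint : IsIntegral ℚ x := Algebra.IsIntegral.isIntegral x
  set P := minpoly ℚ x with hP
  let ι : Top.Qb →+* Global.SemiLocal Top.Qb q :=
    (Algebra.TensorProduct.includeLeft (R := ℚ) (S := ℚ) (A := Top.Qb) (B := ℚ_[q])).toRingHom
  have hmonic : (P.map (algebraMap ℚ Top.Qb)).Monic := (minpoly.monic hxint).map _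
  have hsplit : (P.map (algebraMap ℚ Top.Qb)).Splits := IsAlgClosed.splits _
  have heq := hsplit.eq_prod_roots_of_monic hmonic
  -- every root is a conjugate of `x`, hence integral
  have hroots : ∀ b ∈ ((P.map (algebraMap ℚ Top.Qb)).roots.map ι), IsIntegral ℤ_[q] b := by
    intro b hb
    obtain ⟨r, hr, rfl⟩ := Multiset.mem_map.1 hb
    have hr0 : aeval r P = 0 := by
      have := (Polynomial.mem_roots (hmonic.ne_zero)).1 hr
      rwa [IsRoot.def, eval_map_algebraMap] at this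
    obtain ⟨σ, hσ⟩ := minpoly.exists_algEquiv_of_root' (Algebra.IsAlgebraic.isAlgebraic x) hr0
    have h1 := hx.smul σ
    rw [← hσ]
    exact h1
  have hcoeff := isIntegral_coeff_prod_X_sub_C (R := ℤ_[q]) _ hroots n
  have e1 : ((P.map (algebraMap ℚ Top.Qb)).roots.map ι).map (fun b => X - C b) =
      ((P.map (algebraMap ℚ Top.Qb)).roots.map (fun r => X - C r)).map (Polynomial.map ι) := by
    rw [Multiset.map_map, Multiset.map_map]
    refine Multiset.map_congr rfl fun r _ => ?_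
    simp
  rw [e1, ← Polynomial.map_multiset_prod, ← heq, Polynomial.coeff_map, Polynomial.coeff_map]
    at hcoeff
  have e2 : ι (algebraMap ℚ Top.Qb (P.coeff n)) =
      (1 : Top.Qb) ⊗ₜ[ℚ] ((P.coeff n : ℚ) : ℚ_[q]) := by
    show (algebraMap ℚ Top.Qb (P.coeff n)) ⊗ₜ[ℚ] (1 : ℚ_[q]) = _
    rw [Algebra.algebraMap_eq_smul_one, TensorProduct.smul_tmul]
    congr 1
    rw [Algebra.smul_def, mul_one]
    rfl
  rw [e2] at hcoeff
  exact hcoeff

/-- A rational number of `q`-adic norm `≤ 1` has denominator prime to `q`. -/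
theorem not_dvd_den_of_norm_le_one (q : ℕ) [Fact q.Prime] (c : ℚ) (h : ‖(c : ℚ_[q])‖ ≤ 1) :
    ¬ q ∣ c.den := by
  intro hq
  have h1 : (c : ℚ_[q]) * (c.den : ℚ_[q]) = (c.num : ℚ_[q]) := by
    have := Rat.mul_den_eq_num c
    exact_mod_cast congrArg (fun r : ℚ => (r : ℚ_[q])) this
  have h2 : ‖(c.den : ℚ_[q])‖ < 1 := Padic.norm_natCast_lt_one_iff.2 hq
  have h3 : ‖(c.num : ℚ_[q])‖ < 1 := by
    rw [← h1, norm_mul]
    calc ‖(c : ℚ_[q])‖ * ‖(c.den : ℚ_[q])‖ ≤ 1 * ‖(c.den : ℚ_[q])‖ :=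
          mul_le_mul_of_nonneg_right h (norm_nonneg _)
      _ < 1 := by rwa [one_mul]
  have h4 : (q : ℤ) ∣ c.num := Padic.norm_intCast_lt_one_iff.1 h3
  have h5 : q ∣ c.num.natAbs := Int.natCast_dvd.1 h4
  have h6 : q ∣ Nat.gcd c.num.natAbs c.den := Nat.dvd_gcd h5 hq
  rw [c.reduced] at h6
  exact (Fact.out : q.Prime).one_lt.ne' (Nat.dvd_one.1 h6)

/-- A positive integer all of whose prime factors divide `N` divides a power of `N`. -/
theorem exists_dvd_pow_of_primes (N : ℕ) :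
    ∀ d : ℕ, d ≠ 0 → (∀ q : ℕ, q.Prime → q ∣ d → q ∣ N) → ∃ k, d ∣ N ^ k := by
  intro d
  induction d using Nat.strong_induction_on with
  | _ d ih =>
    intro hd h
    by_cases h1 : d = 1
    · exact ⟨0, by simp [h1]⟩
    · obtain ⟨q, hq, hqd⟩ := Nat.exists_prime_and_dvd h1
      obtain ⟨d', rfl⟩ := hqd
      have hd' : d' ≠ 0 := by
        rintro rfl
        simp at hd
      have hlt : d' < q * d' := by
        have := hq.one_lt
        have := Nat.pos_of_ne_zero hd'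
        nlinarith
      obtain ⟨k, hk⟩ := ih d' hlt hd' (fun r hr hrd => h r hr (Dvd.dvd.mul_left hrd q))
      refine ⟨k + 1, ?_⟩
      have h2 : q * d' ∣ N * N ^ k := mul_dvd_mul (h q hq (dvd_mul_right q d')) hk
      rwa [← pow_succ'] at h2

/-- If `x ⊗ 1` is integral over `ℤ_q` for all `q ∉ S`, a fixed power of `N = ∏_{q ∈ S} q` clears
the denominators of all coefficients of the minimal polynomial of `x`. -/
theorem exists_pow_mul_coeff (S : Finset Nat.Primes) (x : Top.Qb)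
    (h : ∀ q : Nat.Primes, q ∉ S → Global.IsInt Top.Qb q (x ⊗ₜ[ℚ] (1 : ℚ_[(q : ℕ)]))) :
    ∃ K : ℕ, ∀ n, ∃ z : ℤ,
      ((∏ q ∈ S, (q : ℕ) : ℕ) : ℚ) ^ K * (minpoly ℚ x).coeff n = z := by
  set N : ℕ := ∏ q ∈ S, (q : ℕ) with hN
  set P := minpoly ℚ x with hP
  have key : ∀ n, ∃ k, (P.coeff n).den ∣ N ^ k := by
    intro n
    refine exists_dvd_pow_of_primes N _ (P.coeff n).den_nz (fun q hq hqd => ?_)
    by_contra hqN
    have hqS : (⟨q, hq⟩ : Nat.Primes) ∉ S := by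
      intro hmem
      exact hqN (Finset.dvd_prod_of_mem (fun r : Nat.Primes => (r : ℕ)) hmem)
    haveI : Fact q.Prime := ⟨hq⟩
    have h1 := isInt_one_tmul_coeff_minpoly q x (h ⟨q, hq⟩ hqS) n
    have h2 := norm_le_one_of_isInt_one_tmul Top.Qb q _ h1
    exact not_dvd_den_of_norm_le_one q _ h2 hqd
  choose k hk using key
  refine ⟨∑ n ∈ Finset.range (P.natDegree + 1), k n, fun n => ?_⟩
  by_cases hn : n ≤ P.natDegree
  · have h1 : N ^ k n ∣ N ^ (∑ n ∈ Finset.range (P.natDegree + 1), k n) :=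
      pow_dvd_pow N (Finset.single_le_sum (f := k) (fun _ _ => Nat.zero_le _)
        (Finset.mem_range.2 (Nat.lt_succ_of_le hn)))
    obtain ⟨m, hm⟩ := (hk n).trans h1
    refine ⟨(m : ℤ) * (P.coeff n).num, ?_⟩
    have hden : ((P.coeff n).den : ℚ) ≠ 0 := Nat.cast_ne_zero.2 (P.coeff n).den_nz
    have hm' : ((N : ℚ)) ^ (∑ n ∈ Finset.range (P.natDegree + 1), k n) =
        ((P.coeff n).den : ℚ) * (m : ℚ) := by exact_mod_cast congrArg (fun r : ℕ => (r : ℚ)) hm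
    rw [hm']
    push_cast
    calc ((P.coeff n).den : ℚ) * (m : ℚ) * P.coeff n
        = (m : ℚ) * (P.coeff n * ((P.coeff n).den : ℚ)) := by ring
      _ = (m : ℚ) * ((P.coeff n).num : ℚ) := by rw [Rat.mul_den_eq_num]
  · refine ⟨0, ?_⟩
    rw [Polynomial.coeff_eq_zero_of_natDegree_lt (not_le.1 hn)]
    simp

/-- `(⇐)` of the dictionary. -/
theorem isSInt_of_forall_isInt (S : Finset Nat.Primes) (x : Top.Qb)
    (h : ∀ q : Nat.Primes, q ∉ S → Global.IsInt Top.Qb q (x ⊗ₜ[ℚ] (1 : ℚ_[(q : ℕ)]))) :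
    Top.IsSInt S x := by
  obtain ⟨K, hK⟩ := exists_pow_mul_coeff S x h
  set N : ℕ := ∏ q ∈ S, (q : ℕ) with hN
  have hxint : IsIntegral ℚ x := Algebra.IsIntegral.isIntegral x
  set P := minpoly ℚ x with hP
  have hPm : P.Monic := minpoly.monic hxint
  have hQm : (scaleRoots P ((N : ℚ) ^ K)).Monic := (monic_scaleRoots_iff _).2 hPm
  have hQl : scaleRoots P ((N : ℚ) ^ K) ∈ lifts (Int.castRingHom ℚ) := by
    rw [lifts_iff_coeff_lifts]
    intro n
    rw [coeff_scaleRoots]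
    rcases lt_trichotomy n P.natDegree with hn | hn | hn
    · obtain ⟨z, hz⟩ := hK n
      obtain ⟨m, hm⟩ : ∃ m, P.natDegree - n = m + 1 := ⟨P.natDegree - n - 1, by omega⟩
      refine ⟨z * (N : ℤ) ^ (K * m), ?_⟩
      rw [hm, pow_succ, ← pow_mul, map_mul, map_pow, eq_intCast, eq_intCast, Int.cast_natCast,
        ← hz]
      ring
    · subst hn
      refine ⟨1, ?_⟩
      simp [hPm.coeff_natDegree]
    · refine ⟨0, ?_⟩
      simp [coeff_eq_zero_of_natDegree_lt hn]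
  obtain ⟨Q', hQ'map, -, hQ'm⟩ := lifts_and_natDegree_eq_and_monic hQl hQm
  have hroot : aeval (algebraMap ℚ Top.Qb ((N : ℚ) ^ K) * x) (scaleRoots P ((N : ℚ) ^ K)) = 0 :=
    scaleRoots_aeval_eq_zero (minpoly.aeval ℚ x)
  refine ⟨K, Q', hQ'm, ?_⟩
  have e1 : algebraMap ℚ Top.Qb ((N : ℚ) ^ K) = ((N : ℕ) : Top.Qb) ^ K := by
    rw [map_pow, map_natCast]
  rw [e1, ← hQ'map, aeval_def, eval₂_map] at hroot
  have e2 : (algebraMap ℚ Top.Qb).comp (Int.castRingHom ℚ) = algebraMap ℤ Top.Qb :=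
    RingHom.ext_int _ _
  rw [e2] at hroot
  exact hroot

/-- `(⇒)` of the dictionary. -/
theorem isInt_of_isSInt (S : Finset Nat.Primes) (x : Top.Qb) (hx : Top.IsSInt S x)
    (q : Nat.Primes) (hq : q ∉ S) :
    Global.IsInt Top.Qb q (x ⊗ₜ[ℚ] (1 : ℚ_[(q : ℕ)])) := by
  obtain ⟨k, hk⟩ := hx
  set N : ℕ := ∏ q ∈ S, (q : ℕ) with hN
  letI : Algebra ℤ_[(q : ℕ)] (Global.SemiLocal Top.Qb q) := (Global.intHom Top.Qb q).toAlgebra
  have h1 : IsIntegral ℤ_[(q : ℕ)]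
      ((((N : Top.Qb) ^ k * x) ⊗ₜ[ℚ] (1 : ℚ_[(q : ℕ)])) : Global.SemiLocal Top.Qb q) := by
    exact hk.map_of_comp_eq (Int.castRingHom ℤ_[(q : ℕ)])
      (Algebra.TensorProduct.includeLeft (R := ℚ) (S := ℚ) (A := Top.Qb)
        (B := ℚ_[(q : ℕ)])).toRingHom (RingHom.ext_int _ _)
  have hNq : ¬ (q : ℕ) ∣ N := by
    intro hdvd
    obtain ⟨r, hr, hqr⟩ := (Prime.dvd_finsetProd_iff (Nat.Prime.prime q.2)
      (fun r : Nat.Primes => (r : ℕ))).1 hdvd
    have := (Nat.prime_dvd_prime_iff_eq q.2 r.2).1 hqr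
    exact hq (by rwa [Subtype.ext this])
  have hnorm : ‖((N : ℤ_[(q : ℕ)]))‖ = 1 := by
    rw [PadicInt.norm_def]
    push_cast
    exact Padic.norm_natCast_eq_one_iff.2 ((Nat.Prime.coprime_iff_not_dvd q.2).2 hNq)
  obtain ⟨u, hu⟩ := (PadicInt.isUnit_iff.2 hnorm).exists_left_inv
  have h2 : IsIntegral ℤ_[(q : ℕ)]
      (algebraMap ℤ_[(q : ℕ)] (Global.SemiLocal Top.Qb q) (u ^ k)) := isIntegral_algebraMap
  have e : (x ⊗ₜ[ℚ] (1 : ℚ_[(q : ℕ)]) : Global.SemiLocal Top.Qb q) =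
      (((N : Top.Qb) ^ k * x) ⊗ₜ[ℚ] (1 : ℚ_[(q : ℕ)])) *
        algebraMap ℤ_[(q : ℕ)] (Global.SemiLocal Top.Qb q) (u ^ k) := by
    show _ = _ * ((1 : Top.Qb) ⊗ₜ[ℚ] (((u ^ k : ℤ_[(q : ℕ)])) : ℚ_[(q : ℕ)]))
    rw [Algebra.TensorProduct.tmul_mul_tmul, mul_one, one_mul]
    have e1 : ((N : Top.Qb) ^ k * x) = ((N : ℚ) ^ k) • x := by
      rw [Algebra.smul_def, map_pow, map_natCast]
    rw [e1, TensorProduct.smul_tmul]
    congr 1
    have e2 : ((u ^ k : ℤ_[(q : ℕ)]) : ℚ_[(q : ℕ)]) * ((N : ℚ_[(q : ℕ)]) ^ k) = 1 := by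
      have := congrArg (fun z : ℤ_[(q : ℕ)] => ((z ^ k : ℤ_[(q : ℕ)]) : ℚ_[(q : ℕ)])) hu
      simpa [mul_pow] using this
    rw [Algebra.smul_def, map_pow, map_natCast, mul_comm, e2]
  show IsIntegral ℤ_[(q : ℕ)] (x ⊗ₜ[ℚ] (1 : ℚ_[(q : ℕ)]) : Global.SemiLocal Top.Qb q)
  rw [e]
  exact h1.mul h2

end SUnitDict

/-- **[SUD], pointwise.** `x ∈ ℚ̄` is `S`-integral in the sense of `Top` iff `x ⊗ 1` is integral
over `ℤ_q` in `ℚ̄ ⊗ ℚ_q` for every prime `q ∉ S`. -/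
theorem isSInt_iff (S : Finset Nat.Primes) (x : Top.Qb) :
    Top.IsSInt S x ↔
      ∀ q : Nat.Primes, q ∉ S → Global.IsInt Top.Qb q (x ⊗ₜ[ℚ] (1 : ℚ_[(q : ℕ)])) :=
  ⟨fun hx q hq => SUnitDict.isInt_of_isSInt S x hx q hq, SUnitDict.isSInt_of_forall_isInt S x⟩

/-- **[SUD].** The `S`-units of `ℚ̄` in the sense of `Top` and of `Global` coincide. -/
theorem sUnits_eq (S : Finset Nat.Primes) : Top.sUnits S = Global.sUnits Top.Qb S := by
  ext u
  rw [Top.mem_sUnits_iff, isSInt_iff, isSInt_iff]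
  constructor
  · rintro ⟨h1, h2⟩ q hq
    refine ⟨h1 q hq, ?_⟩
    have e : (Global.principal Top.Qb u q)⁻¹ = Global.principal Top.Qb u⁻¹ q := by
      rw [map_inv]
      rfl
    rw [e]
    exact h2 q hq
  · intro h
    refine ⟨fun q hq => (h q hq).1, fun q hq => ?_⟩
    have e : (Global.principal Top.Qb u q)⁻¹ = Global.principal Top.Qb u⁻¹ q := by
      rw [map_inv]
      rfl
    have h2 := (h q hq).2
    rw [e] at h2
    exact h2

end Fermat.Agent.CFT.Glob.TopBridge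

end
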