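import Fermat.Agent.CFT.Glob.TopBridge.Setup
import Fermat.Agent.CFT.Glob.TopBridge.SUnitDict

/-!
# P3 / CFT, [TOPBRIDGE]: `Top.Plan.ArithDual` from the leaf contracts

* `finLevelData_of_inputs` : at ONE normal `S`-level `K`, the leaf contracts of `Setup.lean`
  ([TAU], [HCOMP], [HDESC], [HCAP], [LGI-Top]) together with a `p`-class cocycle on `C_S(K)`
  ([CF-p]), **[EX]** on `C_S(K)` and local `p`-class cocycles ((A3)) give
  `Top.Plan.FinLevelData S p F K`;
* `arithDual_of_inputs` : the cofinal form, `Top.Plan.ArithDual S p F`.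

All hypotheses are plain `Prop`s about the field models `JM S K`, `CM S K` of `Setup.lean`.
-/

set_option autoImplicit false

open CategoryTheory groupCohomology

namespace Fermat.Agent.CFT.Glob.TopBridge

open Fermat.Agent.CFT Fermat.Agent.CFT.Top Fermat.Agent.CFT.Top.FinModel
  Fermat.Agent.CFT.Top.SpinePlan Fermat.Agent.CFT.Triv

set_option synthInstance.maxHeartbeats 400000 in
/-- **[TOPBRIDGE] at one level**, from the leaf contracts. -/
theorem finLevelData_of_inputs {p : ℕ} [Fact p.Prime] (S : Finset Nat.Primes)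
    {F K : IntermediateField ℚ Qb} (hK : IsNLevel S K) (hi : JSInj S) (hs : JSSurj S)
    (hτ : TauInj S K) (hcomp : HComp S hK) (hdesc : HDesc S K) (hcap : HCap S K p)
    (hCF : ∃ σ' : cocycles₂ (CM S K), IsPClassModule p (CM S K) σ')
    (hEX : NormDiv p (CM S K) (F.fixingSubgroup.map (resK S hK)))
    (hA3 : ∀ q : ↥S, ∃ σw : cocycles₂ (CwK S (resK S hK) q),
      IsPClassModule p (CwK S (resK S hK) q) σw)
    (hLGI : LGInjTop S p hK hi hs) :
    Top.Plan.FinLevelData S p F K := by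
  have : Finite (Model.Gal K) := Model.finite_gal hK
  obtain ⟨Θ, hΘ, hΘinj, hΘeq⟩ := exists_theta S (sUnits_eq S)
  obtain ⟨m, hm, hcap⟩ := hcap
  obtain ⟨σ', hσ'⟩ := hCF
  have hsurj : Function.Surjective ((jsProj S).hom : JS S → CS S) := Submodule.mkQ_surjective _
  refine finLevelData_of_model (Ct := Global.classRepS GQ Qb S) (resK S hK) hi hs (JM S K)
    (iotaJ S hK) (isFiniteLevel_iotaJ S hK) (CM S K) (clM S K) (clM_rho S K) Θ hΘeq hΘinj
    (tauK S K) (tauK_rho S hK) hτ ?_ ?_ m hm ?_ σ' hσ' hEX hA3 hLGI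
  · intro x
    exact (hcomp x).trans (hΘ _).symm
  · intro c hc
    obtain ⟨j, rfl⟩ := hsurj c
    obtain ⟨c', hc'⟩ := hdesc j (fun n hn => by
      rw [Rep.hom_comm_apply]
      exact hc n hn)
    exact ⟨c', hc'.trans (hΘ _).symm⟩
  · intro c'
    obtain ⟨j, hj⟩ := hcap c'
    exact ⟨(jsProj S).hom j, (hΘ _).trans hj⟩

set_option synthInstance.maxHeartbeats 400000 in
/-- **[TOPBRIDGE]**, cofinal form, from the leaf contracts at cofinally many normal `S`-levels. -/
theorem arithDual_of_inputs {p : ℕ} [Fact p.Prime] (S : Finset Nat.Primes)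
    (F : IntermediateField ℚ Qb) (hi : JSInj S) (hs : JSSurj S)
    (h : ∀ K₁ : IntermediateField ℚ Qb, IsNLevel S K₁ → F ≤ K₁ →
      ∃ (K : IntermediateField ℚ Qb) (hK : IsNLevel S K), K₁ ≤ K ∧
        TauInj S K ∧ HComp S hK ∧ HDesc S K ∧ HCap S K p ∧
        (∃ σ' : cocycles₂ (CM S K), IsPClassModule p (CM S K) σ') ∧
        NormDiv p (CM S K) (F.fixingSubgroup.map (resK S hK)) ∧
        (∀ q : ↥S, ∃ σw : cocycles₂ (CwK S (resK S hK) q),
          IsPClassModule p (CwK S (resK S hK) q) σw) ∧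
        LGInjTop S p hK hi hs) :
    Top.Plan.ArithDual S p F := by
  intro K₁ hK₁ hF
  obtain ⟨K, hK, hle, hτ, hcomp, hdesc, hcap, hCF, hEX, hA3, hLGI⟩ := h K₁ hK₁ hF
  exact ⟨K, hK, hle, finLevelData_of_inputs S hK hi hs hτ hcomp hdesc hcap hCF hEX hA3 hLGI⟩

set_option synthInstance.maxHeartbeats 400000 in
/-- The same with the level-independent leaves quantified over all normal `S`-levels; only
**[EX]** selects the (cofinal) levels. -/
theorem arithDual_of_leaves {p : ℕ} [Fact p.Prime] (S : Finset Nat.Primes)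
    (F : IntermediateField ℚ Qb) (hi : JSInj S) (hs : JSSurj S)
    (hτ : ∀ K : IntermediateField ℚ Qb, IsNLevel S K → TauInj S K)
    (hcomp : ∀ (K : IntermediateField ℚ Qb) (hK : IsNLevel S K), HComp S hK)
    (hdesc : ∀ K : IntermediateField ℚ Qb, IsNLevel S K → HDesc S K)
    (hcap : ∀ K : IntermediateField ℚ Qb, IsNLevel S K → HCap S K p)
    (hCF : ∀ K : IntermediateField ℚ Qb, IsNLevel S K →
      ∃ σ' : cocycles₂ (CM S K), IsPClassModule p (CM S K) σ')
    (hEX : ∀ K₁ : IntermediateField ℚ Qb, IsNLevel S K₁ → F ≤ K₁ →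
      ∃ (K : IntermediateField ℚ Qb) (hK : IsNLevel S K), K₁ ≤ K ∧
        NormDiv p (CM S K) (F.fixingSubgroup.map (resK S hK)))
    (hA3 : ∀ (K : IntermediateField ℚ Qb) (hK : IsNLevel S K) (q : ↥S),
      ∃ σw : cocycles₂ (CwK S (resK S hK) q), IsPClassModule p (CwK S (resK S hK) q) σw)
    (hLGI : ∀ (K : IntermediateField ℚ Qb) (hK : IsNLevel S K), LGInjTop S p hK hi hs) :
    Top.Plan.ArithDual S p F := by
  refine arithDual_of_inputs S F hi hs fun K₁ hK₁ hF => ?_
  obtain ⟨K, hK, hle, hEXK⟩ := hEX K₁ hK₁ hF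
  exact ⟨K, hK, hle, hτ K hK, hcomp K hK, hdesc K hK, hcap K hK, hCF K hK, hEXK, hA3 K hK,
    hLGI K hK⟩

end Fermat.Agent.CFT.Glob.TopBridge
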