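import Fermat.Agent.CFT.Glob.TopBridge.Core
import Fermat.Agent.CFT.Glob.LGAbstract
import Fermat.Agent.CFT.Top.FinModel

/-!
# P3 / CFT, [TOPBRIDGE]: the abstract assembly of `Top.Plan.FinLevelData`

`finLevelData_of_model`: for a finite model `π : GQ →* Q` of `Gal(K/ℚ)`, a finite-level model
`(J', ιJ)` of `JS S` at `K` (the `S`-ideles of a field model of `K`), the "true" class module
`C'` of the level with `cl : J' →+ C'`, and an ambient `GQ`-module `Ct` containing both `CS S`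
(by `Θ`) and `C'` (by `τ`), the data

* `hdesc` (Galois descent) and `hcap` (capitulation up to `m` prime to `p`),
* a `p`-class cocycle `σ'` on `C'` and **[EX]** on `C'`,
* `p`-class cocycles on the local modules `CwK q`,
* `H²`-injectivity of `cl ∘ jlocMS q` on the `p`-subgroups of the decomposition groups

give `Top.Plan.FinLevelData S p F K`.  No arithmetic in this file: it combines `Core.lean`
(the model `C = τ⁻¹(Θ(CS S))` of `(CS S)^{G_K}`), `Transfer.lean`, helper61's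
`FinModel.locData_of_model` and helper51's `LGAbstract.exists_normalised_class`.
-/

set_option autoImplicit false

open CategoryTheory groupCohomology

namespace Fermat.Agent.CFT.Glob.TopBridge

open Fermat.Agent.CFT Fermat.Agent.CFT.Top Fermat.Agent.CFT.Top.FinModel
  Fermat.Agent.CFT.Top.SpinePlan Fermat.Agent.CFT.Triv

/-- `jsProj S` as an additive map. -/
noncomputable def jsProjAdd (S : Finset Nat.Primes) : (JS S) →+ (CS S) where
  toFun x := (jsProj S).hom x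
  map_zero' := map_zero _
  map_add' := map_add _

theorem jsProjAdd_apply (S : Finset Nat.Primes) (x : JS S) :
    jsProjAdd S x = (jsProj S).hom x := rfl

/-- **The abstract assembly of [TOPBRIDGE] at one level.** -/
theorem finLevelData_of_model {S : Finset Nat.Primes} {p : ℕ} [Fact p.Prime]
    {F K : IntermediateField ℚ Qb} {Q : Type} [Group Q] [Finite Q] (π : GQ →* Q)
    (hi : JSInj S) (hs : JSSurj S)
    (J' : Rep.{0} ℤ Q) (ιJ : J' →+ JS S)
    (hJ' : Level.IsFiniteLevel (nLevels S) (JS S) K π J' ιJ)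
    (C' : Rep.{0} ℤ Q) (cl : J' →+ C')
    (hcl : ∀ (g : Q) (x : J'), cl (J'.ρ g x) = C'.ρ g (cl x))
    {Ct : Rep.{0} ℤ GQ} (Θ : CS S →+ Ct)
    (hΘ : ∀ g c, Θ ((CS S).ρ g c) = Ct.ρ g (Θ c)) (hΘinj : Function.Injective Θ)
    (τ : C' →+ Ct) (hτ : ∀ g c', τ (C'.ρ (π g) c') = Ct.ρ g (τ c'))
    (hτinj : Function.Injective τ)
    (hcomp : ∀ x, τ (cl x) = Θ ((jsProj S).hom (ιJ x)))
    (hdesc : ∀ c : CS S, (∀ n ∈ K.fixingSubgroup, (CS S).ρ n c = c) → ∃ c', τ c' = Θ c)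
    (m : ℤ) (hm : IsCoprime m (p : ℤ)) (hcap : ∀ c', ∃ c, Θ c = τ (m • c'))
    (σ' : cocycles₂ C') (hσ' : IsPClassModule p C' σ')
    (hEX : NormDiv p C' (F.fixingSubgroup.map π))
    (hA3 : ∀ q : ↥S, ∃ σw : cocycles₂ (CwK S π q), IsPClassModule p (CwK S π q) σw)
    (hLGI : ∀ (q : ↥S) (H : Subgroup ↥(GwK S π q)), IsPGroup p H →
      ∀ t : H × H → CwK S π q,
        (∀ g h k : H, t (g * h, k) + t (g, h) =
          (CwK S π q).ρ (g : ↥(GwK S π q)) (t (h, k)) + t (g, h * k)) →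
        (∃ b : H → C', ∀ g h : H, cl (jlocMS S π hi hs J' ιJ hJ' q (t (g, h))) =
          C'.ρ ((g : ↥(GwK S π q)) : Q) (b h) - b (g * h) + b g) →
        ∃ a : H → CwK S π q, ∀ g h : H,
          t (g, h) = (CwK S π q).ρ (g : ↥(GwK S π q)) (a h) - a (g * h) + a g) :
    Top.Plan.FinLevelData S p F K := by
  -- the model `C` of `(CS S)^{G_K}` inside `C'`
  obtain ⟨C, ιC, ι, πJ, hC, hcompat, hιeq, hιinj, hιπ, hιcap⟩ :=
    exists_model_of_ambient (nLevels S) K (jsProjAdd S) Θ π ιJ cl τ hΘ hΘinj hτ hτinj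
      hJ'.isLevel hJ'.surjective hJ'.ker_eq hcomp hdesc m hcap
  -- the class and [EX] on `C`
  obtain ⟨σ, hσeq⟩ := exists_cocycle_smul ι hιinj m hιeq hιcap σ'
  have hσ : IsPClassModule p C σ :=
    IsPClassModule.transfer ι hιeq hιinj m hιcap hm hσeq hσ'
  have hEXC : ∀ c : C, ∃ c' : C, (∀ u ∈ F.fixingSubgroup.map π, C.ρ u c' = c') ∧
      ∑ᶠ u : ↥(F.fixingSubgroup.map π), C.ρ (u : Q) c = p • c' :=
    NormDiv.transfer ι hιeq hιinj m hιcap hm hEX
  -- `πJ` is equivariant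
  have hπJ : ∀ (g : Q) (x : J'), πJ (J'.ρ g x) = C.ρ g (πJ x) := by
    intro g x
    apply hιinj
    rw [hιπ, hιeq, hιπ, hcl]
  -- the local classes, normalised
  choose σw₀ hσw₀ using hA3
  have hloc : ∀ q : ↥S, ∃ k : ℤ, IsCoprime k (p : ℤ) ∧
      IsPClassModule p (CwK S π q) (k • σw₀ q) ∧
      ∀ H : Subgroup ↥(GwK S π q), IsPGroup p H → ∃ b : H → C, ∀ g h : H,
        πJ (jlocMS S π hi hs J' ιJ hJ' q
            ((k • σw₀ q) ((g : ↥(GwK S π q)), (h : ↥(GwK S π q))))) =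
          σ (((g : ↥(GwK S π q)) : Q), ((h : ↥(GwK S π q)) : Q)) +
            (C.ρ ((g : ↥(GwK S π q)) : Q) (b h) - b (g * h) + b g) := by
    intro q
    refine LGAbstract.exists_normalised_class C σ hσ (GwK S π q) (CwK S π q) (σw₀ q) (hσw₀ q)
      (πJ.comp (jlocMS S π hi hs J' ιJ hJ' q)) ?_ ?_
    · intro g c
      change πJ (jlocMS S π hi hs J' ιJ hJ' q ((CwK S π q).ρ g c)) =
        C.ρ (g : Q) (πJ (jlocMS S π hi hs J' ιJ hJ' q c))
      rw [jlocMS_ρ, hπJ]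
    · intro H hH t ht hb
      obtain ⟨b, hb⟩ := hb
      refine hLGI q H hH t ht ⟨fun h => ι (b h), fun g h => ?_⟩
      have h1 := congrArg ι (hb g h)
      change ι (πJ (jlocMS S π hi hs J' ιJ hJ' q (t (g, h)))) = _ at h1
      rw [hιπ, map_add, map_sub, hιeq] at h1
      exact h1
  choose k _ hk2 hk3 using hloc
  obtain ⟨Cw, σw, pr, j, h1, h2, h3, h4, h5, h6, h7⟩ :=
    locData_of_model S π hi hs J' ιJ hJ' C πJ hπJ σ (fun q => k q • σw₀ q) hk2 hk3
  exact ⟨Q, ‹Group Q›, ‹Finite Q›, π, C, J', ιC, ιJ, πJ, σ, hC, hJ', hcompat, hσ, hEXC,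
    GwK S π, Cw, σw, pr, j, fun _ => rfl, h1, h2, h3, h4, h5, h6, h7⟩

end Fermat.Agent.CFT.Glob.TopBridge
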