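import Fermat.Agent.CFT.Top.Defs
import Fermat.Agent.CFT.Global.Defs
import Fermat.Agent.CFT.Bridge.PlaceDict

/-!
# [TOPBRIDGE] / [MODEL]: the canonical field model of a normal `S`-level

For a normal `S`-level `K : IntermediateField ℚ ℚ̄` (`Top.IsNLevel S K`) the canonical field model
is `L := ↥K`, `Q := ↥K ≃ₐ[ℚ] ↥K`, `π := AlgEquiv.restrictNormalHom K : GQ →* Q`,
`e := algebraMap ↥K ℚ̄`.  This file provides all facts about it that the bridge consumes:

* `K/ℚ` is finite, normal, Galois; `↥K` is a number field; `Q` is finite and acts faithfully;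
* `π` is onto with kernel `K.fixingSubgroup`; `e` has range `K`; `e (π g • x) = g (e x)`;
* `Global.UnramOutside S ↥K` (from the Prelude's `K.IsUnramifiedOutside S`, via `PlaceDict`);
* towers: for normal levels `K ≤ K'` the inclusion `↥K →+* ↥K'` and the restriction
  `Gal(K'/ℚ) →* Gal(K/ℚ)` form a `Global.IsTower`, compatible with `π` and `e`.
-/

set_option autoImplicit false

open NumberField

noncomputable section

namespace Fermat.Agent.CFT.Glob.TopBridge.Model

open Fermat.Agent.CFT Fermat.Agent.CFT.Top

variable {S : Finset Nat.Primes} {K K' : IntermediateField ℚ Qb}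

/-! ## Basic properties of a normal `S`-level -/

theorem finiteDimensional (hK : IsNLevel S K) : FiniteDimensional ℚ K := hK.1.1

theorem numberField (hK : IsNLevel S K) : NumberField K :=
  { to_charZero := inferInstance, to_finiteDimensional := hK.1.1 }

theorem isGalois (hK : IsNLevel S K) : IsGalois ℚ K :=
  (InfiniteGalois.normal_iff_isGalois K).mp hK.2

theorem normal (hK : IsNLevel S K) : Normal ℚ K :=
  have := isGalois hK
  inferInstance

theorem finite_gal (hK : IsNLevel S K) : Finite (K ≃ₐ[ℚ] K) :=
  have := finiteDimensional hK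
  inferInstance

/-- The Prelude's unramifiedness gives the `IsReduced` predicate of `Global/Defs`. -/
theorem unramOutside (hK : IsNLevel S K) :
    @Global.UnramOutside S K _ (numberField hK) :=
  fun q hq => PlaceDict.isReduced_quotient_of_isUnramifiedOutside hK.1 q hq

/-- Instance-argument form of `unramOutside` (any `NumberField ↥K` instance, any finite level). -/
theorem unramOutside_of_isUnramifiedOutside [NumberField K] (hK : K.IsUnramifiedOutside S) :
    Global.UnramOutside S K :=
  fun q hq => PlaceDict.isReduced_quotient_of_isUnramifiedOutside hK q hq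

/-- Conversely, for a finite Galois level the `IsReduced` predicate gives the Prelude's
unramifiedness. -/
theorem isUnramifiedOutside_of_unramOutside [FiniteDimensional ℚ K] [IsGalois ℚ K]
    [NumberField K] (h : Global.UnramOutside S K) : K.IsUnramifiedOutside S :=
  (PlaceDict.isUnramifiedOutside_iff_isReduced K S).mpr fun q hq => h q hq

/-- A finite Galois level which is unramified outside `S` in the sense of `Global/Defs` is a
normal `S`-level. -/
theorem isNLevel_of_unramOutside [FiniteDimensional ℚ K] [IsGalois ℚ K] [NumberField K]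
    (h : Global.UnramOutside S K) : IsNLevel S K :=
  ⟨isUnramifiedOutside_of_unramOutside h,
    (InfiniteGalois.normal_iff_isGalois K).mpr ‹IsGalois ℚ K›⟩

/-! ## The field model `(Q, L, π, e)` -/

section ModelDefs

variable (K)

/-- The Galois group `Q = Gal(K/ℚ)` of the canonical model. -/
abbrev Gal : Type := K ≃ₐ[ℚ] K

/-- The embedding `e : ↥K →+* ℚ̄`. -/
def emb : K →+* Qb := algebraMap K Qb

theorem emb_apply (x : K) : emb K x = (x : Qb) := rfl

theorem emb_injective : Function.Injective (emb K) := Subtype.val_injective

theorem emb_mem (x : K) : emb K x ∈ K := x.2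

theorem exists_emb_eq : ∀ y ∈ K, ∃ x : K, emb K x = y := fun y hy => ⟨⟨y, hy⟩, rfl⟩

theorem mem_range_emb_iff (y : Qb) : y ∈ (emb K).range ↔ y ∈ K :=
  ⟨by rintro ⟨x, rfl⟩; exact x.2, fun hy => ⟨⟨y, hy⟩, rfl⟩⟩

theorem range_emb : ((emb K).range : Set Qb) = (K : Set Qb) :=
  Set.ext fun y => mem_range_emb_iff K y

/-- `Gal(K/ℚ)` acts faithfully on `↥K` (Mathlib's instance, recorded for the consumers). -/
theorem faithfulSMul : FaithfulSMul (Gal K) K := inferInstance

theorem gal_smul_def (τ : Gal K) (x : K) : τ • x = τ x := rfl

variable [Normal ℚ K]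

/-- The restriction `π : GQ →* Gal(K/ℚ)`. -/
def resHom : GQ →* Gal K := AlgEquiv.restrictNormalHom K

theorem resHom_surjective : Function.Surjective (resHom K) :=
  AlgEquiv.restrictNormalHom_surjective Qb

theorem resHom_eq_one_iff (g : GQ) : resHom K g = 1 ↔ g ∈ K.fixingSubgroup :=
  PlaceDict.res_eq_one_iff K g

theorem resHom_ker : (resHom K).ker = K.fixingSubgroup :=
  Subgroup.ext fun g => by rw [MonoidHom.mem_ker, resHom_eq_one_iff]

theorem coe_resHom (g : GQ) (x : K) : ((resHom K g x : K) : Qb) = g (x : Qb) :=
  AlgEquiv.restrictNormal_commutes g K x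

theorem emb_resHom_smul (g : GQ) (x : K) : emb K (resHom K g • x) = g (emb K x) :=
  coe_resHom K g x

theorem emb_resHom_smul' (g : GQ) (x : K) : emb K (resHom K g • x) = g • emb K x :=
  coe_resHom K g x

/-- The tower `↥K ⊆ ℚ̄` (with `GQ` acting on `ℚ̄`): `π` is onto, `e` is equivariant and `K` is the
fixed field of `ker π = G_K`. -/
theorem isTowerQb : Global.IsTower (emb K) (resHom K) where
  surj := resHom_surjective K
  equivariant := fun g x => emb_resHom_smul' K g x
  fixed := by
    intro y hy
    have hyK : y ∈ K := by
      rw [← InfiniteGalois.fixedField_fixingSubgroup K, IntermediateField.mem_fixedField_iff]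
      intro g hg
      exact hy g (by rw [resHom_ker]; exact hg)
    exact ⟨⟨y, hyK⟩, rfl⟩

end ModelDefs

/-! ## Towers -/

section Tower

variable (K K')

/-- The inclusion `↥K →+* ↥K'` for `K ≤ K'`. -/
def towerHom (h : K ≤ K') : K →+* K' := (IntermediateField.inclusion h).toRingHom

theorem coe_towerHom (h : K ≤ K') (x : K) : ((towerHom K K' h x : K') : Qb) = (x : Qb) := rfl

theorem emb_towerHom (h : K ≤ K') (x : K) : emb K' (towerHom K K' h x) = emb K x := rfl

theorem emb_comp_towerHom (h : K ≤ K') : (emb K').comp (towerHom K K' h) = emb K := rfl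

variable [Normal ℚ K] [Normal ℚ K']

/-- The restriction `Gal(K'/ℚ) →* Gal(K/ℚ)` for `K ≤ K'` (defined through any lift to `GQ`). -/
def towerRes (h : K ≤ K') : Gal K' →* Gal K where
  toFun τ := resHom K (Function.surjInv (resHom_surjective K') τ)
  map_one' := by
    rw [resHom_eq_one_iff]
    have h1 : Function.surjInv (resHom_surjective K') 1 ∈ K'.fixingSubgroup := by
      rw [← resHom_eq_one_iff, Function.surjInv_eq (resHom_surjective K')]
    exact IntermediateField.fixingSubgroup_antitone h h1
  map_mul' τ τ' := by
    rw [← map_mul, ← mul_inv_eq_one, ← map_inv, ← map_mul, resHom_eq_one_iff]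
    refine IntermediateField.fixingSubgroup_antitone h ?_
    rw [← resHom_eq_one_iff, map_mul, map_inv, map_mul,
      Function.surjInv_eq (resHom_surjective K'), Function.surjInv_eq (resHom_surjective K'),
      Function.surjInv_eq (resHom_surjective K'), mul_inv_cancel]

theorem towerRes_resHom (h : K ≤ K') (g : GQ) : towerRes K K' h (resHom K' g) = resHom K g := by
  show resHom K (Function.surjInv (resHom_surjective K') (resHom K' g)) = resHom K g
  rw [← mul_inv_eq_one, ← map_inv, ← map_mul, resHom_eq_one_iff]
  refine IntermediateField.fixingSubgroup_antitone h ?_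
  rw [← resHom_eq_one_iff, map_mul, map_inv, Function.surjInv_eq (resHom_surjective K'),
    mul_inv_cancel]

theorem towerRes_comp_resHom (h : K ≤ K') : (towerRes K K' h).comp (resHom K') = resHom K :=
  MonoidHom.ext (towerRes_resHom K K' h)

theorem towerRes_surjective (h : K ≤ K') : Function.Surjective (towerRes K K' h) := by
  intro τ
  obtain ⟨g, rfl⟩ := resHom_surjective K τ
  exact ⟨resHom K' g, towerRes_resHom K K' h g⟩

theorem towerHom_towerRes_smul (h : K ≤ K') (τ : Gal K') (x : K) :
    towerHom K K' h (towerRes K K' h τ • x) = τ • towerHom K K' h x := by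
  obtain ⟨g, rfl⟩ := resHom_surjective K' τ
  rw [towerRes_resHom]
  apply Subtype.ext
  show ((resHom K g x : K) : Qb) = ((resHom K' g (towerHom K K' h x) : K') : Qb)
  rw [coe_resHom, coe_resHom]
  rfl

/-- The tower datum of two normal levels `K ≤ K'`. -/
theorem isTower (h : K ≤ K') : Global.IsTower (towerHom K K' h) (towerRes K K' h) where
  surj := towerRes_surjective K K' h
  equivariant := fun τ x => towerHom_towerRes_smul K K' h τ x
  fixed := by
    intro y hy
    have hyK : (y : Qb) ∈ K := by
      rw [← InfiniteGalois.fixedField_fixingSubgroup K, IntermediateField.mem_fixedField_iff]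
      intro g hg
      have h1 : resHom K' g ∈ (towerRes K K' h).ker := by
        rw [MonoidHom.mem_ker, towerRes_resHom, resHom_eq_one_iff]
        exact hg
      have h2 : ((resHom K' g • y : K') : Qb) = (y : Qb) := congrArg Subtype.val (hy _ h1)
      rw [← coe_resHom K' g y]
      exact h2
    exact ⟨⟨(y : Qb), hyK⟩, Subtype.ext rfl⟩

end Tower

end Fermat.Agent.CFT.Glob.TopBridge.Model

end
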