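import Mathlib
import Fermat.Agent.CFT.Glob.TopBridge.Model
import Fermat.Agent.CFT.Global.KummerLimit
import Fermat.Agent.CFT.Global.IdeleStructure
import Fermat.Agent.CFT.Fin.KummerS
import Fermat.Agent.CFT.Level.SLevels

/-!
# [TOPBRIDGE] / [CAP]: capitulation of the `S`-class group of a normal `S`-level, up to a
factor prime to `p`

For a normal `S`-level `K` (`p ∈ S`) there is `m` prime to `p` such that for every finite idele
`x` of `K` the idele `x ^ m` becomes an element of `K'ˣ · J_S(K') · U^S(K')` in some normal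
`S`-level `K' ⊇ K` (`cap`).

Proof: `h := [J_K : Kˣ · J_S · U^S]` is finite (`IdeleStructure.classGroupFinite`); write
`h = p^a · m`.  Then `(x^m)^(p^a) = c · s · u` with `c ∈ Kˣ`, and `p^a ∣ ord_w(c)` for all primes
`w` of `K` outside `S`.  Hence `K(c^(1/p^a))` is unramified outside `S`
(`Fin.exists_level_pow_eq`), and in its normal closure `K'` we get
`(x^m / c^(1/p^a))^(p^a) ∈ J_S · U^S`, so `x^m / c^(1/p^a)` is a local unit outside `S`
(local unit groups are saturated).  No roots of unity are needed.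
-/

set_option autoImplicit false

open NumberField IsDedekindDomain

noncomputable section

namespace Fermat.Agent.CFT.Glob.TopBridge.Capitulation

open Fermat.Agent.CFT Fermat.Agent.CFT.Top Fermat.Agent.CFT.Global ExtCitation

/-! ### The generic step: a root of the principal part makes the idele class trivial -/

section Generic

variable {L L' : Type} [Field L] [CharZero L] [Field L'] [CharZero L']

/-- If `x ^ n = a · s · u` with `a ∈ Lˣ`, `s ∈ J_S`, `u ∈ U^S`, `n > 0`, and `f a` has an `n`-th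
root `b` in `L'`, then the image of `x` lies in `L'ˣ · J_S · U^S`. -/
theorem ideleProdMap_mem_of_root (f : L →+* L') (S : Finset Nat.Primes) {n : ℕ} (hn : 0 < n)
    (x : IdeleProd L) (a : Lˣ) (s u : IdeleProd L) (hs : s ∈ supportedOn L S)
    (hu : u ∈ unitsOutside L S) (hx : x ^ n = principal L a * s * u) (b : L'ˣ)
    (hb : b ^ n = Units.map f.toMonoidHom a) :
    ideleProdMap f x ∈ (principal L').range ⊔ supportedOn L' S ⊔ unitsOutside L' S := by
  set y : IdeleProd L' := (principal L' b)⁻¹ * ideleProdMap f x with hy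
  have hyp : y ^ n = ideleProdMap f s * ideleProdMap f u := by
    rw [hy, mul_pow, inv_pow, ← map_pow, ← map_pow, hb, hx, map_mul, map_mul,
      ideleProdMap_principal]
    rw [mul_assoc, inv_mul_cancel_left]
  have hyq : ∀ q : Nat.Primes, q ∉ S → y q ∈ localUnits L' q := by
    intro q hq
    apply KummerLimit.mem_localUnits_of_pow_mem L' (q : ℕ) hn (n := n)
    have h1 : y q ^ n = (ideleProdMap f s * ideleProdMap f u) q := by
      rw [← hyp]; rfl
    have h2 : (ideleProdMap f s) q = 1 := by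
      rw [ideleProdMap_apply, hs q hq, map_one]
    rw [h1, Pi.mul_apply, h2, one_mul]
    exact (map_mem_unitsOutside f S hu).1 q
  have hsplit := KummerLimit.mem_sup_of_forall_mem_localUnits L' S y hyq
  have hx' : ideleProdMap f x = principal L' b * y := by
    rw [hy, mul_inv_cancel_left]
  rw [hx', sup_assoc]
  exact Subgroup.mul_mem_sup ⟨b, rfl⟩ hsplit

end Generic

/-! ### Dictionary: `QBridge.ordZ` versus `valuationOfNeZero` -/

section Dict

variable {L : Type} [Field L] [NumberField L]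

theorem toAdd_valuationOfNeZero_eq (w : HeightOneSpectrum (𝓞 L)) (a : Lˣ) :
    Multiplicative.toAdd (w.valuationOfNeZero a) = -QBridge.ordZ w a := by
  rw [QBridge.ordZ, neg_neg, ← HeightOneSpectrum.valuationOfNeZero_eq]
  rfl

end Dict

/-! ### [CAP] -/

/-- **[CAP]**, finite-level form.  For a normal `S`-level `K` with `p ∈ S` there is `m` prime
to `p` such that for every finite idele `x` of `K`, the idele `x ^ m` lies in
`K'ˣ · J_S(K') · U^S(K')` for some normal `S`-level `K' ⊇ K`. -/
theorem cap (p : ℕ) [Fact p.Prime] (S : Finset Nat.Primes) (hpS : pPrime p ∈ S)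
    (K : IntermediateField ℚ Qb) (hK : IsNLevel S K) :
    ∃ m : ℕ, m.Coprime p ∧ ∀ x ∈ Global.finIdele ↥K,
      ∃ K' : IntermediateField ℚ Qb, IsNLevel S K' ∧ ∃ h : K ≤ K',
        Global.ideleProdMap (IntermediateField.inclusion h).toRingHom (x ^ m) ∈
          (Global.principal ↥K').range ⊔ Global.supportedOn ↥K' S ⊔
            Global.unitsOutside ↥K' S := by
  classical
  have hp : p.Prime := Fact.out
  have hfd : FiniteDimensional ℚ K := hK.1.1
  have hnf : NumberField K := Model.numberField hK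
  set H : Subgroup (IdeleProd K) :=
    (principal K).range ⊔ supportedOn K S ⊔ unitsOutside K S with hH
  have hfin : H.relIndex (finIdele K) ≠ 0 := IdeleStructure.classGroupFinite (L := K) S
  set h := H.relIndex (finIdele K) with hh
  set n := p ^ h.factorization p with hn
  set m := h / p ^ h.factorization p with hm
  have hnm : n * m = h := Nat.ordProj_mul_ordCompl_eq_self h p
  have hn0 : n ≠ 0 := pow_ne_zero _ hp.ne_zero
  have hnS : ∀ q : Nat.Primes, (q : ℕ) ∣ n → q ∈ S := by
    intro q hq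
    have h1 : (q : ℕ) = p := (Nat.prime_dvd_prime_iff_eq q.2 hp).mp (q.2.dvd_of_dvd_pow hq)
    have h2 : q = pPrime p := Subtype.ext h1
    rw [h2]
    exact hpS
  refine ⟨m, (Nat.coprime_ordCompl hp hfin).symm, fun x hx => ?_⟩
  -- `x ^ h ∈ H`
  have hxh : x ^ h ∈ H := by
    have h1 := Subgroup.pow_index_mem (H.subgroupOf (finIdele K)) ⟨x, hx⟩
    rw [Subgroup.mem_subgroupOf] at h1
    exact h1
  have hxn : (x ^ m) ^ n ∈ H := by
    rw [← pow_mul, mul_comm, hnm]
    exact hxh
  obtain ⟨t, ht, u, hu, htu⟩ := Subgroup.mem_sup.mp hxn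
  obtain ⟨c', ⟨c, rfl⟩, s, hs, rfl⟩ := Subgroup.mem_sup.mp ht
  -- `c` is in the Selmer group
  have hsel : c ∈ Fin.selmerSubgroup (𝓞 K) K (Fin.primesAbove K S) n := by
    intro v hv
    obtain ⟨q, hqv⟩ : ∃ q : Nat.Primes, ((q : ℕ) : 𝓞 K) ∈ v.asIdeal := by
      obtain ⟨q0, hq0, h⟩ := Fin.exists_prime_natCast_mem K v
      exact ⟨⟨q0, hq0⟩, h⟩
    have hqS : q ∉ S := fun hmem => hv ⟨q, hmem, hqv⟩
    have h1 : ((x ^ m) ^ n) q = principal K c q * s q * u q := by rw [← htu]; rfl
    rw [hs _ hqS, mul_one] at h1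
    have h2 : principal K c q = ((x ^ m) q) ^ n * (u q)⁻¹ := by
      rw [← Pi.pow_apply, h1, mul_inv_cancel_right]
    have h3 := KummerLimit.dvd_ordZ_of_principal_eq n c q ((x ^ m) q)
      (u q)⁻¹ (inv_mem (hu.1 _)) h2 v hqv
    rw [toAdd_valuationOfNeZero_eq]
    exact (dvd_neg).mpr h3
  obtain ⟨L, hL, hKL, b, hbL, hb⟩ := Fin.exists_level_pow_eq hn0 hnS K hK.1 c hsel
  have := hL.1
  obtain ⟨K', -, hle, -, hnormal, -, hur⟩ := Level.exists_galois_level L
  have hKK' : K ≤ K' := hKL.trans hle
  refine ⟨K', ⟨hur S hL, hnormal⟩, hKK', ?_⟩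
  -- the root as a unit of `K'`
  have hb0 : (⟨b, hle hbL⟩ : K') ≠ 0 := by
    intro h0
    have h1 : b = 0 := congrArg Subtype.val h0
    rw [h1, zero_pow hn0] at hb
    exact c.ne_zero (Subtype.ext hb.symm)
  refine ideleProdMap_mem_of_root (IntermediateField.inclusion hKK').toRingHom S
    (Nat.pos_of_ne_zero hn0) (x ^ m) c s u hs hu htu.symm (Units.mk0 ⟨b, hle hbL⟩ hb0) ?_
  apply Units.ext
  apply Subtype.ext
  rw [Units.val_pow_eq_pow_val, Units.val_mk0]
  show (((⟨b, hle hbL⟩ : K') ^ n : K') : Qb) = _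
  rw [SubmonoidClass.coe_pow]
  exact hb

end Fermat.Agent.CFT.Glob.TopBridge.Capitulation
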