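import Fermat.Agent.CFT.Glob.TopBridge.Setup
import Fermat.Agent.CFT.Glob.TopBridge.Capitulation
import Fermat.Agent.CFT.Global.Plan

/-!
# P3 / CFT, [TOPBRIDGE]: the leaves **[HCOMP]** and **[HCAP]**

* `extS_jsFun` : for an idele `s` of `L` supported on `S`, extending the `S`-components of its
  image in `∏_{q ∈ S} (ℚ̄ ⊗ ℚ_q)ˣ` by `1` gives back `ideleProdMap e s`;
* `tauK_mkS_of_supported` : the class in `C_S(ℚ̄)` of an idele of `K` supported on `S` is
  `thetaPre` of the corresponding element of `JS S`;
* `hComp : HComp S hK` (**[HCOMP]**);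
* `hCap : HCap S K p` (**[HCAP]**, capitulation up to an integer prime to `p`), from
  helper25's `Capitulation.cap`.
-/

set_option autoImplicit false

open CategoryTheory

noncomputable section

namespace Fermat.Agent.CFT.Glob.TopBridge.Cap

open Fermat.Agent.CFT Fermat.Agent.CFT.Top Fermat.Agent.CFT.Glob.TopBridge

/-! ## Generalities on `mkS` and `ideleProdMap` -/

section Gen

variable {L : Type} [Field L] [CharZero L] (S : Finset Nat.Primes)

theorem nsmul_mkS (n : ℕ) {x : Global.IdeleProd L} (hx : x ∈ Global.finIdele L) :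
    n • mkS L S x hx = mkS L S (x ^ n) (pow_mem hx n) := by
  induction n with
  | zero =>
    rw [zero_nsmul]
    symm
    rw [mkS_eq_zero_iff, pow_zero]
    exact one_mem _
  | succ k ih =>
    rw [succ_nsmul, ih, ← mkS_mul]
    congr 1
    rw [pow_succ]

theorem mkS_eq_of_mul {x y a u : Global.IdeleProd L} (hx : x ∈ Global.finIdele L)
    (hy : y ∈ Global.finIdele L) (ha : a ∈ (Global.principal L).range)
    (hu : u ∈ Global.unitsOutside L S) (h : x = a * y * u) :
    mkS L S x hx = mkS L S y hy := by
  rw [mkS_eq_mkS_iff]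
  have h1 : x / y = a * u := by
    rw [h, div_eq_iff_eq_mul]
    exact mul_right_comm a y u
  rw [h1]
  exact mul_mem (Subgroup.mem_sup_left ha) (Subgroup.mem_sup_right hu)

/-- Functoriality of `ideleProdMap` along `L → L' → ℚ̄`. -/
theorem ideleProdMap_ideleProdMap {L' : Type} [Field L'] [CharZero L'] (e : L →+* Qb)
    (e' : L' →+* Qb) (f : L →+* L') (hf : ∀ x, e' (f x) = e x) (x : Global.IdeleProd L) :
    Global.ideleProdMap e' (Global.ideleProdMap f x) = Global.ideleProdMap e x := by
  funext q
  apply Units.ext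
  exact Top.Semilocal.semiLocalMap_semiLocalMap q e e' f hf _

end Gen

/-! ## `extS ∘ jsFun` on ideles supported on `S` -/

section Ext

attribute [-instance] Top.tqAction Top.tqUnitsAction Top.jFullAction Top.jFullSMul

variable (S : Finset Nat.Primes) {L : Type} [Field L] [CharZero L] (e : L →+* Qb)

theorem extS_jsFun {s : Global.IdeleProd L} (hs : s ∈ Global.supportedOn L S) :
    extS S (Top.Semilocal.jsFun S e s) = Global.ideleProdMap e s := by
  funext q
  by_cases h : q ∈ S
  · rw [extS_apply_of_mem _ h]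
    rfl
  · rw [extS_apply_of_notMem _ h, Global.ideleProdMap_apply, hs q h, map_one]

end Ext

/-! ## The leaves -/

section Leaves

variable (S : Finset Nat.Primes) {K : IntermediateField ℚ Qb}

set_option synthInstance.maxHeartbeats 400000 in
theorem jsVal_iotaJ (hK : IsNLevel S K) (x : JM S K) :
    jsVal S (iotaJ S hK x) =
      Top.Semilocal.jsFun S (Model.emb K) (Top.Semilocal.sIdeleVal S (Model.Gal K) x) := rfl

set_option synthInstance.maxHeartbeats 400000 in
/-- `thetaPre ∘ iotaJ` is the class of the image idele. -/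
theorem thetaPre_iotaJ (hK : IsNLevel S K) (x : JM S K) :
    thetaPre S (iotaJ S hK x) =
      mkS Qb S (Global.ideleProdMap (Model.emb K) (Top.Semilocal.sIdeleVal S (Model.Gal K) x))
        (Global.ideleProdMap_mem_finIdele _ (Global.supportedOn_le_finIdele _ _
          (Top.Semilocal.sIdeleVal_mem S (Model.Gal K) x))) := by
  rw [thetaPre_apply]
  congr 1
  rw [jsVal_iotaJ]
  exact extS_jsFun S (Model.emb K) (Top.Semilocal.sIdeleVal_mem S (Model.Gal K) x)

set_option synthInstance.maxHeartbeats 400000 in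
theorem clM_eq_mkS (x : JM S K) :
    clM S K x = mkS K S (Top.Semilocal.sIdeleVal S (Model.Gal K) x)
      (Global.supportedOn_le_finIdele _ _ (Top.Semilocal.sIdeleVal_mem S (Model.Gal K) x)) :=
  rfl

set_option synthInstance.maxHeartbeats 400000 in
/-- **[HCOMP]** `tauK ∘ clM = thetaPre ∘ iotaJ`. -/
theorem hComp (hK : IsNLevel S K) : HComp S hK := by
  intro x
  exact (thetaPre_iotaJ S hK x).symm

set_option synthInstance.maxHeartbeats 400000 in
/-- The same, in the spelling of the roster: `Global.classMapS (Model.emb K) S` of the class of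
an `S`-idele is `thetaPre` of its `jsModel`. -/
theorem classMapS_sIdeleToClassS (hK : IsNLevel S K)
    (x : (Global.sIdeleRep (Model.Gal K) ↥K S).V) :
    Global.classMapS (Model.emb K) S ((Global.sIdeleToClassS (Model.Gal K) ↥K S).hom x) =
      thetaPre S (Top.Semilocal.jsModel S (Model.emb K) (Model.Gal K) K hK (Model.emb_mem K) x) :=
  hComp S hK x

set_option synthInstance.maxHeartbeats 400000 in
/-- **[HCAP]** (without the finiteness hypothesis, which helper25's `cap` already discharges):
capitulation of `C_S(K)` in `CS S` up to an integer prime to `p`. -/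
theorem hCap' (p : ℕ) [Fact p.Prime] (hpS : ExtCitation.pPrime p ∈ S)
    (K : IntermediateField ℚ Qb) (hK : IsNLevel S K) : HCap S K p := by
  obtain ⟨m, hm, H⟩ := Capitulation.cap p S hpS K hK
  refine ⟨(m : ℤ), Nat.isCoprime_iff_coprime.mpr hm, fun c' => ?_⟩
  obtain ⟨x, hx, rfl⟩ := exists_mkS c'
  obtain ⟨K', hK', h, hmem⟩ := H x hx
  obtain ⟨y, hy, u, hu, hyu⟩ := Subgroup.mem_sup.mp hmem
  obtain ⟨a, ha, s, hs, has⟩ := Subgroup.mem_sup.mp hy
  obtain ⟨xs, hxs⟩ := Top.Semilocal.exists_sIdeleVal_eq S (Model.Gal K') s hs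
  refine ⟨iotaJ S hK' xs, ?_⟩
  refine (thetaPre_iotaJ S hK' xs).trans ?_
  -- both sides are classes of finite ideles of `ℚ̄`
  have h1 : ((m : ℤ) • (mkS K S x hx : CM S K) : CM S K) = mkS K S (x ^ m) (pow_mem hx m) :=
    (natCast_zsmul _ m).trans (nsmul_mkS S m hx)
  have h2 : tauK S K ((m : ℤ) • (mkS K S x hx : CM S K)) =
      mkS Qb S (Global.ideleProdMap (Model.emb K) (x ^ m))
        (Global.ideleProdMap_mem_finIdele _ (pow_mem hx m)) :=
    congrArg (tauK S K) h1
  refine Eq.trans ?_ h2.symm
  have hfun : Global.ideleProdMap (Model.emb K) (x ^ m) =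
      Global.ideleProdMap (Model.emb K')
        (Global.ideleProdMap (IntermediateField.inclusion h).toRingHom (x ^ m)) :=
    (ideleProdMap_ideleProdMap (Model.emb K) (Model.emb K')
      (IntermediateField.inclusion h).toRingHom (fun _ => rfl) _).symm
  obtain ⟨a₀, rfl⟩ := ha
  symm
  refine mkS_eq_of_mul S _ _ (a := Global.principal Qb (Units.map (Model.emb K').toMonoidHom a₀))
    (u := Global.ideleProdMap (Model.emb K') u) ⟨_, rfl⟩
    (Global.map_mem_unitsOutside (Model.emb K') S hu) ?_
  rw [hfun, ← hyu, ← has, map_mul, map_mul, Global.ideleProdMap_principal, hxs]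

set_option synthInstance.maxHeartbeats 400000 in
/-- **[HCAP]**, with the signature of the roster. -/
theorem hCap (_hfin : Global.Plan.ClassGroupFinite) (p : ℕ) [Fact p.Prime]
    (S : Finset Nat.Primes) (hpS : ExtCitation.pPrime p ∈ S)
    (K : IntermediateField ℚ Qb) (hK : IsNLevel S K) : HCap S K p :=
  hCap' S p hpS K hK

end Leaves

end Fermat.Agent.CFT.Glob.TopBridge.Cap
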