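import Fermat.Agent.CFT.Glob.TopBridge.Setup
import Fermat.Agent.CFT.Glob.TopBridge.SUnitDict

/-!
# P3 / CFT, [TOPBRIDGE] / [HDESC]: Galois descent into the ambient class module

Inside the ambient module `C_S(ℚ̄) = Global.ClassGroupSOf Top.Qb S` the class module `CS S` of the
Top layer sits through `thetaPre S : JS S →+ C_S(ℚ̄)` and the class group `C_S(K)` of a normal
`S`-level `K` sits through `τ_K = Global.classMapS (Model.emb K) S`.

* `classMapS_classMapS` : functoriality of `Global.classMapS`;
* `thetaPre_rho`        : `thetaPre` is `GQ`-equivariant;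
* `exists_classMapS_eq_thetaPre_of` : **[HDESC]** with [TAU] (injectivity of `τ_K`) and [HCOMP]
  (`τ_K ∘ cl_K = thetaPre ∘ jsModel_K`) as explicit hypotheses: if the class of `j : JS S` in
  `CS S` is fixed by `Gal(ℚ̄/K)` then `thetaPre S j` lies in `τ_K(C_S(K))`;
* `hDesc_of` : the same in the vocabulary of `Setup.lean`: `TauInj` and `HComp` at the normal
  `S`-levels give `HDesc S K`.

Proof: `j` is smooth, so `j = jsModel_{K'} x'` at a normal `S`-level `K' ⊇ K`; the class `y` of
`x'` in `C_S(K')` has `τ_{K'} y = thetaPre j`; `y` is fixed by `Gal(K'/K)` because `τ_{K'}` is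
injective and equivariant and `thetaPre` kills the `S`-units; Galois descent for `C_S` along
`K ⊆ K'` (`Global.ClassDescentS.classDescentS`) descends `y` to `C_S(K)`.
-/

set_option autoImplicit false

open CategoryTheory
open scoped TensorProduct

noncomputable section

namespace Fermat.Agent.CFT.Glob.TopBridge

open Fermat.Agent.CFT

namespace Desc

/-! ## Functoriality of `classMapS` -/

section Functoriality

variable {L L' L'' : Type} [Field L] [CharZero L] [Field L'] [CharZero L'] [Field L'']
  [CharZero L'']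

theorem semiLocalMap_semiLocalMap (q : ℕ) [Fact q.Prime] (f : L →+* L') (f' : L' →+* L'')
    (s : Global.SemiLocal L q) :
    Global.semiLocalMap q f' (Global.semiLocalMap q f s) = Global.semiLocalMap q (f'.comp f) s := by
  induction s using TensorProduct.induction_on with
  | zero => rw [map_zero, map_zero, map_zero]
  | tmul x c => rfl
  | add a b ha hb => rw [map_add, map_add, map_add, ha, hb]

theorem ideleProdMap_ideleProdMap (f : L →+* L') (f' : L' →+* L'') (x : Global.IdeleProd L) :
    Global.ideleProdMap f' (Global.ideleProdMap f x) = Global.ideleProdMap (f'.comp f) x := by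
  funext q
  apply Units.ext
  exact semiLocalMap_semiLocalMap (q : ℕ) f f' _

/-- Functoriality of `C_S(L) → C_S(L')`. -/
theorem classMapS_classMapS (f : L →+* L') (f' : L' →+* L'') (S : Finset Nat.Primes)
    (c : Global.ClassGroupSOf L S) :
    Global.classMapS f' S (Global.classMapS f S c) = Global.classMapS (f'.comp f) S c := by
  obtain ⟨x, hx, rfl⟩ := exists_mkS c
  rw [classMapS_mkS, classMapS_mkS, classMapS_mkS]
  congr 1
  exact ideleProdMap_ideleProdMap f f' x

end Functoriality

/-! ## Equivariance of `thetaPre` -/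

/-- `thetaPre : JS S → C_S(ℚ̄)` is `GQ`-equivariant. -/
theorem thetaPre_rho (S : Finset Nat.Primes) (g : Top.GQ) (j : Top.JS S) :
    thetaPre S ((Top.JS S).ρ g j) = (Global.classRepS Top.GQ Top.Qb S).ρ g (thetaPre S j) := by
  rw [thetaPre_eq, jsToIdele_rho, thetaPre_eq]
  exact Rep.hom_comm_apply (Global.classMkS Top.GQ Top.Qb S) g (jsToIdele S j)

/-- If the class of `j` in `CS S` is fixed by `g`, then so is `thetaPre S j`. -/
theorem thetaPre_rho_eq_of_jsProj (S : Finset Nat.Primes) (g : Top.GQ) (j : Top.JS S)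
    (h : (Top.jsProj S).hom ((Top.JS S).ρ g j) = (Top.jsProj S).hom j) :
    thetaPre S ((Top.JS S).ρ g j) = thetaPre S j := by
  have hker : ∀ j : Top.JS S, (Top.jsProj S).hom j = 0 ↔ j ∈ Top.esSub S := fun j =>
    Submodule.Quotient.mk_eq_zero _
  have h1 : (Top.jsProj S).hom ((Top.JS S).ρ g j - j) = 0 := by rw [map_sub, h, sub_self]
  have h2 := thetaPre_eq_zero_of_mem S (sUnits_eq S) ((hker _).1 h1)
  rwa [map_sub, sub_eq_zero] at h2

/-! ## [HDESC] -/

/-- Every element of `JS S` is fixed by `Gal(ℚ̄/K')` for some normal `S`-level `K'` containing a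
given normal `S`-level `K`. -/
theorem exists_level_fixing (S : Finset Nat.Primes) (K : IntermediateField ℚ Top.Qb)
    (hK : Top.IsNLevel S K) (j : Top.JS S) :
    ∃ K' : IntermediateField ℚ Top.Qb, Top.IsNLevel S K' ∧ K ≤ K' ∧
      ∀ n ∈ K'.fixingSubgroup, (Top.JS S).ρ n j = j := by
  obtain ⟨F, hF, hjF⟩ := j.2
  refine ⟨K ⊔ F, hK.sup hF, le_sup_left, fun n hn => ?_⟩
  rw [IntermediateField.fixingSubgroup_sup] at hn
  exact Subtype.ext (hjF n hn.2)

/-- **[HDESC]**, with [TAU] and [HCOMP] (at the normal `S`-levels) as explicit hypotheses. -/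
theorem exists_classMapS_eq_thetaPre_of (S : Finset Nat.Primes)
    (hTAU : ∀ K : IntermediateField ℚ Top.Qb, Top.IsNLevel S K →
      Function.Injective (Global.classMapS (Model.emb K) S))
    (hCOMP : ∀ (K : IntermediateField ℚ Top.Qb) (hK : Top.IsNLevel S K)
      (x : (Global.sIdeleRep (Model.Gal K) ↥K S).V),
      Global.classMapS (Model.emb K) S ((Global.sIdeleToClassS (Model.Gal K) ↥K S).hom x) =
        thetaPre S
          (Top.Semilocal.jsModel S (Model.emb K) (Model.Gal K) K hK (Model.emb_mem K) x))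
    (hC3 : Global.ClassDescentS.LocUnitsH1) (hS : S.Nonempty)
    (K : IntermediateField ℚ Top.Qb) (hK : Top.IsNLevel S K) (j : Top.JS S)
    (hfix : ∀ n ∈ K.fixingSubgroup,
      (Top.jsProj S).hom ((Top.JS S).ρ n j) = (Top.jsProj S).hom j) :
    ∃ c' : Global.ClassGroupSOf ↥K S, Global.classMapS (Model.emb K) S c' = thetaPre S j := by
  classical
  obtain ⟨K', hK', hle, hjK'⟩ := exists_level_fixing S K hK j
  have : Normal ℚ K := Model.normal hK
  have : Normal ℚ K' := Model.normal hK'
  have : NumberField K := Model.numberField hK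
  have : NumberField K' := Model.numberField hK'
  have : Finite (Model.Gal K') := Model.finite_gal hK'
  let _ : Fintype (Model.Gal K') := Fintype.ofFinite _
  -- `j` comes from `J_S(K')`
  obtain ⟨x', hx'⟩ := Top.Semilocal.exists_jsModel_eq S (Model.emb K') (Model.Gal K') K' hK'
    (Model.emb_mem K') (Model.exists_emb_eq K') j hjK'
  -- its class `y ∈ C_S(K')`
  obtain ⟨y, hy⟩ : ∃ y : Global.ClassGroupSOf ↥K' S,
      Global.classMapS (Model.emb K') S y = thetaPre S j :=
    ⟨(Global.sIdeleToClassS (Model.Gal K') ↥K' S).hom x', by rw [hCOMP K' hK' x', hx']⟩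
  -- `y` is fixed by `Gal(K'/K)`
  have hyfix : ∀ n ∈ (Model.towerRes K K' hle).ker,
      (Global.classRepS (Model.Gal K') ↥K' S).ρ n y = y := by
    intro n hn
    obtain ⟨g, rfl⟩ := Model.resHom_surjective K' n
    have hg : g ∈ K.fixingSubgroup := by
      rw [MonoidHom.mem_ker, Model.towerRes_resHom, Model.resHom_eq_one_iff] at hn
      exact hn
    apply hTAU K' hK'
    rw [Global.ClassDescentS.classMapS_rho (Model.isTowerQb K') g y, hy, ← thetaPre_rho]
    exact thetaPre_rho_eq_of_jsProj S g j (hfix g hg)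
  -- Galois descent along `K ⊆ K'`
  obtain ⟨-, hdesc, -⟩ := Global.ClassDescentS.classDescentS hC3 ↥K ↥K' (Model.Gal K)
    (Model.Gal K') (Model.towerHom K K' hle) (Model.towerRes K K' hle)
    (Model.isTower K K' hle) S hS (Model.unramOutside hK')
  obtain ⟨c', hc'⟩ := hdesc y hyfix
  refine ⟨c', ?_⟩
  rw [← hy, ← hc', classMapS_classMapS]
  rfl

set_option synthInstance.maxHeartbeats 400000 in
/-- **[HDESC]** in the vocabulary of `Setup.lean`: [TAU] and [HCOMP] at the normal `S`-levels
give `HDesc S K` for every normal `S`-level `K` (`S ≠ ∅`), from the degree-one part of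
`Plan.LocUnitsAcyclic`. -/
theorem hDesc_of (S : Finset Nat.Primes)
    (hτ : ∀ K : IntermediateField ℚ Top.Qb, Top.IsNLevel S K → TauInj S K)
    (hcomp : ∀ (K : IntermediateField ℚ Top.Qb) (hK : Top.IsNLevel S K), HComp S hK)
    (hC3 : Global.ClassDescentS.LocUnitsH1) (hS : S.Nonempty)
    (K : IntermediateField ℚ Top.Qb) (hK : Top.IsNLevel S K) : HDesc S K :=
  fun j hfix => exists_classMapS_eq_thetaPre_of S (fun K' hK' => hτ K' hK')
    (fun K' hK' x => hcomp K' hK' x) hC3 hS K hK j hfix

end Desc

end Fermat.Agent.CFT.Glob.TopBridge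

end
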