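import Fermat.Agent.CFT.Glob.TopBridge.Provide
import Fermat.Agent.CFT.Glob.TopBridge.Desc
import Fermat.Agent.CFT.Glob.TopBridge.Cap
import Fermat.Agent.CFT.Top.LocBlockLGI
import Fermat.Agent.CFT.Global.ClassDescentPlan
import Fermat.Agent.CFT.Global.SClassComparePlan
import Fermat.Agent.CFT.Bridge.LocUnits

/-!
# P3 / CFT, [TOPBRIDGE]: `Top.Plan.ArithDual` from the three open Global props

`arithDual_of_global` : for `p ≠ 2`, `p ∈ S` and a normal `S`-level `F ⊇ μ_p`,
`Top.Plan.ArithDual S p F` follows from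

* `Global.ExistPlan.ExistenceModP`  (existence theorem mod `p`),
* `Global.Plan.ClassFormationP`     (class formation, `p`-primary),
* `Global.Plan.LocalGlobalInj`      (local–global injectivity on `H²`),

and the bridge leaf [TAU] (`TauInj`, injectivity of `C_S(K) → C_S(ℚ̄)`).  Everything else is
wired from landed theorems: [G2] `ClassDescentPlan.classDescentS_plan`, [G3]
`SClassCompare.sClassCompare_of_locUnitsAcyclic` with [C3] `Bridge.LocUnits.locUnitsAcyclic`,
[HDESC] `Desc.hDesc_of`, [HCAP] `Cap.hCap'`, [HCOMP] `hComp`, [LGI-Top]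
`Top.LocBlock.lgInjTop_of_plan`, [EX'] `ExTop.exists_nLevel_normDiv`, (A3)
`LocalClass.arithCore_A3`, the semilocal interface `Semilocal.jsInj / jsSurj`.
-/

set_option autoImplicit false

open CategoryTheory groupCohomology ExtCitation

namespace Fermat.Agent.CFT.Glob.TopBridge

open Fermat.Agent.CFT Fermat.Agent.CFT.Top

/-- [G3] `SClassCompare`, unconditional (helper69's reduction + helper44's [C3]). -/
theorem sClassCompare_holds : Global.Plan.SClassCompare :=
  Global.SClassCompare.sClassCompare_of_locUnitsAcyclic Bridge.LocUnits.locUnitsAcyclic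

set_option synthInstance.maxHeartbeats 400000 in
/-- **[TOPBRIDGE]** from the three open Global props and [TAU]. -/
theorem arithDual_of_global {p : ℕ} [Fact p.Prime] (hp2 : p ≠ 2) (S : Finset Nat.Primes)
    (hpS : pPrime p ∈ S) (F : IntermediateField ℚ Qb) (hF : IsNLevel S F)
    (hμ : F.fixingSubgroup ≤ (cycloChar p).ker)
    (hEX : Global.ExistPlan.ExistenceModP) (hF1 : Global.Plan.ClassFormationP)
    (hF2 : Global.Plan.LocalGlobalInj)
    (hτ : ∀ K : IntermediateField ℚ Qb, IsNLevel S K → TauInj S K) :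
    Top.Plan.ArithDual S p F := by
  have hS : S.Nonempty := ⟨_, hpS⟩
  exact arithDual_of_plan hp2 S hpS F hF hμ hEX
    Global.ClassDescentPlan.classDescentS_plan hF1 sClassCompare_holds hτ
    (fun K hK => Desc.hDesc_of S hτ (fun K' hK' => hComp S K' hK')
      Global.LocUnitsDirect.locUnitsH1 hS K hK)
    (fun K hK => Cap.hCap' S p hpS K hK)
    (fun K hK => Top.LocBlock.lgInjTop_of_plan hF2 sClassCompare_holds hp2 S hS K hK _ _)

end Fermat.Agent.CFT.Glob.TopBridge
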