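import Fermat.Agent.CFT.Glob.TopBridge.Setup

/-!
# P3 / CFT, [TOPBRIDGE]: the leaf [HCOMP]

`hComp : HComp S hK` — for an `S`-idele `x` of the level `K`, the class of `x` in `C_S(ℚ̄)`
(through `C_S(K)`) is `thetaPre` of its image in `JS S`.  Both sides are the class of the same
finite idele of `ℚ̄`: `extS S (jsFun S e v) = Global.ideleProdMap e v` for `v` supported on `S`.
-/

set_option autoImplicit false

open CategoryTheory

namespace Fermat.Agent.CFT.Glob.TopBridge

open Fermat.Agent.CFT Fermat.Agent.CFT.Top

/-- For an idele supported on `S`, extending its `S`-components (mapped to `ℚ̄`) by `1` gives the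
image idele of `ℚ̄`. -/
theorem extS_jsFun (S : Finset Nat.Primes) {L : Type} [Field L] [CharZero L] (e : L →+* Qb)
    {v : Global.IdeleProd L} (hv : v ∈ Global.supportedOn L S) :
    extS S (Top.Semilocal.jsFun S e v) = Global.ideleProdMap e v := by
  funext q
  by_cases h : q ∈ S
  · rw [extS_apply_of_mem _ h]
    rfl
  · rw [extS_apply_of_notMem _ h, Global.ideleProdMap_apply, hv q h, map_one]

set_option synthInstance.maxHeartbeats 400000 in
/-- **[HCOMP]** -/
theorem hComp (S : Finset Nat.Primes) (K : IntermediateField ℚ Qb) (hK : IsNLevel S K) :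
    HComp S hK := by
  intro x
  have hv := Top.Semilocal.sIdeleVal_mem S (Model.Gal K) x
  have h1 : tauK S K (clM S K x) =
      mkS Qb S (Global.ideleProdMap (Model.emb K) (Top.Semilocal.sIdeleVal S (Model.Gal K) x))
        (Global.ideleProdMap_mem_finIdele _ (Global.supportedOn_le_finIdele _ _ hv)) := rfl
  have h2 : thetaPre S (iotaJ S hK x) =
      mkS Qb S (extS S (Top.Semilocal.jsFun S (Model.emb K)
        (Top.Semilocal.sIdeleVal S (Model.Gal K) x))) (extS_mem_finIdele _) := rfl
  rw [h1, h2]
  congr 1
  exact (extS_jsFun S (Model.emb K) hv).symm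

end Fermat.Agent.CFT.Glob.TopBridge
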