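import Mathlib
import Fermat.Agent.CFT.Global.ExistPlan
import Fermat.Agent.CFT.Global.ExistP
import Fermat.Agent.CFT.Global.Plan
import Fermat.Agent.CFT.Global.ClassDescentS
import Fermat.Agent.CFT.Glob.TopBridge.Transfer
import Fermat.Agent.CFT.Glob.TopBridge.Model
import Fermat.Agent.CFT.Level.SLevels
import Fermat.Agent.CFT.Fin.UnramDict

/-!
# [TOPBRIDGE] / [EX']: the existence theorem mod `p` at the normal `S`-levels

The Global layer exports the existence theorem mod `p` for abstract Galois pairs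
(`Global.ExistPlan.ExistenceModP`): for a number field `L ∋ ζ_p` unramified outside `S ∋ p`
there is a Galois pair `(G', L', f : L →+* L')`, unramified outside `S`, with
`N_{G'} C_S(L') ⊆ p · C_S(L)`.  This file transports it to the finite-level models of the Top
layer: for an `S`-level `F ∋ ζ_p` there is a normal `S`-level `K₀ ⊇ F` such that
`NormDiv p (classRepS Gal(K/ℚ) ↥K S) Gal(K/F)` for every normal `S`-level `K ⊇ K₀`.

* `sum_eq_sum_sum_ker`, `norm_eq_of_tower` : norm transitivity along a `Global.IsTower`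
  (uses Galois descent `Plan.ClassDescentS`);
* `exists_smul_of_agree` : two embeddings of a Galois extension which agree on the fixed field
  differ by an element of the group;
* `exists_res`, `exists_lift`, `resU`, `isTower_resU` : the restriction
  `Gal(K/F) → G'` and the tower `(G', L') ← (Gal(K/F), L₂)`;
* `normDiv_of_pair` : [EX'] on an arbitrary finite-level model containing the pair;
* `exists_level_normDiv`, `exists_nLevel_normDiv` : the cofinal forms.
-/

set_option autoImplicit false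

open scoped Fermat.Agent.CFT.Global

noncomputable section

namespace Fermat.Agent.CFT.Glob.TopBridge.ExTop

open Fermat.Agent.CFT Fermat.Agent.CFT.Global

/-! ## Sums over a group along a surjection -/

/-- Summation over a finite group `U` along a surjection `r : U →* G₁` with section `s`. -/
theorem sum_eq_sum_sum_ker {U G₁ M : Type*} [Group U] [Fintype U] [Group G₁] [Fintype G₁]
    [AddCommMonoid M] (r : U →* G₁) (s : G₁ → U) (hs : ∀ g, r (s g) = g) [Fintype r.ker]
    (F : U → M) : ∑ u : U, F u = ∑ g : G₁, ∑ n : r.ker, F (s g * n) := by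
  let e : G₁ × r.ker ≃ U :=
    { toFun := fun x => s x.1 * x.2
      invFun := fun u => (r u, ⟨(s (r u))⁻¹ * u, by
        rw [MonoidHom.mem_ker, map_mul, map_inv, hs, inv_mul_cancel]⟩)
      left_inv := by
        rintro ⟨g, n⟩
        have h1 : r (s g * (n : U)) = g := by
          rw [map_mul, hs, MonoidHom.mem_ker.mp n.2, mul_one]
        apply Prod.ext
        · exact h1
        · apply Subtype.ext
          show (s (r (s g * (n : U))))⁻¹ * (s g * (n : U)) = n
          rw [h1, inv_mul_cancel_left]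
      right_inv := fun u => mul_inv_cancel_left _ _ }
  rw [← Fintype.sum_prod_type' (f := fun g (n : r.ker) => F (s g * n))]
  exact (Equiv.sum_comp e F).symm

/-! ## Norm transitivity along a tower -/

section Tower

variable {L₀ L₁ L₂ : Type} [Field L₀] [NumberField L₀] [Field L₁] [NumberField L₁] [Field L₂]
  [NumberField L₂] {G₁ U : Type} [Group G₁] [Fintype G₁] [Group U] [Fintype U]
  [MulSemiringAction G₁ L₁] [MulSemiringAction U L₂] [FaithfulSMul U L₂]

/-- **Norm transitivity.**  For a tower `(G₁, L₁) ← (U, L₂)` with `L₂` unramified outside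
`S ≠ ∅`: if the norms from `C_S(L₁)` are `p`-divisible in (the image of) `C_S(L₀)`, so are
the norms from `C_S(L₂)`. -/
theorem norm_eq_of_tower {p : ℕ} (hG2 : Plan.ClassDescentS) (f₁ : L₀ →+* L₁) (f₂ : L₁ →+* L₂)
    (r : U →* G₁) (h : IsTower f₂ r) (S : Finset Nat.Primes) (hS : S.Nonempty)
    (hur : UnramOutside S L₂)
    (hEX : ∀ z : ClassGroupSOf L₁ S, ∃ y : ClassGroupSOf L₀ S,
      (classRepS G₁ L₁ S).ρ.norm z = classMapS f₁ S (p • y))
    (c : ClassGroupSOf L₂ S) :
    ∃ y : ClassGroupSOf L₀ S,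
      ∑ u : U, (classRepS U L₂ S).ρ u c = p • classMapS f₂ S (classMapS f₁ S y) := by
  classical
  obtain ⟨-, hrange, hequiv⟩ := hG2 L₁ L₂ G₁ U f₂ r h S hS hur
  -- the partial norm is in the image
  have hfixed : ∀ n ∈ r.ker, (classRepS U L₂ S).ρ n (∑ m : r.ker, (classRepS U L₂ S).ρ (m : U) c)
      = ∑ m : r.ker, (classRepS U L₂ S).ρ (m : U) c := by
    intro n hn
    rw [map_sum]
    have h1 : ∀ m : r.ker, (classRepS U L₂ S).ρ n ((classRepS U L₂ S).ρ (m : U) c) =
        (classRepS U L₂ S).ρ ((⟨n, hn⟩ * m : r.ker) : U) c := by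
      intro m
      rw [Subgroup.coe_mul, map_mul]
      rfl
    simp_rw [h1]
    exact Equiv.sum_comp (Equiv.mulLeft (⟨n, hn⟩ : r.ker))
      (fun m : r.ker => (classRepS U L₂ S).ρ (m : U) c)
  obtain ⟨z, hz⟩ := hrange _ hfixed
  obtain ⟨y, hy⟩ := hEX z
  refine ⟨y, ?_⟩
  have hs : ∀ g : G₁, r (Function.surjInv h.surj g) = g := Function.surjInv_eq h.surj
  rw [sum_eq_sum_sum_ker r (Function.surjInv h.surj) hs]
  have h2 : ∀ g : G₁, ∑ n : r.ker, (classRepS U L₂ S).ρ (Function.surjInv h.surj g * n) c =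
      classMapS f₂ S ((classRepS G₁ L₁ S).ρ g z) := by
    intro g
    have h3 := hequiv (Function.surjInv h.surj g) z
    rw [hs] at h3
    rw [h3, hz, map_sum]
    refine Finset.sum_congr rfl (fun n _ => ?_)
    rw [map_mul]
    rfl
  simp_rw [h2]
  calc ∑ g : G₁, classMapS f₂ S ((classRepS G₁ L₁ S).ρ g z)
      = classMapS f₂ S (∑ g : G₁, (classRepS G₁ L₁ S).ρ g z) :=
        (map_sum (classMapS f₂ S) _ _).symm
    _ = classMapS f₂ S ((classRepS G₁ L₁ S).ρ.norm z) :=
        congrArg (classMapS f₂ S) (ExistP.repNorm_apply (classRepS G₁ L₁ S).ρ z).symm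
    _ = p • classMapS f₂ S (classMapS f₁ S y) := by rw [hy, map_nsmul, map_nsmul]

end Tower

/-- **Embeddings of a Galois extension.**  Let the finite group `G'` act faithfully on the
field `L'`.  Two ring homomorphisms `φ, ψ : L' →+* E` into a field which agree on the fixed
field differ by an element of `G'`. -/
theorem exists_smul_of_agree {G' L' E : Type*} [Group G'] [Finite G'] [Field L'] [Field E]
    [MulSemiringAction G' L'] [FaithfulSMul G' L'] (φ ψ : L' →+* E)
    (h : ∀ y : L', (∀ g : G', g • y = y) → ψ y = φ y) : ∃ g : G', ∀ y, ψ y = φ (g • y) := by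
  classical
  cases nonempty_fintype G'
  let k := FixedPoints.subfield G' L'
  let _ : Algebra k E := (φ.comp k.subtype).toAlgebra
  let Φ : L' →ₐ[k] E := { φ with commutes' := fun _ => rfl }
  let Ψ : L' →ₐ[k] E :=
    { ψ with commutes' := fun c => h c (fun g => c.2 g) }
  let T : G' → (L' →ₐ[k] E) := fun g => Φ.comp (MulSemiringAction.toAlgHom k L' g)
  have hT : Function.Injective T := by
    intro g₁ g₂ h12
    apply MulSemiringAction.toAlgHom_injective k L'
    ext y
    have h1 := DFunLike.congr_fun h12 y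
    exact φ.injective h1
  have hcard : Fintype.card (L' →ₐ[k] E) ≤ Fintype.card G' := by
    calc Fintype.card (L' →ₐ[k] E) ≤ Module.finrank E (L' →ₗ[k] E) :=
          (linearIndependent_toLinearMap k L' E).fintype_card_le_finrank
      _ = Module.finrank k L' := Module.finrank_linearMap_self k E L'
      _ = Fintype.card G' := FixedPoints.finrank_eq_card G' L'
  have hbij : Function.Bijective T :=
    (Fintype.bijective_iff_injective_and_card T).mpr
      ⟨hT, le_antisymm (Fintype.card_le_of_injective T hT) hcard⟩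
  obtain ⟨g, hg⟩ := hbij.2 Ψ
  exact ⟨g, fun y => (DFunLike.congr_fun hg y).symm⟩


/-! ## The restriction from `Gal(ℚ̄/F)` to an abstract Galois pair over `F` -/

section Concrete

open Fermat.Agent.CFT.Fin

attribute [local instance] Fermat.Agent.CFT.Fin.normal_Qb
attribute [local instance] Fermat.Agent.Lib.InertiaGlue.isGalois_rat_Qb

variable {F : IntermediateField ℚ Qb} {L' G' : Type} [Field L'] [CharZero L'] [Group G']
  [Finite G'] [MulSemiringAction G' L'] [FaithfulSMul G' L']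
  (f : F →+* L') (hfix : ∀ y : L', (∀ g : G', g • y = y) ↔ y ∈ f.range)
  (e₁ : L' →+* Qb) (he₁ : ∀ x : F, e₁ (f x) = (x : Qb))

omit [CharZero L'] in
include hfix he₁ in
/-- Every element of `Gal(ℚ̄/F)` induces an element of `G'`. -/
theorem exists_res (σ : GQ) (hσ : σ ∈ F.fixingSubgroup) :
    ∃ g : G', ∀ y : L', σ (e₁ y) = e₁ (g • y) := by
  refine exists_smul_of_agree e₁ ((σ : Qb →+* Qb).comp e₁) ?_
  intro y hy
  obtain ⟨x, rfl⟩ := (hfix y).mp hy
  show σ (e₁ (f x)) = e₁ (f x)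
  rw [he₁]
  exact (IntermediateField.mem_fixingSubgroup_iff F σ).mp hσ x x.2

omit [CharZero L'] [Finite G'] in
/-- An element of `G'` is determined by its action through `e₁`. -/
theorem res_unique {g g' : G'} (h : ∀ y : L', e₁ (g • y) = e₁ (g' • y)) : g = g' :=
  eq_of_smul_eq_smul (fun y => e₁.injective (h y))

omit [Finite G'] [FaithfulSMul G' L'] in
include hfix he₁ in
/-- Every element of `G'` is induced by an element of `Gal(ℚ̄/F)`. -/
theorem exists_lift (g : G') :
    ∃ σ : GQ, σ ∈ F.fixingSubgroup ∧ ∀ y : L', σ (e₁ y) = e₁ (g • y) := by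
  let ψ₀ : L' →ₐ[ℚ] Qb := e₁.toRatAlgHom
  let E : L' ≃ₐ[ℚ] ψ₀.fieldRange := AlgEquiv.ofInjectiveField ψ₀
  let γ : L' ≃ₐ[ℚ] L' := (MulSemiringAction.toRingEquiv G' L' g).toRatAlgEquiv
  let χ : ψ₀.fieldRange ≃ₐ[ℚ] ψ₀.fieldRange := E.symm.trans (γ.trans E)
  let σ : GQ := χ.liftNormal Qb
  have hE : ∀ y : L', ((E y : ψ₀.fieldRange) : Qb) = e₁ y := fun y => rfl
  have key : ∀ y : L', σ (e₁ y) = e₁ (g • y) := by
    intro y
    have h1 := AlgEquiv.liftNormal_commutes χ Qb (E y)
    have h2 : χ (E y) = E (g • y) := by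
      show E (γ (E.symm (E y))) = E (g • y)
      rw [AlgEquiv.symm_apply_apply]
      rfl
    rw [h2] at h1
    exact h1
  refine ⟨σ, ?_, key⟩
  rw [IntermediateField.mem_fixingSubgroup_iff]
  intro x hx
  have h3 := key (f ⟨x, hx⟩)
  rw [(hfix (f ⟨x, hx⟩)).mpr ⟨_, rfl⟩ g, he₁] at h3
  exact h3

/-! ### The finite level -/

variable {Q : Type} [Group Q] {L₂ : Type} [Field L₂] [MulSemiringAction Q L₂]
  (π : GQ →* Q) (e₂ : L₂ →+* Qb) (hequiv : ∀ (g : GQ) (x : L₂), e₂ (π g • x) = g (e₂ x))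
  (f₂ : L' →+* L₂) (hf₂ : ∀ y : L', e₂ (f₂ y) = e₁ y)

include hfix he₁ hequiv hf₂ in
theorem exists_resU (u : ↥(F.fixingSubgroup.map π)) :
    ∃ g : G', ∀ y : L', f₂ (g • y) = u • f₂ y := by
  obtain ⟨σ, hσ, hu⟩ := Subgroup.mem_map.mp u.2
  obtain ⟨g, hg⟩ := exists_res f hfix e₁ he₁ σ hσ
  refine ⟨g, fun y => e₂.injective ?_⟩
  have h1 : u • f₂ y = π σ • f₂ y := by
    rw [hu]
    rfl
  rw [h1, hequiv, hf₂, hf₂, hg]

/-- The restriction `Gal(K/F) → G'`. -/
def resU : ↥(F.fixingSubgroup.map π) →* G' where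
  toFun u := (exists_resU f hfix e₁ he₁ π e₂ hequiv f₂ hf₂ u).choose
  map_one' := by
    apply res_unique e₁
    intro y
    rw [← hf₂, ← hf₂, (exists_resU f hfix e₁ he₁ π e₂ hequiv f₂ hf₂ 1).choose_spec y, one_smul,
      one_smul]
  map_mul' u v := by
    apply res_unique e₁
    intro y
    rw [← hf₂, ← hf₂, (exists_resU f hfix e₁ he₁ π e₂ hequiv f₂ hf₂ (u * v)).choose_spec y,
      mul_smul, mul_smul, (exists_resU f hfix e₁ he₁ π e₂ hequiv f₂ hf₂ u).choose_spec,
      (exists_resU f hfix e₁ he₁ π e₂ hequiv f₂ hf₂ v).choose_spec]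

theorem resU_spec (u : ↥(F.fixingSubgroup.map π)) (y : L') :
    f₂ (resU f hfix e₁ he₁ π e₂ hequiv f₂ hf₂ u • y) = u • f₂ y :=
  (exists_resU f hfix e₁ he₁ π e₂ hequiv f₂ hf₂ u).choose_spec y

/-- The tower `(G', L') ← (Gal(K/F), L₂)`. -/
theorem isTower_resU : IsTower f₂ (resU f hfix e₁ he₁ π e₂ hequiv f₂ hf₂) where
  surj := by
    intro g
    obtain ⟨σ, hσ, hg⟩ := exists_lift f hfix e₁ he₁ g
    refine ⟨⟨π σ, Subgroup.mem_map_of_mem π hσ⟩, ?_⟩
    apply res_unique e₁
    intro y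
    rw [← hf₂, resU_spec, ← hg, ← hf₂, ← hequiv]
    rfl
  equivariant := fun u y => resU_spec f hfix e₁ he₁ π e₂ hequiv f₂ hf₂ u y
  fixed := by
    intro y₂ hy₂
    -- `e₂ y₂` lies in the image of `e₁`
    let ψ₀ : L' →ₐ[ℚ] Qb := e₁.toRatAlgHom
    have hmem : e₂ y₂ ∈ ψ₀.fieldRange := by
      rw [← InfiniteGalois.fixedField_fixingSubgroup ψ₀.fieldRange,
        IntermediateField.mem_fixedField_iff]
      intro τ hτ
      have hτ' : ∀ y : L', τ (e₁ y) = e₁ y := fun y =>
        (IntermediateField.mem_fixingSubgroup_iff _ τ).mp hτ (e₁ y) ⟨y, rfl⟩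
      have hτF : τ ∈ F.fixingSubgroup := by
        rw [IntermediateField.mem_fixingSubgroup_iff]
        intro x hx
        have h0 := hτ' (f ⟨x, hx⟩)
        rw [he₁] at h0
        exact h0
      let u : ↥(F.fixingSubgroup.map π) := ⟨π τ, Subgroup.mem_map_of_mem π hτF⟩
      have hu : resU f hfix e₁ he₁ π e₂ hequiv f₂ hf₂ u = 1 := by
        apply res_unique e₁
        intro y
        rw [← hf₂, resU_spec, one_smul]
        show e₂ (π τ • f₂ y) = e₁ y
        rw [hequiv, hf₂, hτ']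
      have h1 := hy₂ u (MonoidHom.mem_ker.mpr hu)
      have h2 : u • y₂ = π τ • y₂ := rfl
      rw [h2] at h1
      rw [← hequiv, h1]
    obtain ⟨y', hy'⟩ := hmem
    refine ⟨y', e₂.injective ?_⟩
    rw [hf₂]
    exact hy'

end Concrete


/-! ## Invariance of classes coming from a fixed subfield -/

section Fixed

variable {L L' : Type} [Field L] [CharZero L] [Field L'] [CharZero L'] {G' : Type} [Group G']
  [MulSemiringAction G' L'] (f : L →+* L')

theorem smul_semiLocalMap_of_fixed (g : G') (hg : ∀ x : L, g • f x = f x) (q : ℕ)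
    [Fact q.Prime] (z : SemiLocal L q) : g • semiLocalMap q f z = semiLocalMap q f z := by
  induction z using TensorProduct.induction_on with
  | zero => rw [map_zero, smul_zero]
  | tmul a b => rw [semiLocalMap_tmul, smul_tmul_eq, hg]
  | add x y hx hy => rw [map_add, smul_add, hx, hy]

theorem smul_ideleProdMap_of_fixed (g : G') (hg : ∀ x : L, g • f x = f x) (x : IdeleProd L) :
    g • ideleProdMap f x = ideleProdMap f x := by
  funext q
  apply Units.ext
  exact smul_semiLocalMap_of_fixed f g hg (q : ℕ) _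

/-- A class coming from a subfield fixed by `g` is fixed by `g`. -/
theorem rho_classMapS_of_fixed (S : Finset Nat.Primes) (g : G') (hg : ∀ x : L, g • f x = f x)
    (c : ClassGroupSOf L S) :
    (classRepS G' L' S).ρ g (classMapS f S c) = classMapS f S c := by
  obtain ⟨x, hx, rfl⟩ := ClassDescentS.exists_mkCS c
  rw [ClassDescentS.classMapS_mkCS, ClassDescentS.rho_mkCS]
  congr 1
  exact smul_ideleProdMap_of_fixed f g hg x

/-- The action of a subgroup on `C_S` is the restriction of the action of the group. -/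
theorem rho_subgroup {Q L : Type} [Group Q] [Field L] [CharZero L] [MulSemiringAction Q L]
    (S : Finset Nat.Primes) (U : Subgroup Q) (u : U) (c : ClassGroupSOf L S) :
    (classRepS U L S).ρ u c = (classRepS Q L S).ρ (u : Q) c := by
  obtain ⟨x, hx, rfl⟩ := ClassDescentS.exists_mkCS c
  rfl

end Fixed

/-! ## [EX'] on a finite-level model -/

section Main

open Fermat.Agent.CFT.Fin

/-- **[EX'] (model form).**  Let `(G', L', f)` be a Galois pair over the subfield `F` of `ℚ̄`
with `N_{G'} C_S(L') ⊆ p · C_S(F)`, embedded in `ℚ̄` by `e₁`.  For every finite-level model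
`(Q, L₂, π, e₂)` (`e₂ (π g • x) = g (e₂ x)`) with `L₂` unramified outside `S ≠ ∅` and
`e₁(L') ⊆ e₂(L₂)`, the norms from `C_S(L₂)` along `Gal(L₂/F) = π(G_F)` are divisible by `p`. -/
theorem normDiv_of_pair (hG2 : Plan.ClassDescentS) {p : ℕ} (S : Finset Nat.Primes)
    (hS : S.Nonempty) {F : IntermediateField ℚ Qb} [NumberField F]
    {L' G' : Type} [Field L'] [NumberField L'] [Group G'] [Fintype G']
    [MulSemiringAction G' L'] [FaithfulSMul G' L'] (f : F →+* L')
    (hfix : ∀ y : L', (∀ g : G', g • y = y) ↔ y ∈ f.range)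
    (hEX : ∀ z : ClassGroupSOf L' S, ∃ y : ClassGroupSOf F S,
      (classRepS G' L' S).ρ.norm z = classMapS f S (p • y))
    (e₁ : L' →+* Qb) (he₁ : ∀ x : F, e₁ (f x) = (x : Qb))
    {Q : Type} [Group Q] [Finite Q] {L₂ : Type} [Field L₂] [NumberField L₂]
    [MulSemiringAction Q L₂] [FaithfulSMul Q L₂] (π : GQ →* Q) (e₂ : L₂ →+* Qb)
    (hequiv : ∀ (g : GQ) (x : L₂), e₂ (π g • x) = g (e₂ x)) (hur : UnramOutside S L₂)
    (he₁₂ : ∀ y : L', ∃ x : L₂, e₂ x = e₁ y) :
    NormDiv p (classRepS Q L₂ S) (F.fixingSubgroup.map π) := by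
  classical
  -- the inclusion `L' → L₂`
  let f₂ : L' →+* L₂ :=
    { toFun := fun y => (he₁₂ y).choose
      map_one' := e₂.injective (by rw [(he₁₂ 1).choose_spec, map_one, map_one])
      map_mul' := fun a b => e₂.injective (by
        rw [(he₁₂ (a * b)).choose_spec, map_mul, map_mul, (he₁₂ a).choose_spec,
          (he₁₂ b).choose_spec])
      map_zero' := e₂.injective (by rw [(he₁₂ 0).choose_spec, map_zero, map_zero])
      map_add' := fun a b => e₂.injective (by
        rw [(he₁₂ (a + b)).choose_spec, map_add, map_add, (he₁₂ a).choose_spec,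
          (he₁₂ b).choose_spec]) }
  have hf₂ : ∀ y : L', e₂ (f₂ y) = e₁ y := fun y => (he₁₂ y).choose_spec
  set U : Subgroup Q := F.fixingSubgroup.map π with hU
  let _ : Fintype U := Fintype.ofFinite U
  have hfaith : FaithfulSMul U L₂ :=
    ⟨fun {u v} h => Subtype.ext (eq_of_smul_eq_smul (α := L₂) h)⟩
  let r : U →* G' := resU f hfix e₁ he₁ π e₂ hequiv f₂ hf₂
  have htower : IsTower f₂ r := isTower_resU f hfix e₁ he₁ π e₂ hequiv f₂ hf₂
  intro c
  obtain ⟨y, hy⟩ := norm_eq_of_tower hG2 f f₂ r htower S hS hur hEX c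
  refine ⟨classMapS f₂ S (classMapS f S y), fun u hu => ?_, ?_⟩
  · -- invariance
    obtain ⟨-, -, hequivC⟩ := hG2 L' L₂ G' U f₂ r htower S hS hur
    have h1 := hequivC ⟨u, hu⟩ (classMapS f S y)
    rw [rho_subgroup] at h1
    rw [← h1]
    congr 1
    exact rho_classMapS_of_fixed f S _ (fun x => (hfix (f x)).mpr ⟨x, rfl⟩ _) y
  · have h3 : ∑ u : U, (classRepS Q L₂ S).ρ (u : Q) c = ∑ u : U, (classRepS U L₂ S).ρ u c :=
      Finset.sum_congr rfl (fun u _ => (rho_subgroup S U u c).symm)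
    rw [finsum_eq_sum_of_fintype]
    exact h3.trans hy

/-- **[EX'] (cofinal form, arbitrary models).**  From the existence theorem mod `p` and Galois
descent for `C_S`: for an `S`-level `F ∋ ζ_p` (`p ∈ S` odd) there is an `S`-level `K₀ ⊇ F` such
that on every finite-level model `(Q, L₂, π, e₂)` whose field contains `K₀` and is unramified
outside `S`, the norms `N_{π(G_F)} C_S(L₂)` are divisible by `p`. -/
theorem exists_level_normDiv (hEX : ExistPlan.ExistenceModP) (hG2 : Plan.ClassDescentS)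
    {p : ℕ} [Fact p.Prime] (hp2 : p ≠ 2) (S : Finset Nat.Primes)
    (hpS : ∃ q ∈ S, (q : ℕ) = p) (F : IntermediateField ℚ Qb) (hF : F.IsUnramifiedOutside S)
    (hζ : ∃ ζ : F, IsPrimitiveRoot ζ p) :
    ∃ K₀ : IntermediateField ℚ Qb, K₀.IsUnramifiedOutside S ∧ F ≤ K₀ ∧
      ∀ {Q : Type} [Group Q] [Finite Q] {L₂ : Type} [Field L₂] [NumberField L₂]
        [MulSemiringAction Q L₂] [FaithfulSMul Q L₂] (π : GQ →* Q) (e₂ : L₂ →+* Qb),
        (∀ (g : GQ) (x : L₂), e₂ (π g • x) = g (e₂ x)) → UnramOutside S L₂ →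
        (∀ y ∈ K₀, ∃ x : L₂, e₂ x = y) →
        NormDiv p (classRepS Q L₂ S) (F.fixingSubgroup.map π) := by
  have hFfin : FiniteDimensional ℚ F := hF.1
  have hFnf : NumberField F := ⟨⟩
  have hS : S.Nonempty := by
    obtain ⟨q, hqS, -⟩ := hpS
    exact ⟨q, hqS⟩
  obtain ⟨L', _, _, G', _, _, _, f, hfaith, hfix, hur', hnorm⟩ :=
    hEX p hp2 F S hpS hζ (unramOutside_of_isUnramifiedOutside hF)
  obtain ⟨K₀, e, hFK₀, hK₀, he⟩ := exists_level_of_unramOutside F L' f hur'
  refine ⟨K₀, hK₀, hFK₀, ?_⟩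
  intro Q _ _ L₂ _ _ _ _ π e₂ hequiv hur he₂
  let e₁ : L' →+* Qb := (algebraMap K₀ Qb).comp (e : L' →+* K₀)
  have he₁ : ∀ x : F, e₁ (f x) = (x : Qb) := he
  have he₁₂ : ∀ y : L', ∃ x : L₂, e₂ x = e₁ y := fun y => he₂ _ (e y).2
  exact normDiv_of_pair hG2 S hS f hfix hnorm e₁ he₁ π e₂ hequiv hur he₁₂

/-- **[EX'] (cofinal form, canonical models).**  From the existence theorem mod `p` and Galois
descent for `C_S`: for an `S`-level `F ∋ ζ_p` (`p ∈ S` odd) there is a normal `S`-level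
`K₀ ⊇ F` such that for every normal `S`-level `K ⊇ K₀` the norms from `C_S(K)` to `F` are
divisible by `p`: `NormDiv p C_S(K) Gal(K/F)`, on the canonical model
`(Gal(K/ℚ), ↥K, restriction)`. -/
theorem exists_nLevel_normDiv (hEX : ExistPlan.ExistenceModP) (hG2 : Plan.ClassDescentS)
    {p : ℕ} [Fact p.Prime] (hp2 : p ≠ 2) (S : Finset Nat.Primes)
    (hpS : ∃ q ∈ S, (q : ℕ) = p) (F : IntermediateField ℚ Qb) (hF : F.IsUnramifiedOutside S)
    (hζ : ∃ ζ : F, IsPrimitiveRoot ζ p) :
    ∃ K₀ : IntermediateField ℚ Qb, Top.IsNLevel S K₀ ∧ F ≤ K₀ ∧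
      ∀ K : IntermediateField ℚ Qb, Top.IsNLevel S K → K₀ ≤ K → ∀ [Normal ℚ K],
        NormDiv p (classRepS (K ≃ₐ[ℚ] K) K S) (F.fixingSubgroup.map (Model.resHom K)) := by
  obtain ⟨K₀', hK₀', hFK₀', H⟩ := exists_level_normDiv hEX hG2 hp2 S hpS F hF hζ
  have hfin : FiniteDimensional ℚ K₀' := hK₀'.1
  obtain ⟨K₀, -, hle, -, hnorm, -, hur⟩ := Level.exists_galois_level K₀'
  refine ⟨K₀, ⟨hur S hK₀', hnorm⟩, hFK₀'.trans hle, ?_⟩
  intro K hK hK₀K _
  have hKfin : FiniteDimensional ℚ K := hK.1.1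
  have hKnf : NumberField K := ⟨⟩
  exact H (Q := K ≃ₐ[ℚ] K) (L₂ := K) (Model.resHom K) (Model.emb K)
    (Model.emb_resHom_smul K) (unramOutside_of_isUnramifiedOutside hK.1)
    (fun y hy => ⟨⟨y, hK₀K (hle hy)⟩, rfl⟩)

end Main


end Fermat.Agent.CFT.Glob.TopBridge.ExTop
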