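import Fermat.Agent.CFT.Glob.TopBridge.Setup
import Fermat.Agent.CFT.Glob.TopBridge.ExTop
import Fermat.Agent.CFT.Fin.KummerLevel

/-!
# P3 / CFT, [TOPBRIDGE]: the leaf **[TAU]**

`tauInj : TauInj S K` — for `S ≠ ∅` and ANY intermediate field `K` of `ℚ̄/ℚ`, the map
`C_S(K) → C_S(ℚ̄)` induced by the inclusion is injective.

Proof (Galois descent, as in `Global.ClassDescentS.mem_sup_of_map`, for the infinite extension
`ℚ̄/K`): if the image of an idele `x` of `K` is `u · w` with `u ∈ ℚ̄ˣ` and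
`w ∈ ∏_{q ∉ S} U_q(ℚ̄)`, then by uniqueness of this decomposition (`S ≠ ∅`) both `u` and `w`
are fixed by `Gal(ℚ̄/K)`; hence `u ∈ K` and `w` comes from an idele of `K`
(`(ℚ̄ ⊗ ℚ_q)^{G_K} = K ⊗ ℚ_q`, helper41's `exists_units_semiLocalMap_eq`).
-/

set_option autoImplicit false

noncomputable section

namespace Fermat.Agent.CFT.Glob.TopBridge.Tau

open Fermat.Agent.CFT Fermat.Agent.CFT.Top Fermat.Agent.CFT.Glob.TopBridge

/-- A unit of `ℚ̄ ⊗ ℚ_q` fixed by `Gal(ℚ̄/K)` (for the Global action) comes from `K ⊗ ℚ_q`. -/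
theorem exists_units_semiLocalMap_emb_eq (K : IntermediateField ℚ Qb) (q : Nat.Primes)
    (u : (Global.SemiLocal Qb (q : ℕ))ˣ)
    (h : ∀ n ∈ K.fixingSubgroup, Top.tqHom q n (u : Tq q) = (u : Tq q)) :
    ∃ v : (Global.SemiLocal K (q : ℕ))ˣ,
      Units.map (Global.semiLocalMap (q : ℕ) (Model.emb K)).toMonoidHom v = u := by
  obtain ⟨v, hv⟩ := Top.Semilocal.exists_units_semiLocalMap_eq q (Model.emb K) K
    (Model.exists_emb_eq K) u (fun g hg => Units.ext (h g hg))
  exact ⟨v, hv⟩

section Generic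

open scoped Fermat.Agent.CFT.Global

variable {L L' : Type} [Field L] [CharZero L] [Field L'] [CharZero L'] {G' : Type} [Group G']
  [MulSemiringAction G' L']

/-- **Descent of `Lˣ · ∏_{q ∉ S} U_q`** (`S ≠ ∅`) along `f : L →+* L'`, for a subgroup `H` of
a group acting on `L'` with `L'^H = f(L)` and `(L' ⊗ ℚ_q)^H = f(L) ⊗ ℚ_q` (no finiteness). -/
theorem mem_sup_of_map_of_fixed (f : L →+* L') (H : Subgroup G')
    (hH : ∀ n ∈ H, ∀ x : L, n • f x = f x)
    (hfixL : ∀ y : L', (∀ n ∈ H, n • y = y) → y ∈ f.range)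
    (hfixW : ∀ w : Global.IdeleProd L',
      (∀ n ∈ H, ∀ q : Nat.Primes,
        n • ((w q : (Global.SemiLocal L' (q : ℕ))ˣ) : Global.SemiLocal L' (q : ℕ)) = w q) →
      ∃ w₀ : Global.IdeleProd L, Global.ideleProdMap f w₀ = w)
    (S : Finset Nat.Primes) (hS : S.Nonempty) (x : Global.IdeleProd L)
    (hx : Global.ideleProdMap f x ∈ (Global.principal L').range ⊔ Global.unitsOutside L' S) :
    x ∈ (Global.principal L).range ⊔ Global.unitsOutside L S := by
  obtain ⟨_, ⟨u, rfl⟩, w, hw, huw⟩ := Subgroup.mem_sup.mp hx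
  have hfix : ∀ n ∈ H, n • u = u ∧ n • w = w := by
    intro n hn
    have h1 : n • (Global.principal L' u * w) = Global.principal L' u * w := by
      rw [huw]
      exact ExTop.smul_ideleProdMap_of_fixed f n (hH n hn) x
    rw [smul_mul', Global.smul_principal] at h1
    exact Global.ClassDescentS.eq_of_principal_mul_eq hS
      (Global.smul_mem_unitsOutside G' L' S n hw) hw h1
  obtain ⟨a, ha⟩ := hfixL (u : L') (fun n hn => congrArg Units.val (hfix n hn).1)
  have ha0 : a ≠ 0 := by
    rintro rfl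
    rw [map_zero] at ha
    exact u.ne_zero ha.symm
  obtain ⟨w₀, hw₀⟩ := hfixW w
    (fun n hn q => congrArg Units.val (congrFun (hfix n hn).2 q))
  have hw₀' : w₀ ∈ Global.unitsOutside L S :=
    Global.ClassDescentS.mem_unitsOutside_of_map f (by rw [hw₀]; exact hw)
  have hx' : x = Global.principal L (Units.mk0 a ha0) * w₀ := by
    apply Global.ClassDescent.ideleProdMap_injective f
    rw [map_mul, Global.ideleProdMap_principal, hw₀, ← huw]
    congr 2
    exact Units.ext ha.symm
  rw [hx']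
  exact Subgroup.mul_mem_sup ⟨_, rfl⟩ hw₀'

end Generic

section Descent

attribute [-instance] Top.tqAction Top.tqUnitsAction Top.jFullAction Top.jFullSMul

open scoped Fermat.Agent.CFT.Global

/-- **Descent of `Lˣ · ∏_{q ∉ S} U_q` along `K ⊆ ℚ̄`** (`S ≠ ∅`). -/
theorem mem_sup_of_map_emb (S : Finset Nat.Primes) (hS : S.Nonempty)
    (K : IntermediateField ℚ Qb) (x : Global.IdeleProd K)
    (hx : Global.ideleProdMap (Model.emb K) x ∈
      (Global.principal Qb).range ⊔ Global.unitsOutside Qb S) :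
    x ∈ (Global.principal K).range ⊔ Global.unitsOutside K S := by
  refine mem_sup_of_map_of_fixed (G' := GQ) (Model.emb K) K.fixingSubgroup ?_ ?_ ?_ S hS x hx
  · exact fun n hn y => (IntermediateField.mem_fixingSubgroup_iff K n).mp hn (y : Qb) y.2
  · exact fun y hy => ⟨⟨y, Fermat.Agent.CFT.Fin.mem_of_fixed K y (fun s => hy s s.2)⟩, rfl⟩
  · intro w h
    have key : ∀ q : Nat.Primes, ∃ v : (Global.SemiLocal K (q : ℕ))ˣ,
        Units.map (Global.semiLocalMap (q : ℕ) (Model.emb K)).toMonoidHom v = w q :=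
      fun q => exists_units_semiLocalMap_emb_eq K q (w q)
        (fun n hn => (tqHom_eq_smul q n _).trans (h n hn q))
    choose v hv using key
    exact ⟨v, funext hv⟩

end Descent

/-- `C_S(K) → C_S(ℚ̄)` is injective (`S ≠ ∅`, `K` any intermediate field). -/
theorem classMapS_emb_injective (S : Finset Nat.Primes) (hS : S.Nonempty)
    (K : IntermediateField ℚ Qb) : Function.Injective (Global.classMapS (Model.emb K) S) := by
  rw [injective_iff_map_eq_zero]
  intro c hc
  obtain ⟨x, hx, rfl⟩ := exists_mkS c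
  rw [classMapS_mkS, mkS_eq_zero_iff] at hc
  rw [mkS_eq_zero_iff]
  exact mem_sup_of_map_emb S hS K x hc

set_option synthInstance.maxHeartbeats 400000 in
/-- **[TAU]** -/
theorem tauInj (S : Finset Nat.Primes) (hS : S.Nonempty) (K : IntermediateField ℚ Qb) :
    TauInj S K :=
  classMapS_emb_injective S hS K

end Fermat.Agent.CFT.Glob.TopBridge.Tau
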