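import Fermat.Agent.CFT.Glob.TopBridge.Desc
import Fermat.Agent.CFT.Glob.TopBridge.Cap
import Fermat.Agent.CFT.Glob.TopBridge.Tau

/-!
# P3 / CFT, [TOPBRIDGE] / [HDESC]: the contract `HDesc S K`, hypothesis-free

`Desc.hDesc_of` with [TAU] (`Tau.tauInj`) and [HCOMP] (`Cap.hComp`) plugged in:

* `Desc.hDesc` : `HDesc S K` for every normal `S`-level `K` (`S ≠ ∅`), from the degree-one part
  of `Plan.LocUnitsAcyclic` (`Global.ClassDescentS.LocUnitsH1`);
* `Desc.exists_classMapS_eq_thetaPre` : the same statement in the spelling of the roster.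
-/

set_option autoImplicit false

noncomputable section

namespace Fermat.Agent.CFT.Glob.TopBridge

open Fermat.Agent.CFT Fermat.Agent.CFT.Top

namespace Desc

/-- **[HDESC]** Galois descent into the ambient class module: for a normal `S`-level `K`
(`S ≠ ∅`), every `Gal(ℚ̄/K)`-invariant class of `CS S` comes from `C_S(K)`. -/
theorem hDesc (hC3 : Global.ClassDescentS.LocUnitsH1) (S : Finset Nat.Primes) (hS : S.Nonempty)
    (K : IntermediateField ℚ Qb) (hK : IsNLevel S K) : HDesc S K :=
  hDesc_of S (fun K' _ => Tau.tauInj S hS K') (fun _ hK' => Cap.hComp S hK') hC3 hS K hK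

/-- **[HDESC]** in the spelling of the roster. -/
theorem exists_classMapS_eq_thetaPre (hC3 : Global.ClassDescentS.LocUnitsH1)
    (S : Finset Nat.Primes) (hS : S.Nonempty) (K : IntermediateField ℚ Qb) (hK : IsNLevel S K)
    (j : Top.JS S)
    (hfix : ∀ n ∈ K.fixingSubgroup,
      (Top.jsProj S).hom ((Top.JS S).ρ n j) = (Top.jsProj S).hom j) :
    ∃ c' : Global.ClassGroupSOf ↥K S, Global.classMapS (Model.emb K) S c' = thetaPre S j :=
  hDesc hC3 S hS K hK j hfix

end Desc

end Fermat.Agent.CFT.Glob.TopBridge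

end
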