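import Fermat.Agent.CFT.Glob.TopBridge.Ambient
import Fermat.Agent.CFT.Glob.TopBridge.Model
import Fermat.Agent.CFT.Glob.TopBridge.Assemble
import Fermat.Agent.CFT.Top.SemilocalInv
import Fermat.Agent.CFT.Global.ClassDescentS

/-!
# P3 / CFT, [TOPBRIDGE]: the field models of a normal `S`-level, with short names

For a normal `S`-level `K` (`hK : Top.IsNLevel S K`):

* `resK hK : GQ →* Model.Gal K` : the restriction (`Model.resHom K` with the `Normal` instance
  supplied by `hK`);
* `JM S K = Global.sIdeleRep (Gal K) ↥K S`, `CM S K = Global.classRepS (Gal K) ↥K S`;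
* `iotaJ S hK : JM S K →+ JS S` (helper41's `jsModel`), `isFiniteLevel_iotaJ`;
* `clM S K : JM S K →+ CM S K` (the class of an `S`-idele), `clM_rho`;
* `tauK S K : CM S K →+ C_S(ℚ̄)` (`Global.classMapS (Model.emb K) S`), `tauK_rho`;
* `jlocA S hK hi hs q : CwK S (resK hK) q →+ JM S K` : the idele of `K` with a given component
  at the place of `K` fixed by the Prelude and trivial components elsewhere;
* the contracts `TauInj`, `HComp`, `HDesc`, `HCap`, `LGInjTop` (the leaves of the bridge, as
  `Prop`s in these names).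
-/

set_option autoImplicit false

open CategoryTheory groupCohomology

noncomputable section

namespace Fermat.Agent.CFT.Glob.TopBridge

open Fermat.Agent.CFT Fermat.Agent.CFT.Top Fermat.Agent.CFT.Top.FinModel
  Fermat.Agent.CFT.Top.SpinePlan

variable (S : Finset Nat.Primes) {K : IntermediateField ℚ Qb}

/-- The restriction `GQ →* Gal(K/ℚ)` of a normal `S`-level. -/
def resK (hK : IsNLevel S K) : GQ →* Model.Gal K := @Model.resHom K (Model.normal hK)

variable {S}

theorem resK_surjective (hK : IsNLevel S K) : Function.Surjective (resK S hK) :=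
  @Model.resHom_surjective K (Model.normal hK)

theorem resK_ker (hK : IsNLevel S K) : (resK S hK).ker = K.fixingSubgroup :=
  @Model.resHom_ker K (Model.normal hK)

theorem emb_resK_smul (hK : IsNLevel S K) (g : GQ) (x : K) :
    Model.emb K (resK S hK g • x) = g (Model.emb K x) :=
  @Model.emb_resHom_smul K (Model.normal hK) g x

theorem isTower_resK (hK : IsNLevel S K) : Global.IsTower (Model.emb K) (resK S hK) :=
  @Model.isTowerQb K (Model.normal hK)

variable (S) (K)

set_option synthInstance.maxHeartbeats 400000 in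
/-- The `S`-ideles of `K` as a `Gal(K/ℚ)`-module. -/
abbrev JM : Rep.{0} ℤ (Model.Gal K) := Global.sIdeleRep (Model.Gal K) ↥K S

set_option synthInstance.maxHeartbeats 400000 in
/-- The `S`-idele class group of `K` as a `Gal(K/ℚ)`-module. -/
abbrev CM : Rep.{0} ℤ (Model.Gal K) := Global.classRepS (Model.Gal K) ↥K S

set_option synthInstance.maxHeartbeats 400000 in
/-- The class of an `S`-idele. -/
def clM : JM S K →+ CM S K where
  toFun x := (Global.sIdeleToClassS (Model.Gal K) ↥K S).hom x
  map_zero' := map_zero _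
  map_add' := map_add _

set_option synthInstance.maxHeartbeats 400000 in
theorem clM_apply (x : JM S K) :
    clM S K x = (Global.sIdeleToClassS (Model.Gal K) ↥K S).hom x := rfl

set_option synthInstance.maxHeartbeats 400000 in
theorem clM_rho (g : Model.Gal K) (x : JM S K) :
    clM S K ((JM S K).ρ g x) = (CM S K).ρ g (clM S K x) :=
  Rep.hom_comm_apply (Global.sIdeleToClassS (Model.Gal K) ↥K S) g x

set_option synthInstance.maxHeartbeats 400000 in
/-- `C_S(K) → C_S(ℚ̄)`. -/
def tauK : CM S K →+ Global.ClassGroupSOf Qb S :=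
  (Global.classMapS (Model.emb K) S).toAddMonoidHom

set_option synthInstance.maxHeartbeats 400000 in
theorem tauK_apply (c : CM S K) : tauK S K c = Global.classMapS (Model.emb K) S c := rfl

variable {K}

set_option synthInstance.maxHeartbeats 400000 in
theorem tauK_rho (hK : IsNLevel S K) (g : GQ) (c : CM S K) :
    tauK S K ((CM S K).ρ (resK S hK g) c) = (Global.classRepS GQ Qb S).ρ g (tauK S K c) :=
  Global.ClassDescentS.classMapS_rho (isTower_resK hK) g c

set_option synthInstance.maxHeartbeats 400000 in
/-- `J_S(K) → JS S` (helper41's `jsModel` at the canonical field model). -/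
def iotaJ (hK : IsNLevel S K) : JM S K →+ JS S :=
  Top.Semilocal.jsModel S (Model.emb K) (Model.Gal K) K hK (Model.emb_mem K)

set_option synthInstance.maxHeartbeats 400000 in
theorem isFiniteLevel_iotaJ (hK : IsNLevel S K) :
    Level.IsFiniteLevel (nLevels S) (JS S) K (resK S hK) (JM S K) (iotaJ S hK) :=
  Top.Semilocal.isFiniteLevel_jsModel S (Model.emb K) (Model.Gal K) K hK (Model.emb_mem K)
    (resK S hK) (resK_surjective hK) (resK_ker hK) (Model.exists_emb_eq K) (emb_resK_smul hK)

set_option synthInstance.maxHeartbeats 400000 in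
/-- The idele of `K` with component `c` at the place of `K` above `q` fixed by the Prelude and
trivial components elsewhere. -/
def jlocA (hK : IsNLevel S K) (hi : JSInj S) (hs : JSSurj S) (q : ↥S) :
    CwK S (resK S hK) q →+ JM S K :=
  jlocMS S (resK S hK) hi hs (JM S K) (iotaJ S hK) (isFiniteLevel_iotaJ S hK) q

/-! ## The contracts of the leaves -/

variable (K)

/-- **[TAU]** `C_S(K) → C_S(ℚ̄)` is injective. -/
def TauInj : Prop := Function.Injective (tauK S K)

variable {K}

set_option synthInstance.maxHeartbeats 400000 in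
/-- **[HCOMP]** compatibility of `tauK ∘ clM` with `thetaPre ∘ iotaJ`. -/
def HComp (hK : IsNLevel S K) : Prop :=
  ∀ x : JM S K, tauK S K (clM S K x) = thetaPre S (iotaJ S hK x)

variable (K)

set_option synthInstance.maxHeartbeats 400000 in
/-- **[HDESC]** Galois descent: a `G_K`-invariant class of `CS S` comes from `C_S(K)`. -/
def HDesc : Prop :=
  ∀ j : JS S, (∀ n ∈ K.fixingSubgroup,
      (jsProj S).hom ((JS S).ρ n j) = (jsProj S).hom j) →
    ∃ c' : CM S K, tauK S K c' = thetaPre S j

set_option synthInstance.maxHeartbeats 400000 in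
/-- **[HCAP]** capitulation up to an integer prime to `p`. -/
def HCap (p : ℕ) : Prop :=
  ∃ m : ℤ, IsCoprime m (p : ℤ) ∧ ∀ c' : CM S K, ∃ j : JS S, thetaPre S j = tauK S K (m • c')

variable {K}

set_option synthInstance.maxHeartbeats 400000 in
/-- **[LGI-Top]** `H²`-injectivity of `clM ∘ jlocA q : K_wˣ → C_S(K)` on the `p`-subgroups of the
decomposition group, in cocycle form. -/
def LGInjTop (p : ℕ) (hK : IsNLevel S K) (hi : JSInj S) (hs : JSSurj S) : Prop :=
  ∀ (q : ↥S) (H : Subgroup ↥(GwK S (resK S hK) q)), IsPGroup p H →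
    ∀ t : H × H → CwK S (resK S hK) q,
      (∀ g h k : H, t (g * h, k) + t (g, h) =
        (CwK S (resK S hK) q).ρ (g : ↥(GwK S (resK S hK) q)) (t (h, k)) + t (g, h * k)) →
      (∃ b : H → CM S K, ∀ g h : H, clM S K (jlocA S hK hi hs q (t (g, h))) =
        (CM S K).ρ ((g : ↥(GwK S (resK S hK) q)) : Model.Gal K) (b h) - b (g * h) + b g) →
      ∃ a : H → CwK S (resK S hK) q, ∀ g h : H,
        t (g, h) = (CwK S (resK S hK) q).ρ (g : ↥(GwK S (resK S hK) q)) (a h) - a (g * h) + a g

end Fermat.Agent.CFT.Glob.TopBridge
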