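import Fermat.Agent.CFT.Glob.TopBridge.ExTop
import Fermat.Agent.CFT.Glob.TopBridge.Setup
import Fermat.Agent.CFT.Fin.KummerLevel
import Fermat.Agent.CFT.Local.Hilbert90Fun

/-!
# P3 / CFT, [TOPBRIDGE]: the leaf **[EX']** in the shape consumed by `arithDual_of_leaves`

* `exists_primitiveRoot_of_le_ker` : the `ζ_p` bridge.  If `Gal(ℚ̄/F)` lies in the kernel of the
  mod `p` cyclotomic character then `F` contains a primitive `p`-th root of unity.
* `hEX` : for a normal `S`-level `F ⊇ μ_p` (`p ∈ S` odd), every normal `S`-level `K₁ ⊇ F` lies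
  in a normal `S`-level `K` with `NormDiv p (CM S K) Gal(K/F)` — from the existence theorem
  mod `p` (`Global.ExistPlan.ExistenceModP`) and Galois descent (`Global.Plan.ClassDescentS`),
  by `ExTop.exists_nLevel_normDiv`.
-/

set_option autoImplicit false

namespace Fermat.Agent.CFT.Glob.TopBridge.ExLeaf

open Fermat.Agent.CFT Fermat.Agent.CFT.Top Fermat.Agent.CFT.Glob.TopBridge

/-- **The `ζ_p` bridge.**  If `Gal(ℚ̄/F)` is contained in the kernel of the mod `p` cyclotomic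
character, then `F` contains a primitive `p`-th root of unity. -/
theorem exists_primitiveRoot_of_le_ker (p : ℕ) [hp : Fact p.Prime]
    (F : IntermediateField ℚ Qb) (hζ : F.fixingSubgroup ≤ (ExtCitation.cycloChar p).ker) :
    ∃ ζ : F, IsPrimitiveRoot ζ p := by
  have hp0 : p ≠ 0 := hp.out.ne_zero
  have : NeZero ((p : ℕ) : ℚ) := ⟨Nat.cast_ne_zero.mpr hp0⟩
  obtain ⟨ζ₀, hζ₀⟩ := HasEnoughRootsOfUnity.exists_primitiveRoot Qb p
  have hmem : ζ₀ ∈ F := by
    apply Fermat.Agent.CFT.Fin.mem_of_fixed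
    intro s
    have h1 : ExtCitation.cycloChar p (s : GQ) = 1 := hζ s.2
    have h2 := Fermat.Agent.CFT.Local.Hilbert90Fun.apply_eq_pow_cycloChar p (s : GQ) ζ₀
      hζ₀.pow_eq_one
    rw [h1] at h2
    have h3 : ((1 : (ZMod p)ˣ) : ZMod p).val = 1 := by
      rw [Units.val_one]
      have : Fact (1 < p) := ⟨hp.out.one_lt⟩
      exact ZMod.val_one p
    rw [h3, pow_one] at h2
    exact h2
  refine ⟨⟨ζ₀, hmem⟩, ?_⟩
  exact IsPrimitiveRoot.of_map_of_injective (f := algebraMap F Qb) hζ₀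
    (algebraMap F Qb).injective

set_option synthInstance.maxHeartbeats 400000 in
/-- **[EX'] as consumed by `arithDual_of_leaves`.** -/
theorem hEX (hEX : Global.ExistPlan.ExistenceModP) (hG2 : Global.Plan.ClassDescentS)
    {p : ℕ} [Fact p.Prime] (hp2 : p ≠ 2) (S : Finset Nat.Primes)
    (hpS : ExtCitation.pPrime p ∈ S) (F : IntermediateField ℚ Qb) (hF : IsNLevel S F)
    (hζ : F.fixingSubgroup ≤ (ExtCitation.cycloChar p).ker) :
    ∀ K₁ : IntermediateField ℚ Qb, IsNLevel S K₁ → F ≤ K₁ →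
      ∃ (K : IntermediateField ℚ Qb) (hK : IsNLevel S K), K₁ ≤ K ∧
        NormDiv p (CM S K) (F.fixingSubgroup.map (resK S hK)) := by
  obtain ⟨K₀, hK₀, -, H⟩ := ExTop.exists_nLevel_normDiv hEX hG2 hp2 S
    ⟨ExtCitation.pPrime p, hpS, rfl⟩ F hF.1 (exists_primitiveRoot_of_le_ker p F hζ)
  intro K₁ hK₁ _
  have hK : IsNLevel S (K₀ ⊔ K₁) := IsNLevel.sup hK₀ hK₁
  exact ⟨K₀ ⊔ K₁, hK, le_sup_right, @H (K₀ ⊔ K₁) hK le_sup_left (Model.normal hK)⟩

end Fermat.Agent.CFT.Glob.TopBridge.ExLeaf
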