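import Fermat.Agent.CFT.Glob.TopBridge.Closed
import Fermat.Agent.CFT.Glob.TopBridge.Tau
import Fermat.Agent.CFT.Global.Provide
import Fermat.Agent.CFT.Top.Final

/-!
# P3 / CFT, [TOPBRIDGE] closed: `Top.Plan.ArithDual` and S55 from the open Global leaves

* `arithDual_of_three` : `Top.Plan.ArithDual S p F` from `ExistenceModP`, `ClassFormationP`,
  `LocalGlobalInj` (no bridge hypothesis left: [TAU] is `Tau.tauInj`);
* `arithDual_of_two`   : the same from the two open arithmetic leaves of the Global layer,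
  `Global.Plan.CycloCrossing` and `Global.LGChase.AuxLayer` (through `Global.Provide`);
* `s55_of_three`, `s55_of_two` : the S55 statement (Poitou–Tate duality for `Ш¹`/`Ш²`) from the
  same hypotheses (through `Top.s55_of_arithDual`).
-/

set_option autoImplicit false

open CategoryTheory Module groupCohomology ExtCitation

namespace Fermat.Agent.CFT.Glob.TopBridge

open Fermat.Agent.CFT Fermat.Agent.CFT.Top

/-- **[TOPBRIDGE]** from the three Global props. -/
theorem arithDual_of_three {p : ℕ} [Fact p.Prime] (hp2 : p ≠ 2) (S : Finset Nat.Primes)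
    (hpS : pPrime p ∈ S) (F : IntermediateField ℚ Qb) (hF : IsNLevel S F)
    (hμ : F.fixingSubgroup ≤ (cycloChar p).ker)
    (hEX : Global.ExistPlan.ExistenceModP) (hF1 : Global.Plan.ClassFormationP)
    (hF2 : Global.Plan.LocalGlobalInj) : Top.Plan.ArithDual S p F :=
  arithDual_of_global hp2 S hpS F hF hμ hEX hF1 hF2 (fun K _ => Tau.tauInj S ⟨_, hpS⟩ K)

/-- **[TOPBRIDGE]** from the two open arithmetic leaves of the Global layer. -/
theorem arithDual_of_two {p : ℕ} [Fact p.Prime] (hp2 : p ≠ 2) (S : Finset Nat.Primes)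
    (hpS : pPrime p ∈ S) (F : IntermediateField ℚ Qb) (hF : IsNLevel S F)
    (hμ : F.fixingSubgroup ≤ (cycloChar p).ker)
    (_hF0 : Global.Plan.CycloCrossing) (_hAux : Global.LGChase.AuxLayer) :
    Top.Plan.ArithDual S p F :=
  arithDual_of_three hp2 S hpS F hF hμ Global.Provide.existenceModP
    Global.Provide.classFormationP Global.Provide.localGlobalInj

/-- **S55** from the three Global props. -/
theorem s55_of_three {p : ℕ} [Fact p.Prime] (hp2 : p ≠ 2)
    (S : Finset Nat.Primes) (hpS : pPrime p ∈ S) (M : Rep.{0} (ZMod p) GQ)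
    [FiniteDimensional (ZMod p) M]
    (hsm : ∀ m : M, ∃ F : IntermediateField ℚ Qb, FiniteDimensional ℚ F ∧
      ∀ s ∈ F.fixingSubgroup, M.ρ s m = m)
    (hMur : ∀ q : Nat.Primes, q ∉ S → ∀ A : ValuationSubring Qb,
      A.LiesOverPrime (q : ℕ) → ∀ g ∈ A.inertiaSubgroupIn ℚ, M.ρ g = 1)
    (hEX : Global.ExistPlan.ExistenceModP) (hF1 : Global.Plan.ClassFormationP)
    (hF2 : Global.Plan.LocalGlobalInj) :
    ∃ B : sha₁ S (M.dualTwist (cycloChar p)) →ₗ[ZMod p] sha₂ S M →ₗ[ZMod p] ZMod p,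
      (∀ y, (∀ x, B y x = 0) → y = 0) ∧ (∀ x, (∀ y, B y x = 0) → x = 0) :=
  s55_of_arithDual hp2 S hpS M hsm hMur
    (fun F hF => arithDual_of_three hp2 S hpS F hF.1 hF.2.2 hEX hF1 hF2)

/-- **S55** from the two open arithmetic leaves of the Global layer. -/
theorem s55_of_two {p : ℕ} [Fact p.Prime] (hp2 : p ≠ 2)
    (S : Finset Nat.Primes) (hpS : pPrime p ∈ S) (M : Rep.{0} (ZMod p) GQ)
    [FiniteDimensional (ZMod p) M]
    (hsm : ∀ m : M, ∃ F : IntermediateField ℚ Qb, FiniteDimensional ℚ F ∧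
      ∀ s ∈ F.fixingSubgroup, M.ρ s m = m)
    (hMur : ∀ q : Nat.Primes, q ∉ S → ∀ A : ValuationSubring Qb,
      A.LiesOverPrime (q : ℕ) → ∀ g ∈ A.inertiaSubgroupIn ℚ, M.ρ g = 1)
    (hF0 : Global.Plan.CycloCrossing) (hAux : Global.LGChase.AuxLayer) :
    ∃ B : sha₁ S (M.dualTwist (cycloChar p)) →ₗ[ZMod p] sha₂ S M →ₗ[ZMod p] ZMod p,
      (∀ y, (∀ x, B y x = 0) → y = 0) ∧ (∀ x, (∀ y, B y x = 0) → x = 0) :=
  s55_of_arithDual hp2 S hpS M hsm hMur
    (fun F hF => arithDual_of_two hp2 S hpS F hF.1 hF.2.2 hF0 hAux)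

end Fermat.Agent.CFT.Glob.TopBridge
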