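import Fermat.Agent.CFT.Coh.H2Dict
import Fermat.Agent.CFT.Top.FinModel
import Fermat.Agent.CFT.Top.LocUnit
import Fermat.Agent.CFT.Global.Plan

/-!
# P3 / [TOPBRIDGE]: [LGI-Top], local–global injectivity on the models of the Top layer

For a field model `(Q, L, π, e)` of a normal `S`-level `K` (`π : GQ →* Q` onto with kernel
`Gal(ℚ̄/K)`, `e : L →+* ℚ̄` with image `K`, compatible actions), `J' = Global.sIdeleRep Q L S`
with `ιJ = Semilocal.jsModel` ([JM]), and `q ∈ S`:

* `orbitToClassS_injective` : `Global.Plan.LocalGlobalInj` and `Global.Plan.SClassCompare` give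
  the injectivity of `H²(G, ∏_{w' ∈ G·w} L_{w'}ˣ) → H²(G, C_S(L))` for every Galois pair `(G, L)`,
  `G` a `p`-group, `L` unramified outside `S ≠ ∅` ([LGI], `S`-form);
* `mem_block_iff`, `blockCw`, `blockCw_injective`, `blockCw_surjective`, `blockCw_rho` : for a
  group `G` stabilising `m_q = ker (thetaL q e)` the one-place block
  `Global.orbitRep G L q m_q` is the local module `FinModel.CwK S π q`, through the local
  component at the place fixed by the Prelude;
* `jlocMS_blockCw`, `sIdeleToClassS_oneIdele` : under this identification `FinModel.jlocMS q`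
  followed by `J_S(L) → C_S(L)` is `Global.orbitToClassS`;
* `hinj_of_lgi`, `hinj_of_plan` : **[LGI-Top]**, the hypothesis `hinj` of
  `Glob.LGAbstract.exists_normalised_class` / `exists_local_class_of_injective` (cocycle form of
  "`j` is injective on `H²(H, -)` for the `p`-subgroups `H` of the decomposition group") for
  `(C, D, Cw, j) = (Global.classRepS Q L S, GwK S π q, CwK S π q, (J_S(L) → C_S(L)) ∘ jlocMS q)`.
-/

set_option autoImplicit false

open CategoryTheory groupCohomology ExtCitation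

noncomputable section

namespace Fermat.Agent.CFT.Glob.TopBridge.LGITop

open Fermat.Agent.CFT Fermat.Agent.CFT.Top Fermat.Agent.CFT.Top.Semilocal
  Fermat.Agent.CFT.Top.FinModel Fermat.Agent.CFT.Top.SpinePlan
open scoped Fermat.Agent.CFT.Global

/-! ## [LGI] in the `S`-form, from the Global plan -/

section Wrapper

theorem classMk_comp_classToClassS (G L : Type) [Group G] [Field L] [CharZero L]
    [MulSemiringAction G L] (S : Finset Nat.Primes) :
    Global.classMk G L ≫ Global.classToClassS G L S = Global.classMkS G L S := rfl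

theorem orbitToClassS_eq (G L : Type) [Group G] [Field L] [CharZero L] [MulSemiringAction G L]
    (q : Nat.Primes) (m : Ideal (Global.SemiLocal L q)) (S : Finset Nat.Primes) :
    Global.orbitToClassS G L q m S =
      Global.orbitToClass G L q m ≫ Global.classToClassS G L S := rfl

/-- **[LGI], `S`-form.**  For a `p`-group `G` acting faithfully on a number field `L` unramified
outside `S ≠ ∅` and a maximal ideal `m` of `L ⊗ ℚ_q`, the map
`H²(G, ∏_{w' ∈ G·w} L_{w'}ˣ) → H²(G, C_S(L))` is injective. -/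
theorem orbitToClassS_injective (hF2 : Global.Plan.LocalGlobalInj)
    (hG3 : Global.Plan.SClassCompare) (p : ℕ) [Fact p.Prime] (hp : p ≠ 2)
    (G L : Type) [Group G] [Fintype G] [Field L] [NumberField L] [MulSemiringAction G L]
    [FaithfulSMul G L] (hG : IsPGroup p G) (S : Finset Nat.Primes) (hS : S.Nonempty)
    (hU : Global.UnramOutside S L) (q : Nat.Primes) (m : Ideal (Global.SemiLocal L q))
    (hm : m.IsMaximal) :
    Function.Injective
      ((groupCohomology.functor ℤ G 2).map (Global.orbitToClassS G L q m S)).hom := by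
  rw [orbitToClassS_eq, Functor.map_comp]
  exact ((hG3 G L S hS hU).1 2 (by norm_num)).1.comp (hF2 p hp G L hG q m hm)

end Wrapper

/-! ## The local component of a unit of `L ⊗ ℚ_q` -/

section Block

variable (S : Finset Nat.Primes) {L : Type} [Field L] [NumberField L] (e : L →+* Qb)
  {Q : Type} [Group Q] [MulSemiringAction Q L] (π : GQ →* Q)

/-- The local component (at the place fixed by the Prelude) of a unit of `L ⊗ ℚ_q`, as an
element of the local module `CwK q`. -/
def cwAll (hequiv : ∀ (g : GQ) (x : L), e (π g • x) = g (e x)) (q : ↥S) :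
    Additive (Global.SemiLocal L (q.1 : ℕ))ˣ →+ CwK S π q where
  toFun a := ⟨(Additive.ofMul (Units.map
      (thetaL q.1 e : Global.SemiLocal L (q.1 : ℕ) →* PadicAlgCl (q.1 : ℕ)) (Additive.toMul a)) :
        Additive (PadicAlgCl (q.1 : ℕ))ˣ), by
    intro n hn
    let τ : PadicAlgCl (q.1 : ℕ) ≃ₐ[ℚ_[(q.1 : ℕ)]] PadicAlgCl (q.1 : ℕ) := n
    have h1 : π (localGaloisToGlobal (q.1 : ℕ) τ) = 1 := by
      have := (MonoidHom.mem_ker).1 hn
      exact congrArg Subtype.val this
    refine Additive.toMul.injective (Units.ext ?_)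
    show τ (thetaL q.1 e ((Additive.toMul a : (Global.SemiLocal L (q.1 : ℕ))ˣ) :
      Global.SemiLocal L (q.1 : ℕ))) = thetaL q.1 e _
    rw [← thetaL_smul q.1 e π hequiv, h1, one_smul]⟩
  map_zero' := by
    apply Subtype.ext
    show (Additive.ofMul (Units.map
      (thetaL q.1 e : Global.SemiLocal L (q.1 : ℕ) →* PadicAlgCl (q.1 : ℕ)) 1) :
        Additive (PadicAlgCl (q.1 : ℕ))ˣ) = 0
    rw [map_one]
    rfl
  map_add' a b := by
    apply Subtype.ext
    show (Additive.ofMul (Units.map
      (thetaL q.1 e : Global.SemiLocal L (q.1 : ℕ) →* PadicAlgCl (q.1 : ℕ))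
        (Additive.toMul a * Additive.toMul b)) : Additive (PadicAlgCl (q.1 : ℕ))ˣ) = _
    rw [map_mul]
    rfl

theorem cwAll_coe (hequiv : ∀ (g : GQ) (x : L), e (π g • x) = g (e x)) (q : ↥S)
    (a : Additive (Global.SemiLocal L (q.1 : ℕ))ˣ) :
    ((cwAll S e π hequiv q a : invSub _ (XQ q.1)) : XQ q.1) =
      (Additive.ofMul (Units.map
        (thetaL q.1 e : Global.SemiLocal L (q.1 : ℕ) →* PadicAlgCl (q.1 : ℕ)) (Additive.toMul a)) :
          Additive (PadicAlgCl (q.1 : ℕ))ˣ) := rfl

/-- `cwAll` is equivariant for the decomposition group. -/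
theorem cwAll_smul (hequiv : ∀ (g : GQ) (x : L), e (π g • x) = g (e x)) (q : ↥S)
    (g : ↥(GwK S π q)) (u : (Global.SemiLocal L (q.1 : ℕ))ˣ) :
    cwAll S e π hequiv q (Additive.ofMul ((g : Q) • u)) =
      (CwK S π q).ρ g (cwAll S e π hequiv q (Additive.ofMul u)) := by
  obtain ⟨τ, rfl⟩ := locMap_surjective (H := fun q : ↥S => primeLocalGaloisGroup q.1) π
    (fun q : ↥S => primeLocalToGlobal q.1) q g
  apply Subtype.ext
  rw [invRep_ρ_coe]
  refine Additive.toMul.injective (Units.ext ?_)
  exact thetaL_smul q.1 e π hequiv τ _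

/-- For a group stabilising the ideal `m`, the block `Global.orbitUnits G L q m` consists of the
units which are `≡ 1` modulo every maximal ideal different from `m`. -/
theorem mem_orbitUnits_iff_of_stab {G : Type} [Group G] [MulSemiringAction G L] (q : ℕ)
    [Fact q.Prime] (m : Ideal (Global.SemiLocal L q))
    (hG : ∀ (g : G) (x : Global.SemiLocal L q), g • x ∈ m ↔ x ∈ m)
    (x : (Global.SemiLocal L q)ˣ) :
    x ∈ Global.orbitUnits G L q m ↔
      ∀ m' : Ideal (Global.SemiLocal L q), m'.IsMaximal → m' ≠ m →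
        (x : Global.SemiLocal L q) - 1 ∈ m' := by
  constructor
  · intro hx m' hm' hne
    refine hx m' hm' fun g => ?_
    by_contra hcon
    push Not at hcon
    exact hne (Ideal.ext fun a => (hcon a).trans (hG g a))
  · intro hx m' hm' h
    refine hx m' hm' fun heq => ?_
    obtain ⟨a, ha⟩ := h 1
    apply ha
    rw [one_smul, heq]

/-- The block of an ideal does not depend on the group, as long as the group stabilises it. -/
theorem orbitUnits_eq_of_stab {G G' : Type} [Group G] [Group G'] [MulSemiringAction G L]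
    [MulSemiringAction G' L] (q : ℕ) [Fact q.Prime] (m : Ideal (Global.SemiLocal L q))
    (hG : ∀ (g : G) (x : Global.SemiLocal L q), g • x ∈ m ↔ x ∈ m)
    (hG' : ∀ (g : G') (x : Global.SemiLocal L q), g • x ∈ m ↔ x ∈ m) :
    Global.orbitUnits G L q m = Global.orbitUnits G' L q m := by
  ext x
  rw [mem_orbitUnits_iff_of_stab q m hG, mem_orbitUnits_iff_of_stab q m hG']

end Block

/-! ## The one-place block of a field model is the local module `CwK q` -/

section FieldModel

variable (S : Finset Nat.Primes) {L : Type} [Field L] [NumberField L] (e : L →+* Qb)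
  {Q : Type} [Group Q] [MulSemiringAction Q L] (π : GQ →* Q)
  {K : IntermediateField ℚ Qb} (hK : IsNLevel S K)
  (hπ : Function.Surjective π) (hker : π.ker = K.fixingSubgroup)
  (hsurj : ∀ y ∈ K, ∃ x : L, e x = y) (hequiv : ∀ (g : GQ) (x : L), e (π g • x) = g (e x))

include hK hπ hker hsurj hequiv in
/-- The block of `m_q = ker (thetaL q e)` for ANY group stabilising `m_q`: the units whose
translates by the `g ∉ locImage π q` have local component `1`. -/
theorem mem_block_iff [Fintype Q] (q : Nat.Primes) {G : Type} [Group G] [MulSemiringAction G L]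
    (hG : ∀ (g : G) (x : Global.SemiLocal L (q : ℕ)),
      g • x ∈ RingHom.ker (thetaL q e) ↔ x ∈ RingHom.ker (thetaL q e))
    (x : (Global.SemiLocal L (q : ℕ))ˣ) :
    x ∈ Global.orbitUnits G L (q : ℕ) (RingHom.ker (thetaL q e)) ↔
      ∀ g : Q, g ∉ Plan.locImage π q →
        thetaL q e (g • (x : Global.SemiLocal L (q : ℕ))) = 1 := by
  have := finiteDimensional_of_isNLevel S hK
  have := normal_of_isNLevel S hK
  have hbot : ∀ (g : ↥(⊥ : Subgroup Q)) (x : Global.SemiLocal L (q : ℕ)),
      g • x ∈ RingHom.ker (thetaL q e) ↔ x ∈ RingHom.ker (thetaL q e) := by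
    intro g x
    have h1 : g = 1 := Subsingleton.elim g 1
    have h2 : g • x = x := by
      rw [h1]
      exact one_smul _ x
    rw [h2]
  rw [orbitUnits_eq_of_stab (G' := ↥(⊥ : Subgroup Q)) (q : ℕ) _ hG hbot]
  exact mem_orbitUnits_iff q e π K hπ hker hsurj hequiv ⊥ bot_le x

include hK hπ hker hsurj hequiv in
/-- A subgroup of the decomposition group `GwK q` stabilises `m_q`. -/
theorem stab_of_subgroup (q : ↥S) (H : Subgroup ↥(GwK S π q)) (g : ↥H)
    (x : Global.SemiLocal L (q.1 : ℕ)) :
    ((g : ↥(GwK S π q)) : Q) • x ∈ RingHom.ker (thetaL q.1 e) ↔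
      x ∈ RingHom.ker (thetaL q.1 e) := by
  have := finiteDimensional_of_isNLevel S hK
  have := normal_of_isNLevel S hK
  have hDG := decompGroup_ker_thetaL q.1 e π K hπ hker hsurj hequiv
  have hmem : ((g : ↥(GwK S π q)) : Q) ∈
      Global.decompGroup Q L (q.1 : ℕ) (RingHom.ker (thetaL q.1 e)) := by
    rw [hDG]
    exact (g : ↥(GwK S π q)).2
  exact (Global.mem_decompGroup_iff Q L (q.1 : ℕ) _ _).mp hmem x

/-- The block of `m_q` (for a group `G` acting on `L`) → the local module `CwK q`: the local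
component at the place fixed by the Prelude. -/
def blockCw (q : ↥S) (G : Type) [Group G] [MulSemiringAction G L] :
    (Global.orbitRep G L (q.1 : ℕ) (RingHom.ker (thetaL q.1 e))).V →+ CwK S π q :=
  (cwAll S e π hequiv q).comp
    (Global.addSub (Global.orbitUnits G L (q.1 : ℕ)
      (RingHom.ker (thetaL q.1 e)))).subtype.toAddMonoidHom

theorem blockCw_apply (q : ↥S) (G : Type) [Group G] [MulSemiringAction G L]
    (a : (Global.orbitRep G L (q.1 : ℕ) (RingHom.ker (thetaL q.1 e))).V) :
    blockCw S e π hequiv q G a =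
      cwAll S e π hequiv q ((show ↥(Global.addSub (Global.orbitUnits G L (q.1 : ℕ)
        (RingHom.ker (thetaL q.1 e)))) from a) : Additive (Global.SemiLocal L (q.1 : ℕ))ˣ) := rfl

include hK hπ hker hsurj in
/-- The block → `CwK q` is injective. -/
theorem blockCw_injective [Fintype Q] (q : ↥S) {G : Type} [Group G] [MulSemiringAction G L]
    (hG : ∀ (g : G) (x : Global.SemiLocal L (q.1 : ℕ)),
      g • x ∈ RingHom.ker (thetaL q.1 e) ↔ x ∈ RingHom.ker (thetaL q.1 e)) :
    Function.Injective (blockCw S e π hequiv q G) := by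
  intro a b hab
  have ha := (mem_block_iff S e π hK hπ hker hsurj hequiv q.1 hG _).mp
    (show ↥(Global.addSub (Global.orbitUnits G L (q.1 : ℕ)
      (RingHom.ker (thetaL q.1 e)))) from a).2
  have hb := (mem_block_iff S e π hK hπ hker hsurj hequiv q.1 hG _).mp
    (show ↥(Global.addSub (Global.orbitUnits G L (q.1 : ℕ)
      (RingHom.ker (thetaL q.1 e)))) from b).2
  have h1 := congrArg (fun c : CwK S π q =>
    ((Additive.toMul (((c : invSub _ (XQ q.1)) : XQ q.1) : Additive (PadicAlgCl (q.1 : ℕ))ˣ) :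
      (PadicAlgCl (q.1 : ℕ))ˣ) : PadicAlgCl (q.1 : ℕ))) hab
  have h3 := block_unit_unique q.1 e π hequiv _ _ h1 ha hb
  exact Subtype.ext (congrArg Additive.ofMul h3)

include hK hπ hker hsurj in
/-- The block → `CwK q` is surjective. -/
theorem blockCw_surjective [Fintype Q] (q : ↥S) {G : Type} [Group G] [MulSemiringAction G L]
    (hG : ∀ (g : G) (x : Global.SemiLocal L (q.1 : ℕ)),
      g • x ∈ RingHom.ker (thetaL q.1 e) ↔ x ∈ RingHom.ker (thetaL q.1 e)) :
    Function.Surjective (blockCw S e π hequiv q G) := by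
  have := finiteDimensional_of_isNLevel S hK
  have := normal_of_isNLevel S hK
  intro c
  let y : (PadicAlgCl (q.1 : ℕ))ˣ :=
    Additive.toMul (((c : invSub _ (XQ q.1)) : XQ q.1) : Additive (PadicAlgCl (q.1 : ℕ))ˣ)
  have hy : ∀ τ : PadicAlgCl (q.1 : ℕ) ≃ₐ[ℚ_[(q.1 : ℕ)]] PadicAlgCl (q.1 : ℕ),
      π (localGaloisToGlobal (q.1 : ℕ) τ) = 1 → τ (y : PadicAlgCl (q.1 : ℕ)) = y := by
    intro τ hτ
    have hmem : (show primeLocalGaloisGroup q.1 from τ) ∈
        (locMap (H := fun q : ↥S => primeLocalGaloisGroup q.1) π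
          (fun q : ↥S => primeLocalToGlobal q.1) q).ker := by
      rw [MonoidHom.mem_ker]
      exact Subtype.ext hτ
    have h1 := (c : invSub _ (XQ q.1)).2 _ hmem
    exact congrArg (fun z : Additive (PadicAlgCl (q.1 : ℕ))ˣ =>
      ((Additive.toMul z : (PadicAlgCl (q.1 : ℕ))ˣ) : PadicAlgCl (q.1 : ℕ))) h1
  obtain ⟨u, hu1, hu2⟩ := exists_block_unit q.1 e π K hker hsurj hequiv y hy
  have humem : u ∈ Global.orbitUnits G L (q.1 : ℕ) (RingHom.ker (thetaL q.1 e)) := by
    rw [mem_block_iff S e π hK hπ hker hsurj hequiv q.1 hG]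
    intro g hg
    obtain ⟨γ, rfl⟩ := hπ g
    exact hu2 γ hg
  refine ⟨(show ↥(Global.addSub (Global.orbitUnits G L (q.1 : ℕ)
    (RingHom.ker (thetaL q.1 e)))) from ⟨Additive.ofMul u, humem⟩), ?_⟩
  apply Subtype.ext
  refine Additive.toMul.injective (Units.ext ?_)
  exact hu1

/-- The block → `CwK q` is equivariant for the subgroups of the decomposition group. -/
theorem blockCw_rho (q : ↥S) (H : Subgroup ↥(GwK S π q)) (g : ↥H)
    (a : (Global.orbitRep ↥H L (q.1 : ℕ) (RingHom.ker (thetaL q.1 e))).V) :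
    blockCw S e π hequiv q ↥H
        ((Global.orbitRep ↥H L (q.1 : ℕ) (RingHom.ker (thetaL q.1 e))).ρ g a) =
      (CwK S π q).ρ (g : ↥(GwK S π q)) (blockCw S e π hequiv q ↥H a) :=
  cwAll_smul S e π hequiv q (g : ↥(GwK S π q))
    (Additive.toMul ((show ↥(Global.addSub (Global.orbitUnits ↥H L (q.1 : ℕ)
      (RingHom.ker (thetaL q.1 e)))) from a) : Additive (Global.SemiLocal L (q.1 : ℕ))ˣ))

end FieldModel

/-! ## `jlocMS q` on the block: the idele with one non-trivial component -/

section Comp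

variable (S : Finset Nat.Primes) {L : Type} [Field L] [NumberField L] (e : L →+* Qb)
  {Q : Type} [Group Q] [MulSemiringAction Q L] (π : GQ →* Q)
  {K : IntermediateField ℚ Qb} (hK : IsNLevel S K) (he : ∀ x : L, e x ∈ K)
  (hπ : Function.Surjective π) (hker : π.ker = K.fixingSubgroup)
  (hsurj : ∀ y ∈ K, ∃ x : L, e x = y) (hequiv : ∀ (g : GQ) (x : L), e (π g • x) = g (e x))
  (hi : JSInj S) (hs : JSSurj S)
  (hJ' : Level.IsFiniteLevel (nLevels S) (JS S) K π (Global.sIdeleRep Q L S)
    (jsModel S e Q K hK he))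

/-- The `S`-idele of `L` with the component `u` at `q ∈ S` and trivial components elsewhere. -/
def oneIdele (Q : Type) [Group Q] [MulSemiringAction Q L] (q : ↥S)
    (u : (Global.SemiLocal L (q.1 : ℕ))ˣ) : (Global.sIdeleRep Q L S).V :=
  (show ↥(Global.addSub (Global.supportedOn L S)) from
    ⟨Additive.ofMul (Pi.mulSingle q.1 u : Global.IdeleProd L), by
      intro q' hq'
      have hne : q' ≠ q.1 := fun h => hq' (h ▸ q.2)
      exact Pi.mulSingle_eq_of_ne (M := fun q : Nat.Primes => (Global.SemiLocal L (q : ℕ))ˣ)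
        hne u⟩)

theorem sIdeleVal_oneIdele (q : ↥S) (u : (Global.SemiLocal L (q.1 : ℕ))ˣ) :
    sIdeleVal S Q (oneIdele S Q q u) = Pi.mulSingle q.1 u := rfl

include hπ hker hsurj hequiv in
/-- **[LOCDICT] (iii), block form**: `jlocMS q` of the local component of a block unit `u` is
the `S`-idele with the component `u` at `q` and trivial components elsewhere. -/
theorem jlocMS_blockCw [Fintype Q] (q : ↥S) {G : Type} [Group G] [MulSemiringAction G L]
    (hG : ∀ (g : G) (x : Global.SemiLocal L (q.1 : ℕ)),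
      g • x ∈ RingHom.ker (thetaL q.1 e) ↔ x ∈ RingHom.ker (thetaL q.1 e))
    (a : (Global.orbitRep G L (q.1 : ℕ) (RingHom.ker (thetaL q.1 e))).V) :
    jlocMS S π hi hs (Global.sIdeleRep Q L S) (jsModel S e Q K hK he) hJ' q
        (blockCw S e π hequiv q G a) =
      oneIdele S Q q (Additive.toMul ((show ↥(Global.addSub (Global.orbitUnits G L (q.1 : ℕ)
        (RingHom.ker (thetaL q.1 e)))) from a) : Additive (Global.SemiLocal L (q.1 : ℕ))ˣ)) := by
  have := finiteDimensional_of_isNLevel S hK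
  have := normal_of_isNLevel S hK
  set u : (Global.SemiLocal L (q.1 : ℕ))ˣ :=
    Additive.toMul ((show ↥(Global.addSub (Global.orbitUnits G L (q.1 : ℕ)
      (RingHom.ker (thetaL q.1 e)))) from a) : Additive (Global.SemiLocal L (q.1 : ℕ))ˣ) with hu
  have humem : u ∈ Global.orbitUnits G L (q.1 : ℕ) (RingHom.ker (thetaL q.1 e)) :=
    (show ↥(Global.addSub (Global.orbitUnits G L (q.1 : ℕ)
      (RingHom.ker (thetaL q.1 e)))) from a).2
  have hblock := (mem_block_iff S e π hK hπ hker hsurj hequiv q.1 hG u).mp humem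
  have hsame : sIdeleVal S Q (oneIdele S Q q u) q.1 = u :=
    Pi.mulSingle_eq_same (M := fun q : Nat.Primes => (Global.SemiLocal L (q : ℕ))ˣ) q.1 u
  have hsupp := (supp_iff S e Q π K hK he hπ hker hsurj hequiv q ⊥ bot_le
    (oneIdele S Q q u)).mpr
    ⟨by
      rw [hsame]
      exact (mem_orbitUnits_iff q.1 e π K hπ hker hsurj hequiv ⊥ bot_le u).mpr hblock,
     fun q'' hne => Pi.mulSingle_eq_of_ne
      (M := fun q : Nat.Primes => (Global.SemiLocal L (q : ℕ))ˣ) hne u⟩
  have h1 := eq_jlocMS_of_supp S π hi hs (Global.sIdeleRep Q L S) (jsModel S e Q K hK he) hJ' q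
    (oneIdele S Q q u) (fun q' g hor => by
      obtain ⟨γ, rfl⟩ := hπ g
      apply Subtype.ext
      show prQ S q' (jsModel S e Q K hK he
        ((Global.sIdeleRep Q L S).ρ (π γ) (oneIdele S Q q u))) = 0
      rw [jsModel_rho S e Q K hK he π hequiv]
      exact hsupp q' γ hor)
  have h2 : prMS S π (Global.sIdeleRep Q L S) (jsModel S e Q K hK he) hJ' q (oneIdele S Q q u) =
      blockCw S e π hequiv q G a := by
    apply Subtype.ext
    refine Additive.toMul.injective (Units.ext ?_)
    show thetaQ q.1 (Global.semiLocalMap (q.1 : ℕ) e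
      (((Pi.mulSingle q.1 u : Global.IdeleProd L) q.1 : (Global.SemiLocal L (q.1 : ℕ))ˣ) :
        Global.SemiLocal L (q.1 : ℕ))) = thetaL q.1 e (u : Global.SemiLocal L (q.1 : ℕ))
    rw [Pi.mulSingle_eq_same]
    rfl
  rw [← h2]
  exact h1.symm

/-- The class in `C_S(L)` of the idele with one non-trivial component, a block unit, is its
image under `Global.orbitToClassS`. -/
theorem sIdeleToClassS_oneIdele (q : ↥S) (G : Type) [Group G] [MulSemiringAction G L]
    (a : (Global.orbitRep G L (q.1 : ℕ) (RingHom.ker (thetaL q.1 e))).V) :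
    (Global.sIdeleToClassS Q L S).hom
        (oneIdele S Q q (Additive.toMul ((show ↥(Global.addSub (Global.orbitUnits G L (q.1 : ℕ)
          (RingHom.ker (thetaL q.1 e)))) from a) : Additive (Global.SemiLocal L (q.1 : ℕ))ˣ))) =
      (Global.orbitToClassS G L q.1 (RingHom.ker (thetaL q.1 e)) S).hom a := rfl

include hπ hker hsurj hequiv in
/-- **[LGI-Top] from [LGI].**  For a field model `(Q, L, π, e)` of a normal `S`-level `K` and
`q ∈ S`: if `Global.orbitToClassS` is injective on `H²(H, -)` for the `p`-subgroups `H` of the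
decomposition group `GwK q`, then `j = (J_S(L) → C_S(L)) ∘ jlocMS q : CwK q →+ C_S(L)` is
injective on `H²(H, -)` for these `H` (cocycle form: the hypothesis `hinj` of
`Glob.LGAbstract.exists_normalised_class`). -/
theorem hinj_of_lgi [Fintype Q] (p : ℕ) (q : ↥S)
    (j : CwK S π q →+ (Global.classRepS Q L S).V)
    (hj : ∀ c, j c = (Global.sIdeleToClassS Q L S).hom
      (jlocMS S π hi hs (Global.sIdeleRep Q L S) (jsModel S e Q K hK he) hJ' q c))
    (hLGI : ∀ H : Subgroup ↥(GwK S π q), IsPGroup p H →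
      Function.Injective ((groupCohomology.functor ℤ ↥H 2).map
        (Global.orbitToClassS ↥H L q.1 (RingHom.ker (thetaL q.1 e)) S)).hom) :
    ∀ H : Subgroup ↥(GwK S π q), IsPGroup p H → ∀ τ : H × H → CwK S π q,
      (∀ g h k : H, τ (g * h, k) + τ (g, h) =
        (CwK S π q).ρ (g : ↥(GwK S π q)) (τ (h, k)) + τ (g, h * k)) →
      (∃ b : H → (Global.classRepS Q L S).V, ∀ g h : H, j (τ (g, h)) =
        (Global.classRepS Q L S).ρ ((g : ↥(GwK S π q)) : Q) (b h) - b (g * h) + b g) →
      ∃ a : H → CwK S π q, ∀ g h : H,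
        τ (g, h) = (CwK S π q).ρ (g : ↥(GwK S π q)) (a h) - a (g * h) + a g := by
  intro H hH τ hτ ⟨b, hb⟩
  have hG : ∀ (g : ↥H) (x : Global.SemiLocal L (q.1 : ℕ)),
      g • x ∈ RingHom.ker (thetaL q.1 e) ↔ x ∈ RingHom.ker (thetaL q.1 e) :=
    fun g x => stab_of_subgroup S e π hK hπ hker hsurj hequiv q H g x
  exact H2Dict.cobound_transport (P := ↥H)
    (A := (Global.orbitRep ↥H L (q.1 : ℕ) (RingHom.ker (thetaL q.1 e))).V)
    (B' := CwK S π q) (C := (Global.classRepS Q L S).V) (C' := (Global.classRepS Q L S).V)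
    (fun g => ((Global.orbitRep ↥H L (q.1 : ℕ) (RingHom.ker (thetaL q.1 e))).ρ g).toAddMonoidHom)
    (fun g => ((CwK S π q).ρ (g : ↥(GwK S π q))).toAddMonoidHom)
    (fun g => ((Global.classRepS Q L S).ρ ((g : ↥(GwK S π q)) : Q)).toAddMonoidHom)
    (fun g => ((Global.classRepS Q L S).ρ ((g : ↥(GwK S π q)) : Q)).toAddMonoidHom)
    (AddMonoidHomClass.toAddMonoidHom
      (Global.orbitToClassS ↥H L q.1 (RingHom.ker (thetaL q.1 e)) S).hom)
    (blockCw S e π hequiv q ↥H) j (AddMonoidHom.id _)
    ⟨blockCw_injective S e π hK hπ hker hsurj hequiv q hG,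
      blockCw_surjective S e π hK hπ hker hsurj hequiv q hG⟩
    (fun g a => blockCw_rho S e π hequiv q H g a)
    (fun g c => rfl)
    (fun a => by
      show j (blockCw S e π hequiv q ↥H a) = _
      rw [hj, jlocMS_blockCw S e π hK he hπ hker hsurj hequiv hi hs hJ' q hG a]
      exact sIdeleToClassS_oneIdele S e q ↥H a)
    (fun u hu hex => by
      obtain ⟨b', hb'⟩ := hex
      exact H2Dict.exists_cobound_of_map_injective
        (Global.orbitToClassS ↥H L q.1 (RingHom.ker (thetaL q.1 e)) S) (hLGI H hH) u hu b' hb')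
    τ hτ b hb

include hπ hker hsurj hequiv in
/-- **[LGI-Top].**  For a field model `(Q, L, π, e)` of a normal `S`-level `K` (`Q` acting
faithfully, `L` unramified outside `S`), `q ∈ S` and an odd prime `p`: from
`Global.Plan.LocalGlobalInj` and `Global.Plan.SClassCompare`, the map
`j = (J_S(L) → C_S(L)) ∘ jlocMS q : CwK q →+ C_S(L)` is injective on `H²(H, -)` for the
`p`-subgroups `H` of the decomposition group `GwK q` (cocycle form: the hypothesis `hinj` of
`Glob.LGAbstract.exists_normalised_class`). -/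
theorem hinj_of_plan [Fintype Q] [FaithfulSMul Q L] (hF2 : Global.Plan.LocalGlobalInj)
    (hG3 : Global.Plan.SClassCompare) (hU : Global.UnramOutside S L)
    (p : ℕ) [Fact p.Prime] (hp : p ≠ 2) (q : ↥S)
    (j : CwK S π q →+ (Global.classRepS Q L S).V)
    (hj : ∀ c, j c = (Global.sIdeleToClassS Q L S).hom
      (jlocMS S π hi hs (Global.sIdeleRep Q L S) (jsModel S e Q K hK he) hJ' q c)) :
    ∀ H : Subgroup ↥(GwK S π q), IsPGroup p H → ∀ τ : H × H → CwK S π q,
      (∀ g h k : H, τ (g * h, k) + τ (g, h) =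
        (CwK S π q).ρ (g : ↥(GwK S π q)) (τ (h, k)) + τ (g, h * k)) →
      (∃ b : H → (Global.classRepS Q L S).V, ∀ g h : H, j (τ (g, h)) =
        (Global.classRepS Q L S).ρ ((g : ↥(GwK S π q)) : Q) (b h) - b (g * h) + b g) →
      ∃ a : H → CwK S π q, ∀ g h : H,
        τ (g, h) = (CwK S π q).ρ (g : ↥(GwK S π q)) (a h) - a (g * h) + a g :=
  hinj_of_lgi S e π hK he hπ hker hsurj hequiv hi hs hJ' p q j hj (fun H hH => by
    classical
    have : Fintype ↥H := Fintype.ofFinite _
    exact orbitToClassS_injective hF2 hG3 p hp ↥H L hH S ⟨q.1, q.2⟩ hU q.1 _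
      (isMaximal_ker_thetaL q.1 e))

end Comp

end Fermat.Agent.CFT.Glob.TopBridge.LGITop
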