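import Fermat.Agent.CFT.Glob.TopBridge.ArithDual
import Fermat.Agent.CFT.Glob.TopBridge.Comp
import Fermat.Agent.CFT.Glob.TopBridge.ExTop
import Fermat.Agent.CFT.Glob.ClassExport
import Fermat.Agent.CFT.Top.LocalClassProvide
import Fermat.Agent.CFT.Top.SemilocalProvide
import Fermat.Agent.CFT.Local.Hilbert90Fun

/-!
# P3 / CFT, [TOPBRIDGE]: `Top.Plan.ArithDual` from the Global plan

`arithDual_of_plan` : for `p ≠ 2`, `p ∈ S` and a normal `S`-level `F ⊇ μ_p`
(`F.fixingSubgroup ≤ (cycloChar p).ker`), the Global Plan props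
`ExistenceModP`, `ClassDescentS`, `ClassFormationP`, `SClassCompare`
and the remaining bridge leaves ([TAU], [HDESC], [HCAP], [LGI-Top], as hypotheses) give
`Top.Plan.ArithDual S p F`.

Wiring only: [EX] by `ExTop.exists_nLevel_normDiv`, the `p`-class cocycle on `C_S(K)` by
`ClassExport.sClassModule`, the local classes by `LocalClass.arithCore_A3`, [HCOMP] by `hComp`,
the semilocal interface by `Semilocal.jsInj / jsSurj`.
-/

set_option autoImplicit false

open CategoryTheory groupCohomology ExtCitation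

namespace Fermat.Agent.CFT.Glob.TopBridge

open Fermat.Agent.CFT Fermat.Agent.CFT.Top Fermat.Agent.CFT.Top.FinModel
  Fermat.Agent.CFT.Top.SpinePlan Fermat.Agent.CFT.Triv

/-- A level whose Galois group acts trivially on `μ_p` contains a primitive `p`-th root of
unity. -/
theorem exists_primitiveRoot_of_le_ker {p : ℕ} [Fact p.Prime] (F : IntermediateField ℚ Qb)
    (hμ : F.fixingSubgroup ≤ (cycloChar p).ker) : ∃ ζ : F, IsPrimitiveRoot ζ p := by
  have hp : p.Prime := Fact.out
  have : NeZero p := ⟨hp.ne_zero⟩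
  obtain ⟨ζ₀, hζ₀⟩ := HasEnoughRootsOfUnity.exists_primitiveRoot Qb p
  have hmem : ζ₀ ∈ F := by
    rw [← InfiniteGalois.fixedField_fixingSubgroup F, IntermediateField.mem_fixedField_iff]
    intro σ hσ
    have h1 : cycloChar p σ = 1 := hμ hσ
    have h2 := Fermat.Agent.CFT.Local.Hilbert90Fun.apply_eq_pow_cycloChar p σ ζ₀ hζ₀.pow_eq_one
    rw [h1] at h2
    have : Fact (1 < p) := ⟨hp.one_lt⟩
    rw [Units.val_one, ZMod.val_one, pow_one] at h2
    exact h2
  refine ⟨⟨ζ₀, hmem⟩, ?_⟩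
  exact IsPrimitiveRoot.of_map_of_injective (f := F.val) hζ₀ Subtype.val_injective

set_option synthInstance.maxHeartbeats 400000 in
/-- **[TOPBRIDGE]** from the Global plan and the remaining bridge leaves. -/
theorem arithDual_of_plan {p : ℕ} [Fact p.Prime] (hp2 : p ≠ 2) (S : Finset Nat.Primes)
    (hpS : pPrime p ∈ S) (F : IntermediateField ℚ Qb) (hF : IsNLevel S F)
    (hμ : F.fixingSubgroup ≤ (cycloChar p).ker)
    (hEX : Global.ExistPlan.ExistenceModP) (hG2 : Global.Plan.ClassDescentS)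
    (hF1 : Global.Plan.ClassFormationP) (hG3 : Global.Plan.SClassCompare)
    (hτ : ∀ K : IntermediateField ℚ Qb, IsNLevel S K → TauInj S K)
    (hdesc : ∀ K : IntermediateField ℚ Qb, IsNLevel S K → HDesc S K)
    (hcap : ∀ K : IntermediateField ℚ Qb, IsNLevel S K → HCap S K p)
    (hLGI : ∀ (K : IntermediateField ℚ Qb) (hK : IsNLevel S K),
      LGInjTop S p hK (Top.Semilocal.jsInj S) (Top.Semilocal.jsSurj S)) :
    Top.Plan.ArithDual S p F := by
  have hS : S.Nonempty := ⟨_, hpS⟩
  refine arithDual_of_leaves S F (Top.Semilocal.jsInj S) (Top.Semilocal.jsSurj S) hτ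
    (fun K hK => hComp S K hK) hdesc hcap ?_ ?_ ?_ hLGI
  · -- the `p`-class cocycle on `C_S(K)`
    intro K hK
    have : NumberField K := Model.numberField hK
    have : Finite (Model.Gal K) := Model.finite_gal hK
    let _ : Fintype (Model.Gal K) := Fintype.ofFinite _
    exact Glob.ClassExport.sClassModule hF1 hG3 p hp2 (Model.Gal K) K S hS (Model.unramOutside hK)
  · -- [EX]
    intro K₁ hK₁ _
    obtain ⟨K₀, hK₀, _, H⟩ := ExTop.exists_nLevel_normDiv hEX hG2 hp2 S ⟨_, hpS, rfl⟩ F hF.1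
      (exists_primitiveRoot_of_le_ker F hμ)
    have hK : IsNLevel S (K₀ ⊔ K₁) := hK₀.sup hK₁
    exact ⟨K₀ ⊔ K₁, hK, le_sup_right, @H (K₀ ⊔ K₁) hK le_sup_left (Model.normal hK)⟩
  · -- the local classes
    intro K hK q
    have : FiniteDimensional ℚ K := hK.1.1
    obtain ⟨σw, h⟩ := Top.LocalClass.arithCore_A3 S (resK S hK) p (resK_ker hK)
    exact ⟨σw q, h q⟩

end Fermat.Agent.CFT.Glob.TopBridge
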